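import Fermat.Agent.ECTorsion.WeilGalois
import Fermat.Prelude.Def_FreyPackage_DetCyclotomic

/-!
# The determinant of the mod `p` representation is the cyclotomic character

An endomorphism of `E[p]` induced by a field endomorphism fixing the curve acts on `μ_p` through
its determinant (`apply_eq_pow_det`, by the Weil pairing). This gives `galoisRepDetEqCyclotomic`.
-/

set_option autoImplicit false

open WeierstrassCurve.Affine
open scoped WeierstrassCurve.Affine

namespace FLTAgent.ECTorsion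

universe u v w

section Core

variable {R : Type u} [CommRing R] {K : Type v} [Field K] [DecidableEq K] [Algebra R K]
  [IsAlgClosed K] (W' : WeierstrassCurve.Affine R) [(W'⁄K).IsElliptic]

variable {n : ℕ} [NeZero n]

set_option quotPrecheck false in
local notation "𝕋" => Submodule.torsionBy ℤ (W'⁄K).Point (n : ℤ)

open Weil in
/-- On a free `E[n]` the Weil pairing of a basis is primitive and endomorphisms act on it through
their determinant. -/
theorem exists_primitive_pair [DecidableEq (W'⁄K).FunctionField] (hn : (n : K) ≠ 0)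
    (b : Module.Basis (Fin 2) (ZMod n) 𝕋) :
    ∃ z₀ z₁ : 𝕋, IsPrimitiveRoot (weilPairing (W'⁄K) hn z₀ z₁) n ∧
      ∀ f : 𝕋 →ₗ[ZMod n] 𝕋,
        weilPairing (W'⁄K) hn (f z₀) (f z₁) =
          weilPairing (W'⁄K) hn z₀ z₁ ^ (LinearMap.det f).val := by
  have tor : ∀ z : 𝕋, n • (z : (W'⁄K).Point) = 0 :=
    fun z => (mem_torsionBy_iff_nsmul n _).mp z.2
  set P0 : (W'⁄K).Point := (b 0 : (W'⁄K).Point) with hP0d
  set P1 : (W'⁄K).Point := (b 1 : (W'⁄K).Point) with hP1d
  have h0 : n • P0 = 0 := tor _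
  have h1 : n • P1 = 0 := tor _
  set ζ0 := weilPairing (W'⁄K) hn P0 P1 with hζ0d
  have hζ0 : ζ0 ^ n = 1 := weilPairing_pow hn h0 h1
  have hζ0ne : ζ0 ≠ 0 := weilPairing_ne_zero hn h0 h1
  have h10 : weilPairing (W'⁄K) hn P1 P0 = ζ0⁻¹ := by
    have h01 : n • (P0 + P1) = 0 := by rw [nsmul_add, h0, h1, add_zero]
    have := weilPairing_self (W := W'⁄K) hn h01
    rw [weilPairing_add_left hn h0 h1 h01, weilPairing_add_right hn h0 h0 h1,
      weilPairing_add_right hn h1 h0 h1, weilPairing_self hn h0, weilPairing_self hn h1, one_mul,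
      mul_one] at this
    exact eq_inv_of_mul_eq_one_right this
  have a0 : ∀ m : ℕ, n • (m • P0) = 0 := fun m => by rw [nsmul_left_comm, h0, nsmul_zero]
  have a1 : ∀ m : ℕ, n • (m • P1) = 0 := fun m => by rw [nsmul_left_comm, h1, nsmul_zero]
  have hz : ∀ z : 𝕋, (z : (W'⁄K).Point) = (b.repr z 0).val • P0 + (b.repr z 1).val • P1 :=
    fun z => by
    conv_lhs => rw [← b.sum_repr z, Fin.sum_univ_two]
    rw [Submodule.coe_add]
    congr 1
    · conv_lhs => rw [← ZMod.natCast_zmod_val (b.repr z 0), Nat.cast_smul_eq_nsmul]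
      rfl
    · conv_lhs => rw [← ZMod.natCast_zmod_val (b.repr z 1), Nat.cast_smul_eq_nsmul]
      rfl
  have hpair : ∀ z w : 𝕋,
      weilPairing (W'⁄K) hn z w = ζ0 ^ ((b.repr z 0).val * (b.repr w 1).val) *
        (ζ0⁻¹) ^ ((b.repr z 1).val * (b.repr w 0).val) := fun z w => by
    rw [hz z, hz w, weilPairing_add_left hn (a0 _) (a1 _) (by rw [nsmul_add, a0, a1, add_zero]),
      weilPairing_add_right hn (a0 _) (a0 _) (a1 _), weilPairing_add_right hn (a1 _) (a0 _) (a1 _),
      weilPairing_nsmul_left hn h0 (a0 _), weilPairing_nsmul_left hn h0 (a1 _),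
      weilPairing_nsmul_left hn h1 (a0 _), weilPairing_nsmul_left hn h1 (a1 _),
      weilPairing_nsmul_right hn h0 h0, weilPairing_nsmul_right hn h0 h1,
      weilPairing_nsmul_right hn h1 h0, weilPairing_nsmul_right hn h1 h1, weilPairing_self hn h0,
      weilPairing_self hn h1, h10, ← hζ0d]
    simp only [one_pow, one_mul, mul_one, ← pow_mul]
    rw [mul_comm (b.repr w 1).val, mul_comm (b.repr w 0).val]
  have hord : orderOf ζ0 = n := by
    refine Nat.dvd_antisymm (orderOf_dvd_of_pow_eq_one hζ0) ?_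
    set m := orderOf ζ0 with hm
    have hmP : m • P1 = 0 := by
      by_contra hne
      obtain ⟨P, hP, hne'⟩ := weilPairing_nondegenerate (W := W'⁄K) hn (a1 m) hne
      refine hne' ?_
      have h2 := hpair ⟨P, (mem_torsionBy_iff_nsmul n P).mpr hP⟩ (b 1)
      rw [weilPairing_nsmul_right hn hP h1, h2, mul_pow, pow_right_comm ζ0 _ m,
        pow_right_comm ζ0⁻¹ _ m, inv_pow ζ0 m, hm, pow_orderOf_eq_one, inv_one, one_pow, one_pow,
        one_mul]
    have h3 : (m : ZMod n) • b 1 = 0 := Subtype.ext (by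
      rw [Nat.cast_smul_eq_nsmul]; exact hmP)
    have h4 := congrArg (fun z => b.repr z 1) h3
    simp only [map_smul, Module.Basis.repr_self, Finsupp.smul_apply, Finsupp.single_eq_same,
      _root_.map_zero, Finsupp.coe_zero, Pi.zero_apply, smul_eq_mul, mul_one] at h4
    exact (ZMod.natCast_eq_zero_iff _ _).mp h4
  refine ⟨b 0, b 1, by simpa [← hP0d, ← hP1d, ← hζ0d, hord] using IsPrimitiveRoot.orderOf ζ0,
    fun f => ?_⟩
  rw [hpair, inv_pow, ← hP0d, ← hP1d, ← hζ0d, ← div_eq_mul_inv,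
    div_eq_iff (pow_ne_zero _ hζ0ne), ← pow_add, pow_eq_pow_mod _ hζ0]
  conv_rhs => rw [pow_eq_pow_mod _ hζ0]
  congr 1
  rw [← ZMod.natCast_eq_natCast_iff']
  push_cast
  rw [ZMod.natCast_zmod_val, ← LinearMap.det_toMatrix b f, Matrix.det_fin_two]
  simp only [ZMod.natCast_zmod_val, LinearMap.toMatrix_apply]
  ring

open Weil in
/-- An endomorphism of a free `E[n]` induced by a field endomorphism `s` fixing the curve acts on
`μ_n` through its determinant. -/
theorem apply_eq_pow_det (hn : (n : K) ≠ 0) (b : Module.Basis (Fin 2) (ZMod n) 𝕋) {s : K →+* K}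
    (hs : FixesCurve (W'⁄K) s) {s' : (W'⁄K).Point ≃+ (W'⁄K).Point} (hs' : Compatible s s')
    (f : 𝕋 →ₗ[ZMod n] 𝕋) (hf : ∀ z : 𝕋, (f z : (W'⁄K).Point) = s' (z : (W'⁄K).Point))
    {ζ : K} (hζ : ζ ^ n = 1) : s ζ = ζ ^ (LinearMap.det f).val := by
  classical
  obtain ⟨z₀, z₁, hprim, hmul⟩ := exists_primitive_pair W' hn b
  have key : s (weilPairing (W'⁄K) hn z₀ z₁) =
      weilPairing (W'⁄K) hn z₀ z₁ ^ (LinearMap.det f).val := by
    rw [← hmul f, hf, hf, weilPairing_conj hn hs hs' ((mem_torsionBy_iff_nsmul n _).mp z₀.2)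
      ((mem_torsionBy_iff_nsmul n _).mp z₁.2)]
  obtain ⟨i, -, rfl⟩ := hprim.eq_pow_of_pow_eq_one hζ
  rw [map_pow, key, ← pow_mul, ← pow_mul, mul_comm]

end Core

section Galois

open WeierstrassCurve.Affine.Point

variable {R : Type u} {S : Type w} {K : Type v} [CommRing R] [CommRing S] [Field K]
  [DecidableEq K] [Algebra R S] [Algebra R K] [Algebra S K] [IsScalarTower R S K] [IsAlgClosed K]
  (W' : WeierstrassCurve.Affine R) [(W'⁄K).IsElliptic]

/-- An element of the Galois group acts on `μ_p` through `det ρ`. -/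
theorem algEquiv_apply_eq_pow_galoisRepDet {p : ℕ} [Fact p.Prime] (hp : (p : K) ≠ 0)
    (σ : K ≃ₐ[S] K) {ζ : K} (hζ : ζ ^ p = 1) :
    σ ζ = ζ ^ ((galoisRepDet (S := S) (K := K) W' p σ : ZMod p)).val := by
  have hs : Weil.FixesCurve (W'⁄K) (σ : K →+* K) := ⟨by
    change WeierstrassCurve.map (WeierstrassCurve.map W' (algebraMap R K)) _ =
      WeierstrassCurve.map W' (algebraMap R K)
    rw [WeierstrassCurve.map_map]
    congr 1
    ext r
    simp [IsScalarTower.algebraMap_apply R S K r]⟩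
  have hs' : Weil.Compatible (σ : K →+* K)
      (DistribMulAction.toAddEquiv (W'⁄K).Point σ) := fun c d h =>
    ⟨(baseChange_nonsingular (W := W') (f := (σ.restrictScalars R).toAlgHom) σ.injective c d).mpr
      h, rfl⟩
  have : NeZero p := ⟨(Fact.out : p.Prime).ne_zero⟩
  obtain ⟨b⟩ := nonempty_basis_torsionBy W' hp
  have := apply_eq_pow_det W' hp b hs hs'
    (galoisRep (S := S) (K := K) W' p σ).toLinearMap (fun _ => rfl) hζ
  rw [galoisRepDet_apply, LinearEquiv.coe_det]
  exact this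

/-- `det ρ_{E,p}` is the cyclotomic character. -/
theorem galoisRepDetEqCyclotomic {p : ℕ} [Fact p.Prime] (hp : (p : K) ≠ 0)
    (hn : Nat.card (rootsOfUnity p K) = p) : GaloisRepDetEqCyclotomic S W' p hn := fun σ => by
  refine Units.ext (modularCyclotomicCharacter.unique K hn (σ : K ≃+* K)
    (c := (galoisRepDet (S := S) (K := K) W' p σ : ZMod p)) fun t ht => ?_)
  exact algEquiv_apply_eq_pow_galoisRepDet W' hp σ
    (by rw [← Units.val_pow_eq_pow_val, (mem_rootsOfUnity p t).mp ht, Units.val_one])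

end Galois

end FLTAgent.ECTorsion
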