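import Fermat.Agent.ECTorsion.Torsion
import Fermat.Prelude.Def_EllipticCurve_FrobeniusTrace
import Mathlib.FieldTheory.KrullTopology

/-!
# The Galois action on torsion

The action on torsion factors through a finite level (`exists_fixingSubgroup_smul_eq`,
`isOpen_ker_galoisRepModuleEnd`), and `E[p^k]` is free of rank two over `ℤ/p^k`
(`nonempty_basis_torsionBy_primePow`).
-/

set_option autoImplicit false

open scoped WeierstrassCurve.Affine
open WeierstrassCurve.Affine (Point)

namespace FLTAgent.ECTorsion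

universe u v w

section Galois

variable {R : Type u} [CommRing R] {S : Type w} [Field S] {K : Type v} [Field K] [DecidableEq K]
  [Algebra R S] [Algebra R K] [Algebra S K] [IsScalarTower R S K]
  (W : WeierstrassCurve.Affine R)

/-- The Galois action on a finite set of torsion points factors through a finite extension. -/
theorem exists_fixingSubgroup_smul_eq [Algebra.IsAlgebraic S K] {n : ℕ}
    [Finite (Submodule.torsionBy ℤ (W⁄K).Point n)] :
    ∃ E : IntermediateField S K, FiniteDimensional S E ∧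
      ∀ σ ∈ E.fixingSubgroup, ∀ x : Submodule.torsionBy ℤ (W⁄K).Point n, σ • x = x := by
  let coords : (W⁄K).Point → Set K := fun P => match P with
    | .zero => ∅
    | .some x y _ => {x, y}
  let T : Set K := ⋃ x : Submodule.torsionBy ℤ (W⁄K).Point n, coords x.1
  have hT : T.Finite := Set.finite_iUnion fun x => by
    simp only [coords]; split <;> simp
  refine ⟨IntermediateField.adjoin S T,
    have := hT.to_subtype
    IntermediateField.finiteDimensional_adjoin fun z _ => Algebra.IsIntegral.isIntegral z,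
    fun σ hσ x => Subtype.ext ?_⟩
  have hfix : ∀ z ∈ coords x.1, σ z = z := fun z hz =>
    (IntermediateField.mem_fixingSubgroup_iff _ _).mp hσ z
      (IntermediateField.subset_adjoin S T (Set.mem_iUnion.mpr ⟨x, hz⟩))
  obtain ⟨_ | ⟨a, b, h⟩, hx⟩ := x
  · rfl
  · change Point.map σ.toAlgHom (Point.some a b h) = Point.some a b h
    rw [Point.map_some, Point.some.injEq]
    exact ⟨hfix a (by simp [coords]), hfix b (by simp [coords])⟩

/-- The kernel of the Galois representation on `n`-torsion is open. -/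
theorem isOpen_ker_galoisRepModuleEnd [Algebra.IsAlgebraic S K] {n : ℕ}
    [Finite (Submodule.torsionBy ℤ (W⁄K).Point n)] :
    IsOpen ((Point.galoisRepModuleEnd (K := K) S W n).ker : Set (K ≃ₐ[S] K)) := by
  obtain ⟨E, hE, h⟩ := exists_fixingSubgroup_smul_eq (S := S) (K := K) W (n := n)
  refine Subgroup.isOpen_mono (fun σ hσ => ?_) (IntermediateField.fixingSubgroup_isOpen E)
  exact MonoidHom.mem_ker.mpr (LinearMap.ext fun x => h σ hσ x)

end Galois

section PrimePower

variable {R : Type u} [CommRing R] {K : Type v} [Field K] [DecidableEq K] [Algebra R K]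
  [IsAlgClosed K] (W : WeierstrassCurve.Affine R) [(W⁄K).IsElliptic]

/-- Two points generating the `p^(k+1)`-torsion. -/
theorem exists_generators_primePow {p : ℕ} [hp : Fact p.Prime] (hpK : (p : K) ≠ 0) (k : ℕ) :
    ∃ P Q : (W⁄K).Point, p ^ k • P = 0 ∧ p ^ k • Q = 0 ∧
      ∀ a b : ℤ, a • P + b • Q = 0 → (p : ℤ) ^ k ∣ a ∧ (p : ℤ) ^ k ∣ b := by
  induction k with
  | zero => exact ⟨0, 0, smul_zero _, smul_zero _, fun a b _ => by simp⟩
  | succ k ih =>
    rcases k with _ | k
    · obtain ⟨B⟩ := nonempty_basis_torsionBy W hpK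
      refine ⟨(B 0).1, (B 1).1, ?_, ?_, fun a b e => ?_⟩
      · rw [zero_add, pow_one]; exact (mem_torsionBy_iff_nsmul p _).mp (B 0).2
      · rw [zero_add, pow_one]; exact (mem_torsionBy_iff_nsmul p _).mp (B 1).2
      · have e' : (a : ZMod p) • B 0 + (b : ZMod p) • B 1 = 0 := by
          rw [Int.cast_smul_eq_zsmul, Int.cast_smul_eq_zsmul]
          exact Subtype.ext e
        have := Fintype.linearIndependent_iff.mp B.linearIndependent ![(a : ZMod p), (b : ZMod p)]
          (by rw [Fin.sum_univ_two]; exact e')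
        rw [zero_add, pow_one]
        exact ⟨(ZMod.intCast_zmod_eq_zero_iff_dvd a p).mp (this 0),
          (ZMod.intCast_zmod_eq_zero_iff_dvd b p).mp (this 1)⟩
    · obtain ⟨P, Q, hP, hQ, hind⟩ := ih
      obtain ⟨P', hP'⟩ := nsmul_surjective (W⁄K) hp.out.ne_zero P
      obtain ⟨Q', hQ'⟩ := nsmul_surjective (W⁄K) hp.out.ne_zero Q
      simp only at hP' hQ'
      refine ⟨P', Q', by rw [pow_succ', mul_nsmul, hP', hP], by rw [pow_succ', mul_nsmul, hQ', hQ],
        fun a b e => ?_⟩
      have e1 := congrArg (fun T => p • T) e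
      simp only [smul_add, smul_comm p a, smul_comm p b, hP', hQ', smul_zero] at e1
      obtain ⟨ha, hb⟩ := hind a b e1
      obtain ⟨a', rfl⟩ := (dvd_pow_self (p : ℤ) k.succ_ne_zero).trans ha
      obtain ⟨b', rfl⟩ := (dvd_pow_self (p : ℤ) k.succ_ne_zero).trans hb
      have e2 : a' • P + b' • Q = 0 := by
        rw [← hP', ← hQ', ← natCast_zsmul P' p, ← natCast_zsmul Q' p, ← mul_smul, ← mul_smul,
          mul_comm a', mul_comm b']
        exact e
      obtain ⟨ha', hb'⟩ := hind a' b' e2
      rw [pow_succ' _ (k + 1)]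
      exact ⟨mul_dvd_mul_left _ ha', mul_dvd_mul_left _ hb'⟩

/-- `E[p^k]` is free of rank two over `ℤ/p^k`. -/
theorem nonempty_basis_torsionBy_primePow {p : ℕ} [hp : Fact p.Prime] (hpK : (p : K) ≠ 0) (k : ℕ) :
    Nonempty (Module.Basis (Fin 2) (ZMod (p ^ k))
      (Submodule.torsionBy ℤ (W⁄K).Point ((p ^ k : ℕ)))) := by
  obtain ⟨P, Q, hP, hQ, hind⟩ := exists_generators_primePow W hpK k
  have hn : ((p ^ k : ℕ) : K) ≠ 0 := by rw [Nat.cast_pow]; exact pow_ne_zero _ hpK
  let v : Fin 2 → Submodule.torsionBy ℤ (W⁄K).Point ((p ^ k : ℕ)) :=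
    ![⟨P, (mem_torsionBy_iff_nsmul _ _).mpr hP⟩, ⟨Q, (mem_torsionBy_iff_nsmul _ _).mpr hQ⟩]
  have hli : LinearIndependent (ZMod (p ^ k)) v := by
    rw [Fintype.linearIndependent_iff]
    intro g hg
    obtain ⟨a, ha⟩ := ZMod.intCast_surjective (g 0)
    obtain ⟨b, hb⟩ := ZMod.intCast_surjective (g 1)
    rw [Fin.sum_univ_two, ← ha, ← hb, Int.cast_smul_eq_zsmul, Int.cast_smul_eq_zsmul] at hg
    obtain ⟨h1, h2⟩ := hind a b (congrArg Subtype.val hg)
    intro i
    fin_cases i
    · exact ha ▸ (ZMod.intCast_zmod_eq_zero_iff_dvd a _).mpr (by exact_mod_cast h1)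
    · exact hb ▸ (ZMod.intCast_zmod_eq_zero_iff_dvd b _).mpr (by exact_mod_cast h2)
  have := finite_torsionBy W hn
  have : NeZero (p ^ k) := ⟨pow_ne_zero _ hp.out.ne_zero⟩
  let f := Fintype.linearCombination (ZMod (p ^ k)) v
  have hinj : Function.Injective f :=
    linearIndependent_iff_injective_fintypeLinearCombination.mp hli
  have hbij : Function.Bijective f :=
    hinj.bijective_of_nat_card_le (by rw [card_torsionBy W hn]; simp)
  exact ⟨Module.Basis.ofEquivFun (LinearEquiv.ofBijective f hbij).symm⟩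

end PrimePower

end FLTAgent.ECTorsion
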