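import Fermat.Agent.ECTorsion.PolyIdentities
import Fermat.Prelude.Def_FLTPrelim_GaloisRep
import Mathlib.FieldTheory.Finiteness
import Mathlib.Algebra.Field.ZMod
import Mathlib.FieldTheory.IsAlgClosed.Basic
import Mathlib.FieldTheory.Separable
import Mathlib.GroupTheory.Coset.Card
import Mathlib.LinearAlgebra.Dimension.Finite

/-!
# The `n`-torsion of an elliptic curve over an algebraically closed field

When `n` is invertible, `#E[n] = n²` (`card_nsmul_eq_zero`, `card_torsionBy`) and `E[p]` is a
plane over `𝔽_p` (`finrank_torsionBy`). Multiplication by `n ≠ 0` is surjective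
(`nsmul_surjective`).
-/

set_option autoImplicit false

open Polynomial

namespace FLTAgent.ECTorsion

universe u v w

section AlgClosed

variable {k : Type u} [Field k] [IsAlgClosed k] (W : WeierstrassCurve.Affine k)

lemma exists_equation (x : k) : ∃ y, W.Equation x y := by
  obtain ⟨y, hy⟩ := IsAlgClosed.exists_root
    (C 1 * X ^ 2 + C (W.a₁ * x + W.a₃) * X +
      C (-(x ^ 3 + W.a₂ * x ^ 2 + W.a₄ * x + W.a₆)))
    (by rw [degree_quadratic one_ne_zero]; decide)
  refine ⟨y, (WeierstrassCurve.Affine.equation_iff ..).mpr ?_⟩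
  simp only [IsRoot, eval_add, eval_mul, eval_C, eval_pow, eval_X, one_mul] at hy
  linear_combination hy

variable [W.IsElliptic] [DecidableEq k]

omit [DecidableEq k] in
lemma exists_point (x : k) : ∃ (y : k) (_ : W.Nonsingular x y), True :=
  let ⟨y, hy⟩ := exists_equation W x
  ⟨y, WeierstrassCurve.Affine.equation_iff_nonsingular.mp hy, trivial⟩

/-- An elliptic curve over an algebraically closed field is divisible. -/
theorem nsmul_surjective {n : ℕ} (hn : n ≠ 0) :
    Function.Surjective fun P : W.Point => n • P := by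
  rintro (_ | ⟨x', y', h'⟩)
  · exact ⟨0, nsmul_zero _⟩
  set q : k[X] := WeierstrassCurve.Φ W (n : ℤ) - C x' * WeierstrassCurve.ΨSq W (n : ℤ)
  have hdeg : q.natDegree = n ^ 2 := by
    refine natDegree_eq_of_le_of_coeff_ne_zero ?_ ?_
    · refine (natDegree_sub_le _ _).trans (max_le ?_ ?_)
      · simp
      · refine natDegree_C_mul_le _ _ |>.trans ?_
        exact (WeierstrassCurve.natDegree_ΨSq_le W (n : ℤ)).trans (by simp)
    · rw [coeff_sub, coeff_C_mul, coeff_eq_zero_of_natDegree_lt (p := WeierstrassCurve.ΨSq W _),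
        mul_zero, sub_zero]
      · have := WeierstrassCurve.coeff_Φ W (n : ℤ)
        simp only [Int.natAbs_natCast] at this
        rw [this]; exact one_ne_zero
      · refine (WeierstrassCurve.natDegree_ΨSq_le W (n : ℤ)).trans_lt ?_
        simp only [Int.natAbs_natCast]
        have := pow_pos (Nat.pos_of_ne_zero hn) 2
        omega
  obtain ⟨x, hx⟩ := IsAlgClosed.exists_root q (by
    intro hc
    have := natDegree_eq_zero_iff_degree_le_zero.mpr hc.le
    rw [hdeg] at this
    exact pow_ne_zero 2 hn this)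
  obtain ⟨y, h, -⟩ := exists_point W x
  simp only [IsRoot, q, eval_sub, eval_mul, eval_C, sub_eq_zero] at hx
  have hne : (WeierstrassCurve.ΨSq W (n : ℤ)).eval x ≠ 0 := fun hc => by
    rw [hc, mul_zero] at hx
    exact eval_Φ_ne_zero_of_nsmul_eq_zero h ((nsmul_some_eq_zero_iff h n).mpr hc) hx
  generalize hQ : n • WeierstrassCurve.Affine.Point.some x y h = Q
  rcases Q with _ | ⟨X', Y', hQ'⟩
  · exact absurd ((nsmul_some_eq_zero_iff h n).mp hQ) hne
  have hX : X' = x' := mul_right_cancel₀ hne (by rw [nsmul_some_X h n hQ, hx])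
  rcases (WeierstrassCurve.Affine.Point.X_eq_iff (h₁ := hQ') (h₂ := h')).mp hX with e | e
  · exact ⟨_, hQ.trans e⟩
  · exact ⟨-WeierstrassCurve.Affine.Point.some x y h,
      show n • -_ = _ by rw [neg_nsmul, hQ, e, neg_neg]⟩

/-- The roots of `preΨ'ₙ` are simple for odd `n` invertible in `k`. -/
lemma eval_derivative_preΨ'_ne_zero {n : ℕ} (hn : Odd n) (hnk : (n : k) ≠ 0) {x : k}
    (hx : (WeierstrassCurve.preΨ' W n).eval x = 0) :
    (derivative (WeierstrassCurve.preΨ' W n)).eval x ≠ 0 := by
  obtain ⟨y, h, -⟩ := exists_point W x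
  have e := (preΨ'_eval_eq_zero_iff h hn).mpr hx
  set P := WeierstrassCurve.Affine.Point.some x y h
  have hP : P ≠ 0 := WeierstrassCurve.Affine.Point.some_ne_zero h
  obtain ⟨j, rfl⟩ := hn
  have h2P : 2 • P ≠ 0 := fun hc =>
      hP (by rw [succ_nsmul, mul_nsmul, hc, nsmul_zero, zero_add] at e; exact e)
  have e1 : (2 * j) • P ≠ 0 := fun hc => hP (by rw [succ_nsmul, hc, zero_add] at e; exact e)
  have e2 : (2 * j + 1 + 2) • P ≠ 0 := by rw [add_nsmul, e, zero_add]; exact h2P
  have w1 : psiVal W x y ((2 * j : ℕ) : ℤ) ≠ 0 :=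
    mt (mulSpec (h := h) _).eq_zero_iff.mpr e1
  have w2 : psiVal W x y ((2 * j + 1 + 2 : ℕ) : ℤ) ≠ 0 :=
    mt (mulSpec (h := h) _).eq_zero_iff.mpr e2
  push_cast at w1 w2
  rw [psiVal_eq_eval h.left, if_pos (even_two_mul _)] at w1
  rw [psiVal_eq_eval_of_odd h.left (by simp [parity_simps])] at w2
  intro hd
  obtain ⟨H, hH⟩ := preΨ_dvd_separability W (n := 2 * j + 1) ⟨j, rfl⟩
  have := congrArg (fun p : k[X] => p.eval x) hH
  simp only [eval_add, eval_mul, eval_pow, eval_natCast] at this
  rw [WeierstrassCurve.preΨ_ofNat, hx, hd, mul_zero, zero_mul, zero_add] at this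
  push_cast at this hnk
  rw [add_sub_cancel_right] at this
  exact mul_ne_zero hnk (mul_ne_zero (pow_ne_zero _ (left_ne_zero_of_mul w1)) w2) this

private lemma roots_toFinset_card {q : k[X]} (hq : q ≠ 0)
    (h : ∀ x, q.eval x = 0 → (derivative q).eval x ≠ 0) :
    q.roots.toFinset.card = q.natDegree := by
  rw [Multiset.toFinset_card_of_nodup, ← IsAlgClosed.card_roots_eq_natDegree]
  rw [Multiset.nodup_iff_count_le_one]
  intro x
  rw [count_roots]
  by_contra hc
  rw [not_le, one_lt_rootMultiplicity_iff_isRoot hq] at hc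
  exact h x hc.1 hc.2

omit [IsAlgClosed k] [W.IsElliptic] in
private lemma card_option_finset {n : ℕ} (T : Finset (k × k))
    (hT : ∀ x y, (x, y) ∈ T ↔ ∃ h : W.Nonsingular x y,
      n • WeierstrassCurve.Affine.Point.some x y h = 0) :
    Nat.card {P : W.Point // n • P = 0} = T.card + 1 := by
  rw [Nat.card_congr (WeierstrassCurve.Affine.nonsingularPointEquivSubtype (p := fun P => n • P = 0)
    (nsmul_zero n))]
  have : Nat.card (Option {xy : k × k // xy ∈ T}) = T.card + 1 := by
    rw [Finite.card_option, Nat.card_eq_fintype_card, Fintype.card_coe]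
  rw [← this]
  exact Nat.card_congr (Equiv.subtypeEquivProp (by ext ⟨x, y⟩; exact (hT x y).symm)).optionCongr

private lemma card_torsion_two (h2 : (2 : k) ≠ 0) :
    Nat.card {P : W.Point // 2 • P = 0} = 4 := by
  classical
  set B := WeierstrassCurve.Ψ₂Sq W
  have h4 : (4 : k) ≠ 0 := by
    rw [show (4 : k) = 2 * 2 by norm_num]; exact mul_ne_zero h2 h2
  have hroot : ∀ x, B.eval x = 0 → (derivative B).eval x ≠ 0 := by
    intro x hx hd
    obtain ⟨y, h, -⟩ := exists_point W x
    have hb : psi2 W x y = 0 := by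
      rw [← pow_eq_zero_iff two_ne_zero, psi2_sq h.left, ← eval_Ψ₂Sq]
      exact hx
    apply xi_ne_zero_of_psi2_eq_zero h hb
    have : (derivative B).eval x = 2 * halfDer W x := by
      simp [B, WeierstrassCurve.Ψ₂Sq, halfDer]
      ring
    rw [this, ← two_xi_add y, hb, mul_zero, add_zero, ← mul_assoc, mul_eq_zero] at hd
    exact hd.resolve_left (mul_ne_zero h2 h2)
  have hB : B ≠ 0 := WeierstrassCurve.Ψ₂Sq_ne_zero W h4
  let T := B.roots.toFinset.image fun x => (x, -(W.a₁ * x + W.a₃) / 2)
  rw [card_option_finset W T ?_, Finset.card_image_of_injective _ fun a b h => congrArg Prod.fst h,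
    roots_toFinset_card hB hroot, WeierstrassCurve.natDegree_Ψ₂Sq W h4]
  intro x y
  simp only [T, Finset.mem_image, Multiset.mem_toFinset, mem_roots hB, IsRoot, Prod.mk.injEq]
  constructor
  · rintro ⟨_, hx, rfl, rfl⟩
    rename_i x
    have hb : psi2 W x (-(W.a₁ * x + W.a₃) / 2) = 0 := by
      simp only [psi2]; field_simp; ring
    have he : W.Equation x (-(W.a₁ * x + W.a₃) / 2) := by
      rw [WeierstrassCurve.Affine.equation_iff]
      simp only [B, eval_Ψ₂Sq, psiSqVal, WeierstrassCurve.b₂, WeierstrassCurve.b₄,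
        WeierstrassCurve.b₆] at hx
      field_simp
      linear_combination -hx
    refine ⟨WeierstrassCurve.Affine.equation_iff_nonsingular.mp he, ?_⟩
    rw [nsmul_some_eq_zero_iff, Nat.cast_ofNat, WeierstrassCurve.ΨSq_two]
    exact hx
  · rintro ⟨h, e⟩
    rw [nsmul_some_eq_zero_iff, Nat.cast_ofNat, WeierstrassCurve.ΨSq_two] at e
    refine ⟨x, e, rfl, ?_⟩
    have hb : psi2 W x y = 0 := by
      rw [← pow_eq_zero_iff two_ne_zero, psi2_sq h.left, ← eval_Ψ₂Sq]
      exact e
    simp only [psi2] at hb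
    field_simp
    linear_combination -hb

private lemma card_torsion_odd {n : ℕ} (hn : Odd n) (hnk : (n : k) ≠ 0) :
    Nat.card {P : W.Point // n • P = 0} = n ^ 2 := by
  classical
  set q := WeierstrassCurve.preΨ' W n
  have hq : q ≠ 0 := WeierstrassCurve.preΨ'_ne_zero W hnk
  choose y₀ hy₀ using exists_point W
  let fib : k → Finset (k × k) := fun x => {(x, y₀ x), (x, W.negY x (y₀ x))}
  let T := q.roots.toFinset.biUnion fib
  have hfib : ∀ x ∈ q.roots.toFinset, (fib x).card = 2 := by
    intro x hx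
    rw [Multiset.mem_toFinset, mem_roots hq] at hx
    obtain ⟨h, -⟩ := hy₀ x
    refine Finset.card_pair fun hc => ?_
    rw [Prod.mk.injEq] at hc
    have e := (preΨ'_eval_eq_zero_iff h hn).mpr hx
    obtain ⟨j, rfl⟩ := hn
    rw [succ_nsmul, mul_nsmul, two_nsmul,
      WeierstrassCurve.Affine.Point.add_self_of_Y_eq hc.2, nsmul_zero, zero_add] at e
    exact WeierstrassCurve.Affine.Point.some_ne_zero h e
  have hT : T.card = q.natDegree * 2 := by
    rw [Finset.card_biUnion, Finset.sum_const_nat hfib,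
      roots_toFinset_card hq fun x => eval_derivative_preΨ'_ne_zero W hn hnk]
    intro a _ b _ hab
    simp only [Function.onFun, Finset.disjoint_left, fib, Finset.mem_insert, Finset.mem_singleton]
    rintro ⟨u, v⟩ (h | h) (h' | h') <;> simp only [Prod.mk.injEq] at h h' <;>
      exact hab (h.1.symm.trans h'.1)
  rw [card_option_finset W T ?_, hT, WeierstrassCurve.natDegree_preΨ' W hnk,
    if_neg (Nat.not_even_iff_odd.mpr hn)]
  · obtain ⟨j, rfl⟩ := hn
    rw [show (2 * j + 1) ^ 2 = 2 * (2 * j * (j + 1)) + 1 by ring, Nat.add_sub_cancel,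
      Nat.mul_div_cancel_left _ two_pos, mul_comm]
  intro x y
  simp only [T, fib, Finset.mem_biUnion, Multiset.mem_toFinset, mem_roots hq, IsRoot,
    Finset.mem_insert, Finset.mem_singleton, Prod.mk.injEq]
  constructor
  · rintro ⟨_, hx, ⟨rfl, rfl⟩ | ⟨rfl, rfl⟩⟩
    · obtain ⟨h, -⟩ := hy₀ x
      exact ⟨h, (preΨ'_eval_eq_zero_iff h hn).mpr hx⟩
    · obtain ⟨h, -⟩ := hy₀ x
      exact ⟨(WeierstrassCurve.Affine.nonsingular_neg ..).mpr h,
        (preΨ'_eval_eq_zero_iff _ hn).mpr hx⟩
  · rintro ⟨h, e⟩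
    refine ⟨x, (preΨ'_eval_eq_zero_iff h hn).mp e, ?_⟩
    obtain ⟨h', -⟩ := hy₀ x
    rcases WeierstrassCurve.Affine.Y_eq_of_X_eq h.left h'.left rfl with e' | e'
    · exact Or.inl ⟨rfl, e'⟩
    · exact Or.inr ⟨rfl, e'⟩

/-- An elliptic curve over an algebraically closed field has `n²` points killed by `n`, if `n` is
invertible in the field. -/
theorem card_nsmul_eq_zero {n : ℕ} (hn : (n : k) ≠ 0) :
    Nat.card {P : W.Point // n • P = 0} = n ^ 2 := by
  induction n using Nat.recOnMul with
  | zero => simp at hn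
  | one =>
    rw [one_pow]
    exact Nat.card_eq_one_iff_unique.mpr
      ⟨⟨fun a b => Subtype.ext (by rw [← one_nsmul a.1, a.2, ← one_nsmul b.1, b.2])⟩,
        ⟨⟨0, nsmul_zero 1⟩⟩⟩
  | prime p hp =>
    rcases hp.eq_two_or_odd' with rfl | hodd
    · exact card_torsion_two W (by exact_mod_cast hn)
    · exact card_torsion_odd W hodd hn
  | mul a b iha ihb =>
    rw [Nat.cast_mul] at hn
    have ha : a ≠ 0 := fun h => by simp [h] at hn
    let G : AddSubgroup W.Point := (nsmulAddMonoidHom (a * b)).ker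
    let B : AddSubgroup W.Point := (nsmulAddMonoidHom b).ker
    let f : G →+ B :=
      { toFun := fun P => ⟨a • (P : W.Point), by
          change b • a • (P : W.Point) = 0
          rw [← mul_nsmul]; exact P.2⟩
        map_zero' := by ext; simp
        map_add' := fun P Q => by ext; simp }
    have hsurj : Function.Surjective f := by
      rintro ⟨Q, hQ⟩
      obtain ⟨P, hP⟩ := nsmul_surjective W ha Q
      simp only at hP
      refine ⟨⟨P, ?_⟩, Subtype.ext hP⟩
      change (a * b) • P = 0
      rw [mul_nsmul, hP]; exact hQ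
    have key := f.ker.card_eq_card_quotient_mul_card_addSubgroup
    rw [Nat.card_congr (QuotientAddGroup.quotientKerEquivOfSurjective f hsurj).toEquiv] at key
    have eker : f.ker ≃ {P : W.Point // a • P = 0} :=
      { toFun := fun P => ⟨(P.1 : W.Point), congrArg Subtype.val (show f P.1 = 0 from P.2)⟩
        invFun := fun P => ⟨⟨P.1, by
          change (a * b) • P.1 = 0
          rw [mul_nsmul, P.2, nsmul_zero]⟩, Subtype.ext P.2⟩
        left_inv := fun P => rfl
        right_inv := fun P => rfl }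
    rw [Nat.card_congr eker, iha (left_ne_zero_of_mul hn)] at key
    change Nat.card G = _
    rw [key]
    change Nat.card {P : W.Point // b • P = 0} * _ = _
    rw [ihb (right_ne_zero_of_mul hn)]
    ring

end AlgClosed

open scoped WeierstrassCurve.Affine

/-- Base change preserves ellipticity. -/
instance isElliptic_baseChange {R₀ : Type u} {A : Type v} [CommRing R₀] [CommRing A] [Algebra R₀ A]
    (W : WeierstrassCurve R₀) [W.IsElliptic] : (W.baseChange A).IsElliptic :=
  inferInstanceAs ((W.map _).IsElliptic)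

variable {R : Type u} [CommRing R] {K : Type v} [Field K] [DecidableEq K] [Algebra R K]
  [IsAlgClosed K] (W : WeierstrassCurve.Affine R) [(W⁄K).IsElliptic]

/-- Membership in the `n`-torsion. -/
lemma mem_torsionBy_iff_nsmul {M : Type w} [AddCommGroup M] (n : ℕ) (P : M) :
    P ∈ Submodule.torsionBy ℤ M n ↔ n • P = 0 := by
  rw [Submodule.mem_torsionBy_iff, natCast_zsmul]

/-- `#E[n] = n²`. -/
theorem card_torsionBy {n : ℕ} (hn : (n : K) ≠ 0) :
    Nat.card (Submodule.torsionBy ℤ (W⁄K).Point n) = n ^ 2 := by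
  rw [← card_nsmul_eq_zero (W⁄K) hn]
  exact Nat.card_congr
    (Equiv.subtypeEquivProp (funext fun P => propext (mem_torsionBy_iff_nsmul n P)))

/-- The `n`-torsion is finite when `n` is invertible in the field. -/
theorem finite_torsionBy {n : ℕ} (hn : (n : K) ≠ 0) :
    Finite (Submodule.torsionBy ℤ (W⁄K).Point n) :=
  Nat.finite_of_card_ne_zero (by
    rw [card_torsionBy W hn]
    exact pow_ne_zero 2 (fun h => hn (by rw [h, Nat.cast_zero])))

/-- `E[p]` is two-dimensional over `𝔽_p`. -/
theorem finrank_torsionBy {p : ℕ} [Fact p.Prime] (hp : (p : K) ≠ 0) :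
    Module.finrank (ZMod p) (Submodule.torsionBy ℤ (W⁄K).Point p) = 2 := by
  have := finite_torsionBy W hp
  have h := Module.natCard_eq_pow_finrank (K := ZMod p)
    (V := Submodule.torsionBy ℤ (W⁄K).Point p)
  rw [card_torsionBy W hp, Nat.card_zmod] at h
  exact (Nat.pow_right_injective (Fact.out : p.Prime).two_le h).symm

/-- A basis of `E[p]`. -/
theorem nonempty_basis_torsionBy {p : ℕ} [Fact p.Prime] (hp : (p : K) ≠ 0) :
    Nonempty (Module.Basis (Fin 2) (ZMod p) (Submodule.torsionBy ℤ (W⁄K).Point p)) :=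
  have := finite_torsionBy W hp
  ⟨Module.finBasisOfFinrankEq _ _ (finrank_torsionBy W hp)⟩

end FLTAgent.ECTorsion
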