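import Fermat.Agent.ECReduction.Torsion
import Fermat.Agent.ECTorsion.Torsion

/-!
# Reduction of torsion prime to the residue characteristic

At a place of good reduction, torsion points of order invertible at the place are integral
(`mem_of_nsmul_eq_zero`), and `exists_red` gives the injective reduction homomorphism on them.
-/

set_option autoImplicit false

open Polynomial WeierstrassCurve WeierstrassCurve.Affine
open scoped WeierstrassCurve.Affine

namespace FLTAgent.ECTorsion.Red

open FLTAgent.ECReduction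

variable {K : Type*} [Field K] {A : ValuationSubring K}

local notation "v" => A.valuation

local notation "res" => IsLocalRing.residue A

theorem val_sub_lt_of_residue_eq {a b : A} (h : res a = res b) : v ((a : K) - b) < 1 :=
  (A.valuation_lt_one_iff (a - b)).mp
    (by rw [← IsLocalRing.residue_eq_zero_iff, map_sub, h, sub_self])

theorem residue_eq_of_val_sub_lt {a b : A} (h : v ((a : K) - b) < 1) : res a = res b := by
  rw [← sub_eq_zero, ← map_sub, IsLocalRing.residue_eq_zero_iff]
  exact (A.valuation_lt_one_iff (a - b)).mpr h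

/-- A quotient with unit denominator, and its residue. -/
theorem exists_div {num den : A} (h : res den ≠ 0) :
    ∃ q : A, (q : K) = (num : K) / den ∧ res q = res num / res den := by
  have hu : IsUnit den := by
    by_contra hu
    exact h ((IsLocalRing.residue_eq_zero_iff _).mpr ((IsLocalRing.mem_maximalIdeal _).mpr hu))
  obtain ⟨u, rfl⟩ := hu
  refine ⟨num * (u⁻¹ : Aˣ), ?_, ?_⟩
  · change A.subtype (num * ((u⁻¹ : Aˣ) : A)) = _
    rw [map_mul, map_units_inv, ← div_eq_mul_inv]
    rfl
  · rw [map_mul, map_units_inv]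
    rfl

variable {W₁ : WeierstrassCurve A}

theorem intAt : IntAt A (W₁.map A.subtype) :=
  ⟨(val_le_iff A).2 W₁.a₁.2, (val_le_iff A).2 W₁.a₂.2, (val_le_iff A).2 W₁.a₃.2,
    (val_le_iff A).2 W₁.a₄.2, (val_le_iff A).2 W₁.a₆.2⟩

variable [DecidableEq K]

local notation "E" => WeierstrassCurve.toAffine (W₁.map A.subtype)
local notation "E₀" => WeierstrassCurve.toAffine (W₁.map (IsLocalRing.residue A))

/-- A point killed by an `n` invertible at `A` has integral coordinates. -/
theorem mem_of_nsmul_eq_zero {n : ℕ} (hn : v (n : K) = 1) {x y : K} {h : (E).Nonsingular x y}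
    (hP : n • Point.some x y h = 0) : x ∈ A ∧ y ∈ A := by
  have hroot := (nsmul_some_eq_zero_iff h n).mp hP
  have hnK : ((n : ℤ) : K) ≠ 0 := by exact_mod_cast ne_zero_of_val_eq_one A hn
  have hint : ∀ i, v (((W₁.map A.subtype).ΨSq n).coeff i) ≤ 1 := fun i => by
    rw [map_ΨSq, coeff_map]
    exact (val_le_iff A).2 (SetLike.coe_mem _)
  have hx : v x ≤ 1 := by
    by_contra hx
    rw [not_le] at hx
    have h1 := val_leadingCoeff_mul_prod_le {x} (by simpa using hx) _ hint
      (by intro a ha; rw [Finset.mem_singleton.mp ha]; exact hroot)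
    rw [leadingCoeff_ΨSq _ hnK, map_pow, Finset.prod_singleton, Int.cast_natCast, hn, one_pow,
      one_mul] at h1
    exact not_le.2 hx h1
  exact ⟨(val_le_iff A).1 hx, (val_le_iff A).1
    (val_le_of_monic_quadratic intAt hx ((equation_iff (W := E) x y).1 h.1))⟩

variable [W₁.IsElliptic]

omit [DecidableEq K] [W₁.IsElliptic] in
theorem equation_residue {a b : A} (h : (E).Equation (a : K) b) : (E₀).Equation (res a) (res b) :=
  ((WeierstrassCurve.Affine.map_equation W₁.toAffine Subtype.val_injective a b).mp h).map res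

omit [DecidableEq K] in
theorem nonsingular_residue {a b : A} (h : (E).Nonsingular (a : K) b) :
    (E₀).Nonsingular (res a) (res b) :=
  equation_iff_nonsingular.mp (equation_residue h.1)

omit [DecidableEq K] in
theorem not_resSingular {a b : A} (h : (E).Nonsingular (a : K) b) :
    ¬ ResSingular A (W₁.map A.subtype) (a : K) b := by
  rintro ⟨-, -, hX, hY⟩
  have hX' : res (W₁.a₁ * b - (3 * a ^ 2 + 2 * W₁.a₂ * a + W₁.a₄)) = res 0 :=
    residue_eq_of_val_sub_lt (by rw [ZeroMemClass.coe_zero, sub_zero]; exact hX)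
  have hY' : res (2 * b + W₁.a₁ * a + W₁.a₃) = res 0 :=
    residue_eq_of_val_sub_lt (by rw [ZeroMemClass.coe_zero, sub_zero]; exact hY)
  have hns := (nonsingular_iff' _ _).mp (nonsingular_residue h)
  simp only [map_sub, map_add, map_mul, map_pow, map_ofNat, map_zero] at hX' hY'
  rcases hns.2 with e | e
  · exact e hX'
  · exact e hY'

/-- Torsion points with the same reduction are equal. -/
theorem eq_of_residue_eq {n : ℕ} (hn : v (n : K) = 1) {a b a' b' : A}
    {h : (E).Nonsingular (a : K) b} {h' : (E).Nonsingular (a' : K) b'}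
    (hP : n • Point.some _ _ h = 0) (hQ : n • Point.some _ _ h' = 0)
    (hx : res a = res a') (hy : res b = res b') : Point.some _ _ h = Point.some _ _ h' := by
  rcases one_lt_val_sub_of_residue_eq (W := W₁.map A.subtype) (h₁ := h) (h₂ := h') intAt
    (not_resSingular h) ((val_le_iff A).2 a.2) ((val_le_iff A).2 b.2) (val_sub_lt_of_residue_eq hx)
    (val_sub_lt_of_residue_eq hy) with e | ⟨x, y, hxy, e, hv⟩
  · exact sub_eq_zero.mp e
  · have hR : n • Point.some x y hxy = 0 := by rw [← e, nsmul_sub, hP, hQ, sub_zero]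
    exact absurd ((val_le_iff A).2 (mem_of_nsmul_eq_zero hn hR).1) (not_le.2 hv)

variable [DecidableEq (IsLocalRing.ResidueField A)]

variable (W₁) in
open scoped Classical in
/-- Reduction of points with integral coordinates. -/
noncomputable def redFun : (E).Point → (E₀).Point
  | .zero => 0
  | .some x y h => if hxy : x ∈ A ∧ y ∈ A then
      Point.some _ _ (nonsingular_residue (a := ⟨x, hxy.1⟩) (b := ⟨y, hxy.2⟩) h) else 0

omit [DecidableEq K] [DecidableEq (IsLocalRing.ResidueField A)] in
theorem redFun_zero : redFun W₁ 0 = 0 := rfl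

omit [DecidableEq K] [DecidableEq (IsLocalRing.ResidueField A)] in
theorem redFun_some {a b : A} (h : (E).Nonsingular (a : K) b) :
    redFun W₁ (Point.some _ _ h) = Point.some _ _ (nonsingular_residue h) := by
  simp [redFun]

omit [W₁.IsElliptic] [DecidableEq (IsLocalRing.ResidueField A)] in
theorem exists_coe {n : ℕ} (hn : v (n : K) = 1) {P : (E).Point} (hP : n • P = 0) (h0 : P ≠ 0) :
    ∃ (a b : A) (h : (E).Nonsingular (a : K) b), P = Point.some _ _ h := by
  rcases P with _ | ⟨x, y, h⟩
  · exact absurd rfl h0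
  · obtain ⟨hx, hy⟩ := mem_of_nsmul_eq_zero hn hP
    exact ⟨⟨x, hx⟩, ⟨y, hy⟩, h, rfl⟩

theorem exists_slope {n : ℕ} (hn : v (n : K) = 1) {a b c d : A}
    {h : (E).Nonsingular (a : K) b} {h' : (E).Nonsingular (c : K) d}
    (hP : n • Point.some _ _ h = 0) (hQ : n • Point.some _ _ h' = 0)
    (hxy : ¬((a : K) = c ∧ (b : K) = (E).negY (c : K) d))
    (hxy₀ : ¬(res a = res c ∧ res b = (E₀).negY (res c) (res d))) :
    ∃ l : A, (l : K) = (E).slope (a : K) c b d ∧
      res l = (E₀).slope (res a) (res c) (res b) (res d) := by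
  by_cases hx : res a = res c
  · have hy : res b ≠ (E₀).negY (res c) (res d) := fun e => hxy₀ ⟨hx, e⟩
    have hbd : res b = res d :=
      Y_eq_of_Y_ne (nonsingular_residue h).1 (nonsingular_residue h').1 hx hy
    have := eq_of_residue_eq hn hP (h' := h') hQ hx hbd
    rw [Point.some.injEq, Subtype.coe_inj, Subtype.coe_inj] at this
    obtain ⟨rfl, rfl⟩ := this
    rw [slope_of_Y_ne rfl hy, slope_of_Y_ne rfl (fun e => hxy ⟨rfl, e⟩)]
    have hden : res (b - W₁.toAffine.negY a b) ≠ 0 := by
      rw [map_sub, sub_ne_zero, ← WeierstrassCurve.Affine.map_negY res a b]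
      exact hy
    obtain ⟨l, hl, hl₀⟩ := exists_div
      (num := 3 * a ^ 2 + 2 * W₁.a₂ * a + W₁.a₄ - W₁.a₁ * b) hden
    refine ⟨l, hl.trans ?_, hl₀.trans ?_⟩
    · change A.subtype (3 * a ^ 2 + 2 * W₁.a₂ * a + W₁.a₄ - W₁.a₁ * b) /
        A.subtype (b - W₁.toAffine.negY a b) = _
      simp only [map_sub, map_add, map_mul, map_pow, map_ofNat,
        ← WeierstrassCurve.Affine.map_negY A.subtype a b]
      rfl
    · simp only [map_sub, map_add, map_mul, map_pow, map_ofNat,
        ← WeierstrassCurve.Affine.map_negY res a b]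
      rfl
  · have hden : res (a - c) ≠ 0 := by rwa [map_sub, sub_ne_zero]
    obtain ⟨l, hl, hl₀⟩ := exists_div (num := b - d) hden
    rw [slope_of_X_ne hx, slope_of_X_ne (fun e => hx (by rw [Subtype.ext e]))]
    refine ⟨l, hl.trans (by norm_cast), hl₀.trans (by rw [map_sub, map_sub])⟩

omit [DecidableEq K] [W₁.IsElliptic] [DecidableEq (IsLocalRing.ResidueField A)] in
theorem coe_addX (a c l : A) :
    (E).addX (a : K) c (l : K) = ((W₁.toAffine.addX a c l : A) : K) :=
  WeierstrassCurve.Affine.map_addX (W' := W₁.toAffine) A.subtype a c l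

omit [DecidableEq K] [W₁.IsElliptic] [DecidableEq (IsLocalRing.ResidueField A)] in
theorem coe_addY (a c b l : A) :
    (E).addY (a : K) c b (l : K) = ((W₁.toAffine.addY a c b l : A) : K) :=
  WeierstrassCurve.Affine.map_addY (W' := W₁.toAffine) A.subtype a b c l

theorem redFun_add {n : ℕ} (hn : v (n : K) = 1) {P Q : (E).Point} (hP : n • P = 0)
    (hQ : n • Q = 0) : redFun W₁ (P + Q) = redFun W₁ P + redFun W₁ Q := by
  rcases eq_or_ne P 0 with rfl | hP0
  · rw [redFun_zero, zero_add, zero_add]
  rcases eq_or_ne Q 0 with rfl | hQ0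
  · rw [redFun_zero, add_zero, add_zero]
  obtain ⟨a, b, h, rfl⟩ := exists_coe hn hP hP0
  obtain ⟨c, d, h', rfl⟩ := exists_coe hn hQ hQ0
  rw [redFun_some, redFun_some]
  have hneg : (E).negY (c : K) d = ((W₁.toAffine.negY c d : A) : K) :=
    WeierstrassCurve.Affine.map_negY A.subtype c d
  have hneg' : (E₀).negY (res c) (res d) = res (W₁.toAffine.negY c d) :=
    WeierstrassCurve.Affine.map_negY _ c d
  by_cases hxy : (a : K) = c ∧ (b : K) = (E).negY (c : K) d
  · rw [Point.add_of_Y_eq hxy.1 hxy.2, redFun_zero, Point.add_of_Y_eq]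
    · rw [Subtype.ext hxy.1]
    · rw [hneg', Subtype.ext (hxy.2.trans hneg)]
  have hxy₀ : ¬(res a = res c ∧ res b = (E₀).negY (res c) (res d)) := by
    rintro ⟨hx, hy⟩
    rw [hneg'] at hy
    have h'' : (E).Nonsingular (c : K) ((W₁.toAffine.negY c d : A) : K) :=
      hneg ▸ (nonsingular_neg ..).mpr h'
    have hneg'' : -Point.some _ _ h' = Point.some _ _ h'' := by
      rw [Point.neg_some, Point.some.injEq]; exact ⟨rfl, hneg⟩
    have := eq_of_residue_eq hn hP (h' := h'') (by rw [← hneg'', neg_nsmul, hQ, neg_zero]) hx hy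
    rw [Point.some.injEq] at this
    exact hxy ⟨this.1, this.2.trans hneg.symm⟩
  obtain ⟨l, hl, hl₀⟩ := exists_slope hn hP hQ hxy hxy₀
  have hX : (E).addX (a : K) c ((E).slope (a : K) c b d) = ((W₁.toAffine.addX a c l : A) : K) := by
    rw [← hl, coe_addX]
  have hY : (E).addY (a : K) c b ((E).slope (a : K) c b d) =
      ((W₁.toAffine.addY a c b l : A) : K) := by
    rw [← hl, coe_addY]
  have hR : (E).Nonsingular ((W₁.toAffine.addX a c l : A) : K)
      ((W₁.toAffine.addY a c b l : A) : K) :=
    hX ▸ hY ▸ nonsingular_add h h' hxy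
  have e : Point.some _ _ h + Point.some _ _ h' = Point.some _ _ hR := by
    rw [Point.add_some hxy, Point.some.injEq]; exact ⟨hX, hY⟩
  rw [e, redFun_some, Point.add_some hxy₀, Point.some.injEq, ← hl₀]
  exact ⟨(WeierstrassCurve.Affine.map_addX (W' := W₁.toAffine) res a c l).symm,
    (WeierstrassCurve.Affine.map_addY (W' := W₁.toAffine) res a b c l).symm⟩

/-- The reduction map on torsion. -/
theorem exists_red {n : ℕ} (hn : v (n : K) = 1) :
    ∀ (W : WeierstrassCurve K) (W₀ : WeierstrassCurve (IsLocalRing.ResidueField A)),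
      W₁.map A.subtype = W → W₁.map res = W₀ →
    ∃ red : Submodule.torsionBy ℤ W.toAffine.Point n →+ Submodule.torsionBy ℤ W₀.toAffine.Point n,
      Function.Injective red ∧
      ∀ (z : Submodule.torsionBy ℤ W.toAffine.Point n) (x y : K) (h : W.toAffine.Nonsingular x y),
        (z : W.toAffine.Point) = Point.some x y h → ∃ (hx : x ∈ A) (hy : y ∈ A) (h₀ : _),
          (red z : W₀.toAffine.Point) = Point.some (res ⟨x, hx⟩) (res ⟨y, hy⟩) h₀ := by
  rintro _ _ rfl rfl
  let T := Submodule.torsionBy ℤ (E).Point n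
  have tor : ∀ z : T, n • (z : (E).Point) = 0 := fun z => (mem_torsionBy_iff_nsmul n _).mp z.2
  let g : T →+ (E₀).Point := AddMonoidHom.mk' (fun z => redFun W₁ z)
    fun z w => redFun_add hn (tor z) (tor w)
  have hmem : ∀ z : T, g z ∈ Submodule.torsionBy ℤ (E₀).Point n := fun z => by
    rw [mem_torsionBy_iff_nsmul, ← map_nsmul]
    convert g.map_zero
    exact Subtype.ext (tor z)
  refine ⟨AddMonoidHom.mk' (fun z => ⟨g z, hmem z⟩) fun z w => Subtype.ext (map_add g z w), ?_, ?_⟩
  · rw [injective_iff_map_eq_zero]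
    intro z hz
    by_contra hne
    obtain ⟨a, b, h, e⟩ := exists_coe hn (tor z) fun e => hne (Subtype.ext e)
    have : redFun W₁ (z : (E).Point) = 0 := congrArg Subtype.val hz
    rw [e, redFun_some] at this
    exact Point.some_ne_zero _ this
  · intro z x y h e
    obtain ⟨hx, hy⟩ := mem_of_nsmul_eq_zero hn (e ▸ tor z)
    refine ⟨hx, hy, nonsingular_residue (a := ⟨x, hx⟩) (b := ⟨y, hy⟩) h, ?_⟩
    change redFun W₁ (z : (E).Point) = _
    rw [e]
    exact redFun_some (a := ⟨x, hx⟩) (b := ⟨y, hy⟩) h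

end FLTAgent.ECTorsion.Red
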