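import Fermat.Agent.ECTorsion.GlobalTrace

/-!
# Inertia at a good prime fixes the `p`-torsion

At a good prime `ℓ ≠ p`, inertia acts trivially on `E[p]` (`smul_eq_of_mem_inertia`), because
reduction is injective on the `p`-torsion.
-/

set_option autoImplicit false

open WeierstrassCurve WeierstrassCurve.Affine WeierstrassCurve.Affine.Point
open scoped WeierstrassCurve.Affine

namespace FLTAgent.ECTorsion

variable {W : WeierstrassCurve ℤ} {ℓ p : ℕ} [Fact p.Prime]
  {A : ValuationSubring (AlgebraicClosure ℚ)}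

/-- Inertia at a good prime `ℓ ≠ p` fixes the `p`-torsion. -/
theorem smul_eq_of_mem_inertia (hℓ : ℓ.Prime) (hgood : W.IsGoodPrimeFor ℓ) (hℓp : ℓ ≠ p)
    (hA : A.LiesOverPrime ℓ) {σ : AlgebraicClosure ℚ ≃ₐ[ℚ] AlgebraicClosure ℚ}
    (hσ : σ ∈ A.inertiaSubgroupIn ℚ)
    (z : Submodule.torsionBy ℤ
      ((W.map (Int.castRingHom ℚ)).toAffine⁄(AlgebraicClosure ℚ)).Point p) :
    σ • z = z := by
  classical
  have : Fact ℓ.Prime := ⟨hℓ⟩
  have hpℓ : ¬ (ℓ : ℤ) ∣ (p : ℤ) := by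
    rw [Int.natCast_dvd_natCast, Nat.prime_dvd_prime_iff_eq hℓ Fact.out]
    exact hℓp
  have hpu : IsUnit ((p : ℤ) : A) := FLTAgent.Deuring.isUnit_intCast_of_not_dvd hA hpℓ
  rw [Int.cast_natCast] at hpu
  have hv : A.valuation (p : AlgebraicClosure ℚ) = 1 := (A.valuation_eq_one_iff (p : A)).mp hpu
  let W₁ : WeierstrassCurve A := W.map (Int.castRingHom A)
  have : W₁.IsElliptic := ⟨by
    rw [WeierstrassCurve.map_Δ]
    exact FLTAgent.Deuring.isUnit_intCast_of_not_dvd hA hgood⟩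
  have hW : W₁.map A.subtype = (W.map (Int.castRingHom ℚ)).toAffine⁄(AlgebraicClosure ℚ) := by
    change (W.map (Int.castRingHom A)).map A.subtype =
      (W.map (Int.castRingHom ℚ)).map (algebraMap ℚ (AlgebraicClosure ℚ))
    rw [WeierstrassCurve.map_map, WeierstrassCurve.map_map]
    exact congrArg W.map (RingHom.ext_int _ _)
  obtain ⟨red, hinj, hspec⟩ := Red.exists_red (n := p) hv _ _ hW rfl
  obtain ⟨hd, hI⟩ := FLTAgent.Density.mem_inertiaSubgroupIn_iff.mp hσ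
  have hres : ∀ (x : AlgebraicClosure ℚ) (hx : x ∈ A) (hx' : σ x ∈ A),
      IsLocalRing.residue A ⟨σ x, hx'⟩ = IsLocalRing.residue A ⟨x, hx⟩ := fun x hx hx' => by
    rw [← sub_eq_zero, ← map_sub, IsLocalRing.residue_eq_zero_iff,
      ← ValuationSubring.coe_mem_nonunits_iff]
    exact hI x hx
  refine hinj ?_
  rcases hz : (z : ((W.map (Int.castRingHom ℚ)).toAffine⁄(AlgebraicClosure ℚ)).Point) with
    _ | ⟨x, y, h⟩
  · rw [show z = 0 from Subtype.ext hz, smul_zero]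
  obtain ⟨hx, hy, h₀, e₁⟩ := hspec z x y h hz
  have hz' : ((σ • z : Submodule.torsionBy ℤ _ (p : ℤ)) :
      ((W.map (Int.castRingHom ℚ)).toAffine⁄(AlgebraicClosure ℚ)).Point) =
        σ • Point.some x y h := congrArg (σ • ·) hz
  rw [algEquiv_smul_def, Point.map_some] at hz'
  obtain ⟨hx', hy', h₁, e₂⟩ := hspec (σ • z) _ _ _ hz'
  refine Subtype.ext ((e₂.trans ?_).trans e₁.symm)
  rw [Point.some.injEq]
  exact ⟨hres x hx hx', hres y hy hy'⟩

end FLTAgent.ECTorsion
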