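import Fermat.Agent.ConductorMatch.GoodTrace
import Fermat.Prelude.Def_FLTPrelim_ModularRep

/-!
# Trace and determinant of Frobenius at a good prime

At a good prime `ℓ ≠ p` the trace of a Frobenius on `E[p]` is `a_ℓ` mod `p`
(`galoisTrace_eq_apOfModel`), and `trace_det_frobeniusAt` adds the determinant. Used in level
raising and lowering and for the Frey curve.
-/

set_option autoImplicit false

open WeierstrassCurve WeierstrassCurve.Affine WeierstrassCurve.Affine.Point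
open scoped WeierstrassCurve.Affine

namespace FLTAgent.ECTorsion

variable {W : WeierstrassCurve ℤ} {ℓ p : ℕ} [Fact p.Prime]
  {A : ValuationSubring (AlgebraicClosure ℚ)}

/-- Trace and determinant of a Frobenius at a good prime `ℓ ≠ p`. -/
theorem trace_det_frobeniusAt (hℓ : ℓ.Prime) (hgood : W.IsGoodPrimeFor ℓ) (hℓp : ℓ ≠ p)
    (hA : A.LiesOverPrime ℓ) {σ : AlgebraicClosure ℚ ≃ₐ[ℚ] AlgebraicClosure ℚ}
    (hσ : A.IsFrobeniusAt σ ℓ) :
    galoisTrace ℚ (W.map (Int.castRingHom ℚ)).toAffine p σ = (W.apOfModel ℓ : ZMod p) ∧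
      LinearMap.det (galoisRepModuleEnd ℚ (W.map (Int.castRingHom ℚ)).toAffine p σ) =
        (ℓ : ZMod p) := by
  have h := ConductorMatch.trace_det_frobenius (p := p) hℓ hgood hℓp 1 hA hσ
  rw [pow_one] at h
  exact h

/-- `a_ℓ ≡ tr ρ_{E,p}(Frob_ℓ) (mod p)`. -/
theorem galoisTrace_eq_apOfModel (hℓ : ℓ.Prime) (hgood : W.IsGoodPrimeFor ℓ) (hℓp : ℓ ≠ p)
    (hA : A.LiesOverPrime ℓ) {σ : AlgebraicClosure ℚ ≃ₐ[ℚ] AlgebraicClosure ℚ}
    (hσ : A.IsFrobeniusAt σ ℓ) :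
    galoisTrace ℚ (W.map (Int.castRingHom ℚ)).toAffine p σ = (W.apOfModel ℓ : ZMod p) :=
  (trace_det_frobeniusAt hℓ hgood hℓp hA hσ).1

end FLTAgent.ECTorsion
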