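import Fermat.Agent.ECTorsion.Universal

/-!
# Multiplication by `n` in terms of division polynomials

At every nonsingular point, `nP = 0` iff `ψₙ` vanishes (`nsmul_some_eq_zero_iff`), otherwise the
abscissa of `nP` is `φₙ/ψₙ²` (`nsmul_some_X`).
-/

set_option autoImplicit false

open WeierstrassCurve WeierstrassCurve.Affine

namespace FLTAgent.ECTorsion

universe u

variable {F : Type u} [Field F] [DecidableEq F]

section Values

variable {W : WeierstrassCurve F} {x y : F} {h : W.toAffine.Nonsingular x y}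

omit [DecidableEq F] in
lemma xi_ne_zero_of_psi2_eq_zero (h : W.toAffine.Nonsingular x y) (hb : psi2 W x y = 0) :
    xi W x y ≠ 0 := by
  rcases ((nonsingular_iff' ..).mp h).right with hx | hy
  · intro hc; exact hx (by simp only [xi] at hc; linear_combination -hc)
  · exact absurd hb hy

omit [DecidableEq F] in
lemma psiVal_odd_ne_zero_of_psi2_eq_zero (h : W.toAffine.Nonsingular x y)
    (hb : psi2 W x y = 0) (k : ℕ) : psiVal W x y (2 * (k : ℤ) + 1) ≠ 0 := by
  induction k using Nat.strong_induction_on with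
  | _ k ih =>
    rcases Nat.lt_or_ge k 2 with hk | hk
    · interval_cases k
      · simp
      · rw [show 2 * ((1 : ℕ) : ℤ) + 1 = 3 from rfl, psiVal_three, psi3_eq_neg_sq h.left hb]
        exact neg_ne_zero.mpr (pow_ne_zero _ (xi_ne_zero_of_psi2_eq_zero h hb))
    rw [psiVal_odd]
    rcases k.even_or_odd' with ⟨j, rfl | rfl⟩
    · push_cast
      rw [show 2 * (j : ℤ) + 2 = 2 * (j + 1) by ring, psiVal_two_mul_of_eq_zero hb, zero_mul,
        zero_sub, neg_ne_zero]
      refine mul_ne_zero ?_ (pow_ne_zero _ ?_)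
      · rw [show 2 * (j : ℤ) - 1 = 2 * ((j - 1 : ℕ) : ℤ) + 1 by omega]
        exact ih _ (by omega)
      · exact ih j (by omega)
    · push_cast
      rw [show 2 * (j : ℤ) + 1 + 1 = 2 * (j + 1) by ring, add_sub_cancel_right,
        psiVal_two_mul_of_eq_zero hb, psiVal_two_mul_of_eq_zero hb, zero_mul, sub_zero,
        show 2 * (j : ℤ) + 1 + 2 = 2 * ((j + 1 : ℕ) : ℤ) + 1 by push_cast; ring]
      exact mul_ne_zero (ih _ (by omega)) (pow_ne_zero _ (ih _ (by omega)))

variable (h) in
/-- Either the division value vanishes and `nP = 0`, or the formula for `x(nP)` holds. -/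
def MulSpec (n : ℕ) : Prop :=
  (psiVal W x y n = 0 → n • Point.some x y h = 0) ∧
    (psiVal W x y n ≠ 0 → HasMulFormula h n)

/-- Under the multiplication formula, `n` kills a point iff `ψₙ` vanishes at it. -/
lemma MulSpec.eq_zero_iff {n : ℕ} (H : MulSpec h n) :
    n • Point.some x y h = 0 ↔ psiVal W x y n = 0 := by
  refine ⟨fun e => ?_, H.1⟩
  by_contra hne
  obtain ⟨X, Y, hXY, e', -⟩ := H.2 hne
  exact Point.some_ne_zero hXY (e' ▸ e)

lemma mulSpec_of_psi2_eq_zero (hb : psi2 W x y = 0) (n : ℕ) : MulSpec h n := by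
  have h2 : 2 • Point.some x y h = 0 := by
    rw [two_nsmul]
    exact Point.add_self_of_Y_eq (by rw [← sub_eq_zero, ← psi2_eq_sub_negY]; exact hb)
  rcases n.even_or_odd' with ⟨k, rfl | rfl⟩
  · refine ⟨fun _ => by rw [mul_nsmul, h2, nsmul_zero], fun hne => ?_⟩
    exact absurd (by push_cast; exact psiVal_two_mul_of_eq_zero hb _) hne
  · have hw : psiVal W x y ((2 * k + 1 : ℕ) : ℤ) ≠ 0 := by
      push_cast; exact psiVal_odd_ne_zero_of_psi2_eq_zero h hb k
    refine ⟨fun hc => absurd hc hw, fun _ => ⟨x, y, h, ?_, ?_⟩⟩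
    · rw [succ_nsmul, mul_nsmul, h2, nsmul_zero, zero_add]
    · push_cast
      rw [phiVal, show 2 * (k : ℤ) + 1 + 1 = 2 * (k + 1) by ring, add_sub_cancel_right,
        psiVal_two_mul_of_eq_zero hb, zero_mul, sub_zero]

/-- `ψ₂(mP) ψₘ(P)⁴ = ψ₂ₘ(P)`. -/
lemma psi2_nsmul_of_spec (hb : psi2 W x y ≠ 0) {m : ℕ} (hm : 1 ≤ m)
    (hprev : MulSpec h (m - 1)) (hnext : MulSpec h (m + 1))
    (hm0 : psiVal W x y m ≠ 0) {X Y : F} {hXY : W.toAffine.Nonsingular X Y}
    (e : m • Point.some x y h = Point.some X Y hXY)
    (hX : X * psiVal W x y m ^ 2 = phiVal W x y m) :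
    psi2 W X Y * psiVal W x y m ^ 4 = psiVal W x y (2 * m) := by
  obtain ⟨k, rfl⟩ : ∃ k, m = k + 1 := ⟨m - 1, by omega⟩
  rw [Nat.add_sub_cancel] at hprev
  have hE := psiVal_invariant h.left (W := W) (m := k + 1) (by omega)
  have hev := psiVal_even (W := W) (x := x) (y := y) ((k + 1 : ℕ) : ℤ)
  by_cases w1 : psiVal W x y (((k + 1 : ℕ) : ℤ) + 1) = 0
  · have e1 := hnext.1 (by exact_mod_cast w1)
    rw [succ_nsmul, e, add_eq_zero_iff_eq_neg, Point.neg_some, Point.some.injEq] at e1
    obtain ⟨rfl, rfl⟩ := e1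
    rw [w1] at hE hev
    rw [psi2_negY]
    apply mul_right_cancel₀ hb
    linear_combination -hev - psiVal W X y ((k + 1 : ℕ) : ℤ) * hE
  by_cases w2 : psiVal W x y (((k + 1 : ℕ) : ℤ) - 1) = 0
  · have e1 := hprev.1 (by simpa using w2)
    rw [succ_nsmul, e1, zero_add, Point.some.injEq] at e
    obtain ⟨rfl, rfl⟩ := e
    rw [w2] at hE hev
    apply mul_right_cancel₀ hb
    linear_combination -hev + psiVal W x y ((k + 1 : ℕ) : ℤ) * hE
  exact psi2_nsmul_of_ne hb hm (hprev.2 (by simpa using w2))
    (hnext.2 (by exact_mod_cast w1)) w1 w2 e hX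

lemma mulSpec_of_psi2_ne_zero (hb : psi2 W x y ≠ 0) (n : ℕ) : MulSpec h n := by
  induction n using Nat.strong_induction_on with
  | _ n ih =>
    rcases n.even_or_odd' with ⟨m, rfl | rfl⟩
    · rcases Nat.lt_or_ge m 2 with hm | hm
      · interval_cases m
        · exact ⟨fun _ => zero_nsmul _, fun hc => absurd (by simp) hc⟩
        · exact ⟨fun hc => absurd (by simpa using hc) hb, fun _ => hasMulFormula_two hb⟩
      have H := ih m (by omega)
      by_cases hm0 : psiVal W x y m = 0
      · refine ⟨fun _ => by rw [mul_nsmul', H.1 hm0, nsmul_zero], fun hc => absurd ?_ hc⟩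
        push_cast
        exact zero_dvd_iff.mp (hm0 ▸ psiVal_two_mul_dvd (m : ℤ))
      obtain ⟨X, Y, hXY, e, hX⟩ := H.2 hm0
      obtain ⟨hd1, hd2⟩ := psiVal_duplication h.left (W := W) (m := m) (by omega)
      have hB := psi2_sq hXY.left
      rw [← hX] at hd1 hd2
      simp only [psiSqVal] at hB
      have hsq : psiVal W x y (2 * (m : ℤ)) ^ 2 =
          psi2 W X Y ^ 2 * psiVal W x y m ^ 8 := by
        linear_combination hd2 - psiVal W x y m ^ 8 * hB
      refine ⟨fun hc => ?_, fun hne => ?_⟩
      · push_cast at hc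
        have hη : psi2 W X Y = 0 := by
          rw [hc, zero_pow two_ne_zero, eq_comm] at hsq
          rcases mul_eq_zero.mp hsq with h' | h'
          · exact pow_eq_zero_iff two_ne_zero |>.mp h'
          · exact absurd h' (pow_ne_zero _ hm0)
        rw [mul_nsmul', e, two_nsmul]
        exact Point.add_self_of_Y_eq (by rw [← sub_eq_zero, ← psi2_eq_sub_negY]; exact hη)
      · push_cast at hne
        have hη : psi2 W X Y ≠ 0 := by
          intro hc
          rw [hc, zero_pow two_ne_zero, zero_mul] at hsq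
          exact hne (pow_eq_zero_iff two_ne_zero |>.mp hsq)
        obtain ⟨p, yp, hp, ep, hpv⟩ := nsmul_two_mul_of_some e hη
        refine ⟨p, yp, hp, ep, ?_⟩
        simp only [phi2] at hpv
        push_cast
        linear_combination p * hsq + psiVal W x y m ^ 8 * hpv - hd1
    · rcases Nat.eq_zero_or_pos m with rfl | hm
      · exact ⟨fun hc => absurd hc (by simp), fun _ => hasMulFormula_one⟩
      have H0 := ih m (by omega)
      have H1 := ih (m + 1) (by omega)
      have hodd := psiVal_odd (W := W) (x := x) (y := y) (m : ℤ)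
      have hP : Point.some x y h ≠ 0 := Point.some_ne_zero h
      by_cases hm0 : psiVal W x y m = 0
      · have hm2 : 2 ≤ m := by
          by_contra hc
          obtain rfl : m = 1 := by omega
          simp at hm0
        have e0 := H0.1 hm0
        have en : (2 * m + 1) • Point.some x y h = Point.some x y h := by
          rw [succ_nsmul, mul_nsmul', e0, nsmul_zero, zero_add]
        have w1 : psiVal W x y ((m : ℤ) + 1) ≠ 0 := fun hc => by
          have e1 := H1.1 (by exact_mod_cast hc)
          rw [succ_nsmul, e0, zero_add] at e1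
          exact hP e1
        have w2 : psiVal W x y ((m : ℤ) - 1) ≠ 0 := fun hc => by
          have e1 := (ih (m - 1) (by omega)).1
            (by rw [Nat.cast_sub (by omega), Nat.cast_one]; exact hc)
          apply hP
          rw [show m = m - 1 + 1 by omega, succ_nsmul, e1, zero_add] at e0
          exact e0
        refine ⟨fun hc => absurd hc ?_, fun _ => ⟨x, y, h, en, ?_⟩⟩
        · push_cast
          rw [hodd, hm0, zero_pow (by norm_num), mul_zero, zero_sub]
          exact neg_ne_zero.mpr (mul_ne_zero w2 (pow_ne_zero _ w1))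
        · have : psiVal W x y (2 * (m : ℤ)) = 0 :=
            zero_dvd_iff.mp (hm0 ▸ psiVal_two_mul_dvd (m : ℤ))
          push_cast
          rw [phiVal, add_sub_cancel_right, this, mul_zero, sub_zero]
      by_cases hm1 : psiVal W x y ((m : ℤ) + 1) = 0
      · have hm2 : 2 ≤ m := by
          by_contra hc
          obtain rfl : m = 1 := by omega
          exact hb (by simpa using hm1)
        have e1 := H1.1 (by exact_mod_cast hm1)
        have en : (2 * m + 1) • Point.some x y h = -Point.some x y h := by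
          rw [show 2 * m + 1 = (m + 1) + m by omega, add_nsmul, e1, zero_add]
          rw [succ_nsmul, add_eq_zero_iff_eq_neg] at e1
          exact e1
        have w2 : psiVal W x y ((m : ℤ) + 2) ≠ 0 := fun hc => by
          have e2 := (ih (m + 2) (by omega)).1 (by push_cast; exact hc)
          rw [show m + 2 = (m + 1) + 1 by omega, succ_nsmul, e1, zero_add] at e2
          exact hP e2
        rw [Point.neg_some] at en
        refine ⟨fun hc => absurd hc ?_, fun _ => ⟨_, _, _, en, ?_⟩⟩
        · push_cast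
          rw [hodd, hm1, zero_pow (by norm_num), mul_zero, sub_zero]
          exact mul_ne_zero w2 (pow_ne_zero _ hm0)
        · have : psiVal W x y (2 * ((m : ℤ) + 1)) = 0 :=
            zero_dvd_iff.mp (hm1 ▸ psiVal_two_mul_dvd ((m : ℤ) + 1))
          push_cast
          rw [phiVal, show 2 * (m : ℤ) + 1 + 1 = 2 * (m + 1) by ring, this, zero_mul, sub_zero]
      obtain ⟨X', Y', hXY', e', hX'⟩ := H0.2 hm0
      obtain ⟨X, Y, hXY, e, hX⟩ := H1.2 (by exact_mod_cast hm1)
      push_cast at hX
      have esum : (2 * m + 1) • Point.some x y h =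
          Point.some X Y hXY + Point.some X' Y' hXY' := by
        rw [← e, ← e', ← add_nsmul]; congr 1; omega
      have hsub : Point.some X Y hXY - Point.some X' Y' hXY' = Point.some x y h := by
        rw [← e, ← e', succ_nsmul, add_sub_cancel_left]
      have hu := sub_mul_psiVal_sq (W := W) (m : ℤ) hX hX'
      refine ⟨fun hc => ?_, fun hne => ?_⟩
      · push_cast at hc
        rw [hc, neg_zero] at hu
        have hXX : X = X' := sub_eq_zero.mp ((mul_eq_zero.mp hu).resolve_right
          (mul_ne_zero (pow_ne_zero _ hm1) (pow_ne_zero _ hm0)))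
        rcases (Point.X_eq_iff (h₁ := hXY) (h₂ := hXY')).mp hXX with h' | h'
        · rw [h', sub_self] at hsub
          exact absurd hsub.symm hP
        · rw [esum, h', neg_add_cancel]
      · push_cast at hne
        have hψ' := psi2_nsmul_of_spec hb hm (ih (m - 1) (by omega)) H1 hm0 e' hX'
        have hψ : psi2 W X Y * psiVal W x y ((m : ℤ) + 1) ^ 4 =
            psiVal W x y (2 * ((m : ℤ) + 1)) := by
          rcases Nat.lt_or_ge m 2 with hm2 | hm2
          · obtain rfl : m = 1 := by omega
            exact psi2_nsmul_two hb e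
          · have := psi2_nsmul_of_spec hb (m := m + 1) (by omega) H0 (ih (m + 2) (by omega))
              (by exact_mod_cast hm1) e (by exact_mod_cast hX)
            exact_mod_cast this
        have hne' : X ≠ X' := by
          rintro rfl
          rw [sub_self, zero_mul, eq_comm, neg_eq_zero] at hu
          exact hne hu
        refine ⟨_, _, _, esum.trans (Point.add_of_X_ne hne'), ?_⟩
        have := odd_step (h := h) (m : ℤ) (Point.add_of_X_ne hne') hsub hX hX' hψ hψ' hne
        exact_mod_cast this

lemma mulSpec (n : ℕ) : MulSpec h n :=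
  if hb : psi2 W x y = 0 then mulSpec_of_psi2_eq_zero hb n else mulSpec_of_psi2_ne_zero hb n

end Values

variable {W : WeierstrassCurve.Affine F} {x y : F}

/-- A multiple `nP` of an affine point vanishes iff the `n`-th division polynomial vanishes. -/
theorem nsmul_some_eq_zero_iff (h : W.Nonsingular x y) (n : ℕ) :
    n • Point.some x y h = 0 ↔ (WeierstrassCurve.ΨSq W (n : ℤ)).eval x = 0 := by
  rw [(mulSpec (h := h) n).eq_zero_iff, ← psiVal_sq h.left, sq_eq_zero_iff]

/-- The same for the univariate polynomial `preΨ'ₙ` when `n` is odd. -/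
theorem preΨ'_eval_eq_zero_iff (h : W.Nonsingular x y) {n : ℕ} (hn : Odd n) :
    n • Point.some x y h = 0 ↔ (WeierstrassCurve.preΨ' W n).eval x = 0 := by
  rw [(mulSpec (h := h) n).eq_zero_iff, psiVal_eq_eval_of_odd h.left
    (by rw [Int.even_coe_nat, Nat.not_even_iff_odd]; exact hn), preΨ_ofNat]

/-- The abscissa of a nonzero multiple. -/
theorem nsmul_some_X (h : W.Nonsingular x y) (n : ℕ) {X Y : F} {h' : W.Nonsingular X Y}
    (e : n • Point.some x y h = Point.some X Y h') :
    X * (WeierstrassCurve.ΨSq W (n : ℤ)).eval x = (WeierstrassCurve.Φ W (n : ℤ)).eval x := by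
  have H := mulSpec (h := h) n
  have hne : psiVal W x y n ≠ 0 := fun hc =>
    Point.some_ne_zero h' (e.symm.trans (H.1 hc))
  obtain ⟨X', Y', h'', e', hX⟩ := H.2 hne
  rw [e, Point.some.injEq] at e'
  rw [← psiVal_sq h.left, ← phiVal_eq_eval h.left, e'.1, hX]

/-- `Φₙ` and `ΨSqₙ` have no common zero at a nonsingular point. -/
theorem eval_Φ_ne_zero_of_nsmul_eq_zero (h : W.Nonsingular x y) {n : ℕ}
    (e : n • Point.some x y h = 0) : (WeierstrassCurve.Φ W (n : ℤ)).eval x ≠ 0 := by
  rcases n with _ | n
  · simp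
  rw [← phiVal_eq_eval h.left, phiVal, (mulSpec (h := h) (n + 1)).eq_zero_iff.mp e]
  have e1 : (n + 1 + 1) • Point.some x y h = Point.some x y h := by
    rw [succ_nsmul, e, zero_add]
  have e2 : n • Point.some x y h ≠ 0 := fun hc => by
    rw [succ_nsmul, hc, zero_add] at e
    exact Point.some_ne_zero h e
  have w1 : psiVal W x y ((n + 1 + 1 : ℕ) : ℤ) ≠ 0 :=
    mt (mulSpec (h := h) _).eq_zero_iff.mpr (by rw [e1]; exact Point.some_ne_zero h)
  have w2 : psiVal W x y (n : ℤ) ≠ 0 := mt (mulSpec (h := h) n).eq_zero_iff.mpr e2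
  push_cast at w1 ⊢
  rw [add_sub_cancel_right]
  simp [w1, w2]

end FLTAgent.ECTorsion
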