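import Mathlib.Algebra.TrivSqZeroExt.Basic
import Mathlib.Algebra.MvPolynomial.Derivation
import Mathlib.RingTheory.Derivation.Basic
import Mathlib.RingTheory.Localization.FractionRing
import Mathlib.Algebra.Polynomial.Derivation
import Fermat.Agent.ECTorsion.Multiples

/-!
# The invariant differential is additive

For a derivation `d` killing the coefficients (`KillsCurve`) with `d x = ψ₂(P)`, one has
`d(x(nP)) = n ψ₂(nP)` (`derivation_nsmul`). This yields the Wronskian identity of
`PolyIdentities`.
-/

set_option autoImplicit false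

open WeierstrassCurve WeierstrassCurve.Affine

namespace FLTAgent.ECTorsion

universe u v

section Lift

variable {A : Type u} [CommRing A] [IsDomain A] (K : Type v) [Field K] [Algebra A K]
  [IsFractionRing A K] {R₀ : Type*} [CommRing R₀] [Algebra R₀ A] (D : Derivation R₀ A A)

/-- The ring homomorphism `a ↦ a + ε D a`. -/
noncomputable def derivationHom : A →+* TrivSqZeroExt K K where
  toFun a := TrivSqZeroExt.inl (algebraMap A K a) + TrivSqZeroExt.inr (algebraMap A K (D a))
  map_one' := by ext <;> simp
  map_zero' := by ext <;> simp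
  map_add' a b := by ext <;> simp
  map_mul' a b := by
    ext
    · simp
    · simp only [TrivSqZeroExt.snd_add, TrivSqZeroExt.snd_inl, TrivSqZeroExt.snd_inr, zero_add,
        TrivSqZeroExt.snd_mul, TrivSqZeroExt.fst_add, TrivSqZeroExt.fst_inl,
        TrivSqZeroExt.fst_inr, add_zero, Derivation.leibniz, smul_eq_mul, op_smul_eq_smul,
        map_add, map_mul]

/-- The extension of `derivationHom` to the field of fractions. -/
noncomputable def derivationHomExt : K →+* TrivSqZeroExt K K :=
  IsLocalization.lift (M := nonZeroDivisors A) (g := derivationHom K D) fun y => by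
    rw [TrivSqZeroExt.isUnit_iff_isUnit_fst]
    simp [derivationHom]

lemma derivationHomExt_algebraMap (a : A) :
    derivationHomExt K D (algebraMap A K a) = derivationHom K D a :=
  IsLocalization.lift_eq _ a

lemma fst_derivationHomExt (z : K) : (derivationHomExt K D z).fst = z := by
  have : (TrivSqZeroExt.fstHom K K K).toRingHom.comp (derivationHomExt K D) = RingHom.id K := by
    refine IsLocalization.ringHom_ext (nonZeroDivisors A) (RingHom.ext fun a => ?_)
    simp [derivationHomExt_algebraMap, derivationHom]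
  exact congr($this z)

/-- A derivation on a domain extends to its field of fractions. -/
noncomputable def derivationExt : Derivation ℤ K K :=
  Derivation.mk' (AddMonoidHom.toIntLinearMap
      { toFun := fun z => (derivationHomExt K D z).snd
        map_zero' := by simp
        map_add' := fun a b => by simp })
    fun a b => by
      change (derivationHomExt K D (a * b)).snd = _
      rw [map_mul, TrivSqZeroExt.snd_mul, fst_derivationHomExt, fst_derivationHomExt]
      simp [mul_comm]

lemma derivationExt_algebraMap (a : A) :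
    derivationExt K D (algebraMap A K a) = algebraMap A K (D a) := by
  change (derivationHomExt K D (algebraMap A K a)).snd = _
  simp [derivationHomExt_algebraMap, derivationHom]

end Lift

section Invariant

variable {F : Type u} [Field F] {W : WeierstrassCurve F} (d : Derivation ℤ F F)

/-- `d` kills the coefficients of `W`. -/
structure KillsCurve (W : WeierstrassCurve F) (d : Derivation ℤ F F) : Prop where
  a₁ : d W.a₁ = 0
  a₂ : d W.a₂ = 0
  a₃ : d W.a₃ = 0
  a₄ : d W.a₄ = 0
  a₆ : d W.a₆ = 0

variable {d}

lemma derivation_y (hd : KillsCurve W d) {X Y c : F} (h : W.toAffine.Equation X Y)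
    (hη : psi2 W X Y ≠ 0) (hX : d X = c * psi2 W X Y) : d Y = c * xi W X Y := by
  rw [Affine.equation_iff] at h
  have e := congrArg d h
  simp only [map_add, Derivation.leibniz, Derivation.leibniz_pow, hd.a₁, hd.a₂, hd.a₃, hd.a₄,
    hd.a₆, smul_eq_mul, nsmul_eq_mul, mul_zero, add_zero, pow_one, Nat.cast_ofNat,
    Nat.add_one_sub_one, hX] at e
  apply mul_left_cancel₀ hη
  simp only [psi2, xi] at e ⊢
  linear_combination e

variable [DecidableEq F]

lemma derivation_add (hd : KillsCurve W d) {X Y x y c c' : F}
    {hQ : W.toAffine.Nonsingular X Y} {hR : W.toAffine.Nonsingular x y}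
    {p yp : F} {hp : W.toAffine.Nonsingular p yp} (hne : X ≠ x)
    (hadd : Point.some X Y hQ + Point.some x y hR = Point.some p yp hp)
    (hX : d X = c * psi2 W X Y) (hY : d Y = c * xi W X Y)
    (hx : d x = c' * psi2 W x y) (hy : d y = c' * xi W x y) :
    d p = (c + c') * psi2 W p yp := by
  obtain ⟨rfl, rfl⟩ := add_some_X hne hadd
  have hu : X - x ≠ 0 := sub_ne_zero_of_ne hne
  have hl : W.toAffine.slope X x Y y * (X - x) = Y - y := by
    rw [slope_of_X_ne hne, div_mul_cancel₀ _ hu]
  generalize W.toAffine.slope X x Y y = l at hl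
  have e := congrArg d hl
  simp only [Derivation.leibniz, map_sub, smul_eq_mul, hX, hY, hx, hy] at e
  have hdp : d (W.toAffine.addX X x l) =
      (2 * l + W.a₁) * d l - c * psi2 W X Y - c' * psi2 W x y := by
    simp only [addX, map_sub, map_add, Derivation.leibniz, Derivation.leibniz_pow, hd.a₁, hd.a₂,
      smul_eq_mul, nsmul_eq_mul, mul_zero, add_zero, sub_zero, hX, hx, Nat.add_one_sub_one,
      pow_one, Nat.cast_ofNat]
    ring
  have h1 := (equation_iff ..).mp hQ.left
  have h2 := (equation_iff ..).mp hR.left
  have k1 : xi W X Y - l * psi2 W X Y = -(X - x) * (W.toAffine.addX X x l - X) := by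
    apply mul_right_cancel₀ hu
    simp only [addX, psi2, xi]
    linear_combination ((X - x) * l + (Y - y) + W.a₁ * (X - x) - 2 * Y - W.a₁ * X - W.a₃) * hl
      + h2 - h1
  have k2 : xi W x y - l * psi2 W x y = (X - x) * (W.toAffine.addX X x l - x) := by
    apply mul_right_cancel₀ hu
    simp only [addX, psi2, xi]
    linear_combination (-(X - x) * l - (Y - y) - W.a₁ * (X - x) - 2 * y - W.a₁ * x - W.a₃) * hl
      + h2 - h1
  have hdl : d l = -c * (W.toAffine.addX X x l - X) - c' * (W.toAffine.addX X x l - x) := by
    apply mul_right_cancel₀ hu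
    linear_combination e + c * k1 - c' * k2
  rw [hdp, hdl]
  simp only [psi2, addY, negAddY, Affine.negY]
  linear_combination -(2 * c') * hl

lemma derivation_double (hd : KillsCurve W d) {X Y c : F}
    {hQ : W.toAffine.Nonsingular X Y} {p yp : F} {hp : W.toAffine.Nonsingular p yp}
    (hη : psi2 W X Y ≠ 0)
    (hadd : Point.some X Y hQ + Point.some X Y hQ = Point.some p yp hp)
    (hX : d X = c * psi2 W X Y) : d p = 2 * c * psi2 W p yp := by
  obtain ⟨p', yp', hp', e', e1, e2⟩ := add_self_some (hQ := hQ) hη
  rw [e', Point.some.injEq] at hadd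
  obtain ⟨rfl, rfl⟩ := hadd
  have hY := derivation_y hd hQ.left hη hX
  have hdη : d (psi2 W X Y) = c * halfDer W X := by
    rw [← two_xi_add Y]
    simp only [psi2, two_mul, map_add, Derivation.leibniz, hd.a₁, hd.a₃, smul_eq_mul, mul_zero,
      add_zero, hX, hY]
    ring
  have e := congrArg d e1
  have h4 : d W.b₄ = 0 := by
    simp [WeierstrassCurve.b₄, two_mul, Derivation.leibniz, hd.a₁, hd.a₃, hd.a₄]
  have hd4 : d (4 : F) = 0 := by simpa using d.map_natCast 4
  have h6 : d W.b₆ = 0 := by
    simp [WeierstrassCurve.b₆, Derivation.leibniz_pow, hd4, hd.a₃, hd.a₆]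
  have h8 : d W.b₈ = 0 := by
    simp [WeierstrassCurve.b₈, Derivation.leibniz, Derivation.leibniz_pow, hd4, hd.a₁, hd.a₂, hd.a₃,
      hd.a₄, hd.a₆]
  simp only [phi2, map_sub, two_mul, map_add, Derivation.leibniz, Derivation.leibniz_pow,
    hdη, h4, h6, h8, smul_eq_mul, nsmul_eq_mul, mul_zero, add_zero, sub_zero,
    Nat.add_one_sub_one, pow_one, Nat.cast_ofNat, hX] at e
  have hB := psi2_sq hQ.left
  apply mul_right_cancel₀ (pow_ne_zero 3 hη)
  have key : (4 * X ^ 3 - 2 * W.b₄ * X - 2 * W.b₆) * psiSqVal W X
      - 2 * halfDer W X * phi2 W X = 2 * prePsi4 W X := by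
    simp only [psiSqVal, halfDer, phi2, prePsi4, b₂, b₄, b₆, b₈]
    ring
  linear_combination psi2 W X Y * e - 2 * c * halfDer W X * e1 +
    c * (4 * X ^ 3 - 2 * W.b₄ * X - 2 * W.b₆) * hB + c * key - 2 * c * e2

/-- If `d x = ψ₂(P)` then `d(x(nP)) = n ψ₂(nP)`. -/
theorem derivation_nsmul (hd : KillsCurve W d) {x y : F} (h : W.toAffine.Nonsingular x y)
    (h2 : (2 : F) ≠ 0) (hw : ∀ n : ℕ, 1 ≤ n → psiVal W x y n ≠ 0) (hx : d x = psi2 W x y)
    {n : ℕ} (hn : 1 ≤ n) {X Y : F} {hXY : W.toAffine.Nonsingular X Y}
    (e : n • Point.some x y h = Point.some X Y hXY) : d X = n * psi2 W X Y := by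
  have hb : psi2 W x y ≠ 0 := by simpa using hw 2 one_le_two
  have hy := derivation_y hd h.left hb (c := 1) (by rw [one_mul, hx])
  induction n using Nat.strong_induction_on generalizing X Y with
  | _ n ih =>
    obtain ⟨k, rfl⟩ : ∃ k, n = k + 1 := ⟨n - 1, by omega⟩
    rcases k with _ | k
    · rw [one_nsmul, Point.some.injEq] at e
      obtain ⟨rfl, rfl⟩ := e
      simpa using hx
    rcases k with _ | k
    · rw [two_nsmul] at e
      rw [derivation_double hd hb e (c := 1) (by rw [one_mul, hx])]
      norm_num
    obtain ⟨X', Y', hXY', e', hX'⟩ :=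
      hasMulFormula_of_ne_zero (h := h) h2 hw (n := k + 2) (by omega)
    have hdX := ih (k + 2) (by omega) (by omega) e'
    have hψ : psi2 W X' Y' * psiVal W x y ((k + 2 : ℕ) : ℤ) ^ 4 =
        psiVal W x y (2 * ((k + 2 : ℕ) : ℤ)) :=
      psi2_nsmul_of_ne hb (by omega) (hasMulFormula_of_ne_zero h2 hw (by omega))
        (hasMulFormula_of_ne_zero h2 hw (by omega))
        (by exact_mod_cast hw (k + 2 + 1) (by omega))
        (by
          have := hw (k + 1) (by omega)
          push_cast at this ⊢
          rwa [show (k : ℤ) + 2 - 1 = k + 1 by ring]) e' hX'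
    have hη : psi2 W X' Y' ≠ 0 := by
      intro hc
      rw [hc, zero_mul] at hψ
      exact hw (2 * (k + 2)) (by omega) (by exact_mod_cast hψ.symm)
    have hne : X' ≠ x := by
      rintro rfl
      rw [phiVal] at hX'
      have := mul_ne_zero (hw (k + 3) (by omega)) (hw (k + 1) (by omega))
      push_cast at hX' this
      apply this
      rw [show (k : ℤ) + 2 + 1 = k + 3 by ring, show (k : ℤ) + 2 - 1 = k + 1 by ring] at hX'
      linear_combination hX'
    rw [succ_nsmul, e'] at e
    have := derivation_add hd hne e hdX (derivation_y hd hXY'.left hη hdX)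
      (c' := 1) (by rw [one_mul, hx]) hy
    rw [this]
    push_cast
    ring

end Invariant

end FLTAgent.ECTorsion
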