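import Fermat.Agent.ECTorsion.Translation

/-!
# Divisors of functions on an elliptic curve

All points are treated by translation (`ordAt`). Proved here: existence of functions with a
prescribed divisor summing to zero (`exists_miller`, `exists_fun_of_multiset`) and constancy of
functions without enough poles (`exists_eq_const`), the inputs of the Weil pairing.
-/

set_option autoImplicit false

open Polynomial WeierstrassCurve.Affine
open scoped WeierstrassCurve.Affine

namespace FLTAgent.ECTorsion.Weil

universe u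

variable {k : Type u} [Field k] [IsAlgClosed k] [DecidableEq k] {W : WeierstrassCurve.Affine k}
  [W.IsElliptic] [DecidableEq W.FunctionField]

local notation "𝔸" => W.CoordinateRing
local notation "FF" => W.FunctionField
local notation "ι" => algebraMap W.CoordinateRing W.FunctionField

/-- `ordA R z`: the order at `R` of an element of the coordinate ring. -/
noncomputable abbrev ordA (R : W.Point) (z : W.CoordinateRing) : ℤ :=
  ordAt R (algebraMap W.CoordinateRing W.FunctionField z)

lemma ordA_mul (R : W.Point) {a b : 𝔸} (ha : a ≠ 0) (hb : b ≠ 0) :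
    ordA R (a * b) = ordA R a + ordA R b := by
  rw [ordA, map_mul, ordAt_mul R (algebraMap_ne_zero ha) (algebraMap_ne_zero hb)]

section Eval

variable {c d : k} (h : W.Nonsingular c d)

/-- Evaluation at an affine point. -/
noncomputable def evalPt : W.CoordinateRing →+* k :=
  AdjoinRoot.lift (evalRingHom c) d (by rw [eval₂_evalRingHom]; exact h.left)

omit [IsAlgClosed k] [DecidableEq k] [W.IsElliptic] [DecidableEq W.FunctionField] in
lemma evalPt_mk (q : k[X][X]) : evalPt h (CoordinateRing.mk W q) = q.evalEval c d := by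
  unfold evalPt
  exact (AdjoinRoot.lift_mk (f := W.polynomial) _ q).trans (by rw [eval₂_evalRingHom])

/-- The value property at an affine point: `σ_R z - z(R)` vanishes at infinity. -/
lemma ordGE_transl_sub_eval (z : 𝔸) :
    OrdGE 1 (transl W (Point.some c d h) (ι z) - algebraMap k FF (evalPt h z)) := by
  set R : W.Point := Point.some c d h
  obtain ⟨h', hR⟩ := cst_some (W := W) h
  have hxc : xF W ≠ algebraMap k FF c := fun e =>
    notMem_range_of_ord (by rw [ord_xF]; norm_num) (xF_ne_zero W) ⟨c, e.symm⟩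
  have hsum := map_transl R
  rw [hR, gPt, Point.add_of_X_ne hxc, Point.map_some, Point.some.injEq] at hsum
  obtain ⟨hx', hy'⟩ := hsum
  have hu : xF W - algebraMap k FF c ≠ 0 := sub_ne_zero_of_ne hxc
  have ou : ord (xF W - algebraMap k FF c) = -2 := by
    have h1 := ord_add_eq_left (xF_ne_zero W)
      ((ordGE_const (W := W) c).neg.mono (by rw [ord_xF]; norm_num : ord (xF W) + 1 ≤ 0))
    rw [← sub_eq_add_neg] at h1
    rw [h1.2, ord_xF]
  have hl : (W⁄FF).slope (xF W) (algebraMap k FF c) (yF W) (algebraMap k FF d) *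
      (xF W - algebraMap k FF c) = yF W - algebraMap k FF d := by
    rw [slope_of_X_ne hxc, div_mul_cancel₀ _ hu]
  generalize (W⁄FF).slope (xF W) (algebraMap k FF c) (yF W) (algebraMap k FF d) = l at hx' hy' hl
  have heq := (equation_iff ..).mp (equation_xF_yF W)
  have heqR : algebraMap k FF d ^ 2 + algebraMap k FF W.a₁ * algebraMap k FF c * algebraMap k FF d +
      algebraMap k FF W.a₃ * algebraMap k FF d =
      algebraMap k FF c ^ 3 + algebraMap k FF W.a₂ * algebraMap k FF c ^ 2 +
        algebraMap k FF W.a₄ * algebraMap k FF c + algebraMap k FF W.a₆ := by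
    simp only [← map_mul, ← map_pow, ← map_add]
    exact congrArg _ ((equation_iff ..).mp h.left)
  change yF W ^ 2 + algebraMap k FF W.a₁ * xF W * yF W + algebraMap k FF W.a₃ * yF W =
    xF W ^ 3 + algebraMap k FF W.a₂ * xF W ^ 2 + algebraMap k FF W.a₄ * xF W + algebraMap k FF W.a₆
    at heq
  simp only [addX, negAddY, addY, negY, baseChange, WeierstrassCurve.baseChange,
    WeierstrassCurve.map] at hx' hy'
  set p := transl W R (xF W) with hp
  set q := transl W R (yF W) with hq
  set ψ : k := 2 * d + W.a₁ * c + W.a₃ with hψ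
  set ξ : k := 3 * c ^ 2 + 2 * W.a₂ * c + W.a₄ - W.a₁ * d with hξ
  set e₀ : k := W.a₆ + d ^ 2 + W.a₁ * c * d - W.a₂ * c ^ 2 - 2 * c ^ 3 with he₀
  have gx : OrdGE (-2) (xF W) := Or.inr (ord_xF W).ge
  have gy : OrdGE (-3) (yF W) := Or.inr (ord_yF W).ge
  have gc : ∀ a : k, OrdGE 0 (algebraMap k FF a) := fun a => ordGE_const a
  have e1 : (p - algebraMap k FF c) * (xF W - algebraMap k FF c) ^ 2 =
      -(algebraMap k FF ψ) * yF W + algebraMap k FF ξ * xF W + algebraMap k FF e₀ := by
    rw [hx', hψ, hξ, he₀]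
    simp only [map_add, map_sub, map_mul, map_pow, map_ofNat]
    linear_combination (l * (xF W - algebraMap k FF c) + (yF W - algebraMap k FF d) +
      algebraMap k FF W.a₁ * (xF W - algebraMap k FF c)) * hl + heq
  have s1 : OrdGE (1 : ℤ) (p - algebraMap k FF c) := by
    rw [← mul_div_cancel_right₀ (p - algebraMap k FF c) (pow_ne_zero 2 hu), e1, div_eq_mul_inv]
    refine OrdGE.mono (e := -3 + 4) ?_ (by norm_num)
    refine OrdGE.mul ?_ (Or.inr (by rw [ord_inv (pow_ne_zero 2 hu), ord_pow hu, ou]; norm_num))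
    exact ((((gc ψ).neg.mul gy).mono (by norm_num)).add (((gc ξ).mul gx).mono (by norm_num))).add
      ((gc e₀).mono (by norm_num))
  have e2 : (l * (p - algebraMap k FF c) + algebraMap k FF ψ) * (xF W - algebraMap k FF c) ^ 3 =
      algebraMap k FF ψ * (algebraMap k FF W.a₁ * xF W * yF W + algebraMap k FF W.a₃ * yF W -
          algebraMap k FF W.a₂ * xF W ^ 2 - algebraMap k FF W.a₄ * xF W - algebraMap k FF W.a₆) +
        algebraMap k FF ψ * (-(3 * algebraMap k FF c) * xF W ^ 2 +
          3 * algebraMap k FF c ^ 2 * xF W - algebraMap k FF c ^ 3) +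
        algebraMap k FF ψ * algebraMap k FF d * yF W +
        (yF W - algebraMap k FF d) * (algebraMap k FF ξ * xF W + algebraMap k FF e₀) := by
    linear_combination ((p - algebraMap k FF c) * (xF W - algebraMap k FF c) ^ 2) * hl +
      (yF W - algebraMap k FF d) * e1 - algebraMap k FF ψ * heq
  have s2 : OrdGE (1 : ℤ) (l * (p - algebraMap k FF c) + algebraMap k FF ψ) := by
    rw [← mul_div_cancel_right₀ (l * (p - algebraMap k FF c) + algebraMap k FF ψ)
      (pow_ne_zero 3 hu), e2, div_eq_mul_inv]
    refine OrdGE.mono (e := -5 + 6) ?_ (by norm_num)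
    refine OrdGE.mul ?_ (Or.inr (by rw [ord_inv (pow_ne_zero 3 hu), ord_pow hu, ou]; norm_num))
    have g3 : OrdGE (0 : ℤ) (3 : FF) := by rw [← map_ofNat (algebraMap k FF) 3]; exact gc _
    have gx2 : OrdGE (-4) (xF W ^ 2) := sq (xF W) ▸ (gx.mul gx).mono (by norm_num)
    have gc2 : OrdGE (0 : ℤ) (algebraMap k FF c ^ 2) := by rw [← map_pow]; exact gc _
    have gc3 : OrdGE (0 : ℤ) (algebraMap k FF c ^ 3) := by rw [← map_pow]; exact gc _
    refine OrdGE.add (OrdGE.add (OrdGE.add ?_ ?_) ?_) ?_
    · refine OrdGE.mono ((gc ψ).mul (e' := -5) ?_) (by norm_num)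
      exact ((((((gc _).mul gx).mul gy).mono (by norm_num)).add
        (((gc _).mul gy).mono (by norm_num))).sub (((gc _).mul gx2).mono (by norm_num))).sub
          (((gc _).mul gx).mono (by norm_num)) |>.sub ((gc _).mono (by norm_num))
    · refine OrdGE.mono ((gc ψ).mul (e' := -5) ?_) (by norm_num)
      exact ((((g3.mul (gc c)).neg.mul gx2).mono (by norm_num)).add
        (((g3.mul gc2).mul gx).mono (by norm_num))).sub (gc3.mono (by norm_num))
    · exact (((gc ψ).mul (gc d)).mul gy).mono (by norm_num)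
    · exact ((gy.sub ((gc d).mono (by norm_num))).mul
        ((((gc ξ).mul gx).mono (by norm_num : (-2 : ℤ) ≤ 0 + -2)).add
          ((gc e₀).mono (by norm_num)))).mono (by norm_num)
  have s3 : OrdGE (1 : ℤ) (q - algebraMap k FF d) := by
    have e3 : q - algebraMap k FF d = -(l * (p - algebraMap k FF c) + algebraMap k FF ψ) -
        algebraMap k FF W.a₁ * (p - algebraMap k FF c) := by
      rw [hy', ← hx', hψ]
      simp only [map_add, map_mul, map_ofNat]
      linear_combination hl
    rw [e3]
    exact s2.neg.sub (((gc _).mul s1).mono (by norm_num))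
  -- the general element
  have hmul : ∀ {f g : FF} {v w : k}, OrdGE 1 (transl W R f - algebraMap k FF v) →
      OrdGE 1 (transl W R g - algebraMap k FF w) →
      OrdGE 1 (transl W R (f * g) - algebraMap k FF (v * w)) := by
    intro f g v w hf hg
    have e : transl W R (f * g) - algebraMap k FF (v * w) =
        (transl W R f - algebraMap k FF v) *
          ((transl W R g - algebraMap k FF w) + algebraMap k FF w) +
          algebraMap k FF v * (transl W R g - algebraMap k FF w) := by
      rw [map_mul, map_mul]; ring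
    rw [e]
    exact ((hf.mul ((hg.mono (zero_le_one (α := ℤ))).add (gc w))).mono (by norm_num)).add
      (((gc v).mul hg).mono (by norm_num))
  have hadd : ∀ {f g : FF} {v w : k}, OrdGE 1 (transl W R f - algebraMap k FF v) →
      OrdGE 1 (transl W R g - algebraMap k FF w) →
      OrdGE 1 (transl W R (f + g) - algebraMap k FF (v + w)) := by
    intro f g v w hf hg
    rw [map_add, map_add, add_sub_add_comm]
    exact hf.add hg
  have hpoly : ∀ P : k[X], OrdGE 1 (transl W R (aeval (xF W) P) -
      algebraMap k FF (P.eval c)) := by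
    intro P
    induction P using Polynomial.induction_on with
    | C a => rw [aeval_C, AlgHom.commutes, eval_C, sub_self]; exact ordGE_zero _
    | add P Q hP hQ => rw [map_add, eval_add]; exact hadd hP hQ
    | monomial n a ih =>
      rw [pow_succ, ← mul_assoc, map_mul, eval_mul, aeval_X, eval_X]
      exact hmul ih s1
  obtain ⟨P, Q, rfl⟩ := CoordinateRing.exists_smul_basis_eq z
  have e : ι (P • (1 : 𝔸) + Q • CoordinateRing.mk W X) =
      aeval (xF W) P + aeval (xF W) Q * yF W := by
    rw [CoordinateRing.smul, CoordinateRing.smul, mul_one, map_add, map_mul, algebraMap_mk_C,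
      algebraMap_mk_C]
    rfl
  have e' : evalPt h (P • (1 : 𝔸) + Q • CoordinateRing.mk W X) = P.eval c + Q.eval c * d := by
    rw [CoordinateRing.smul, CoordinateRing.smul, mul_one, map_add, map_mul, evalPt_mk, evalPt_mk,
      evalPt_mk]
    simp [evalEval]
  rw [e, e']
  exact hadd (hpoly P) (hmul (hpoly Q) s3)

lemma ordA_nonneg {z : 𝔸} (hz : z ≠ 0) : 0 ≤ ordA (Point.some c d h) z := by
  have h1 := ((ordGE_transl_sub_eval h z).mono (zero_le_one (α := ℤ))).add
    (ordGE_const (W := W) (evalPt h z))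
  rw [sub_add_cancel] at h1
  exact h1.le ((_root_.map_ne_zero _).mpr (algebraMap_ne_zero hz))

lemma one_le_ordA {z : 𝔸} (hz : z ≠ 0) (hev : evalPt h z = 0) :
    1 ≤ ordA (Point.some c d h) z := by
  have h1 := ordGE_transl_sub_eval h z
  rw [hev, map_zero, sub_zero] at h1
  exact h1.le ((_root_.map_ne_zero _).mpr (algebraMap_ne_zero hz))

lemma ordA_eq_zero {z : 𝔸} (hev : evalPt h z ≠ 0) : ordA (Point.some c d h) z = 0 := by
  have hc : algebraMap k FF (evalPt h z) ≠ 0 := (_root_.map_ne_zero _).mpr hev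
  have h1 := ord_add_eq_left hc
    ((ordGE_transl_sub_eval h z).mono (by rw [ord_const hev]; norm_num))
  rw [add_sub_cancel] at h1
  rw [ordA, ordAt, h1.2, ord_const hev]

omit [IsAlgClosed k] [DecidableEq k] [W.IsElliptic] [DecidableEq W.FunctionField] in
lemma evalPt_XClass (a : k) : evalPt h (CoordinateRing.XClass W a) = c - a := by
  rw [CoordinateRing.XClass, evalPt_mk]; simp [evalEval]

omit [IsAlgClosed k] [DecidableEq k] [W.IsElliptic] [DecidableEq W.FunctionField] in
lemma evalPt_YClass (L : k[X]) : evalPt h (CoordinateRing.YClass W L) = d - L.eval c := by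
  rw [CoordinateRing.YClass, evalPt_mk]; simp [evalEval]

omit [IsAlgClosed k] [DecidableEq k] [W.IsElliptic] [DecidableEq W.FunctionField] in
lemma mem_XYIdeal_iff (z : 𝔸) : z ∈ CoordinateRing.XYIdeal W c (C d) ↔ evalPt h z = 0 := by
  constructor
  · intro hz
    have : CoordinateRing.XYIdeal W c (C d) ≤ RingHom.ker (evalPt h) := by
      rw [CoordinateRing.XYIdeal, Ideal.span_le]
      rintro _ (rfl | rfl)
      · exact RingHom.mem_ker.mpr (by rw [evalPt_XClass, sub_self])
      · exact RingHom.mem_ker.mpr (by rw [evalPt_YClass, eval_C, sub_self])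
    exact RingHom.mem_ker.mp (this hz)
  · intro hz
    obtain ⟨P, Q, rfl⟩ := CoordinateRing.exists_smul_basis_eq z
    rw [CoordinateRing.smul, CoordinateRing.smul, mul_one, map_add, map_mul, evalPt_mk, evalPt_mk,
      evalPt_mk] at hz
    simp only [evalEval, eval_C, eval_X] at hz
    obtain ⟨P', hP⟩ := dvd_iff_isRoot.mpr (show (P - C (P.eval c)).IsRoot c by simp [IsRoot])
    obtain ⟨Q', hQ⟩ := dvd_iff_isRoot.mpr (show (Q - C (Q.eval c)).IsRoot c by simp [IsRoot])
    have key : P • (1 : 𝔸) + Q • CoordinateRing.mk W X =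
        (CoordinateRing.mk W (C P') + CoordinateRing.mk W (C Q') * CoordinateRing.mk W X) *
            CoordinateRing.XClass W c +
          CoordinateRing.mk W (C (C (Q.eval c))) * CoordinateRing.YClass W (C d) := by
      rw [CoordinateRing.smul, CoordinateRing.smul, mul_one, CoordinateRing.XClass,
        CoordinateRing.YClass]
      simp only [← map_mul, ← map_add]
      congr 1
      have hP' : P = (X - C c) * P' + C (P.eval c) := by rw [← hP]; ring
      have hQ' : Q = (X - C c) * Q' + C (Q.eval c) := by rw [← hQ]; ring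
      conv_lhs => rw [hP', hQ']
      have h0 : P.eval c = -(Q.eval c * d) := by linear_combination hz
      rw [h0]
      simp only [C_add, C_mul, C_sub, C_neg]
      ring
    rw [key]
    exact add_mem (Ideal.mul_mem_left _ _ (Ideal.subset_span (Or.inl rfl)))
      (Ideal.mul_mem_left _ _ (Ideal.subset_span (Or.inr rfl)))

end Eval

section MinOrd

/-- `e` is the least order at `R` of the nonzero elements of `I`. -/
def MinOrd (R : W.Point) (I : Ideal W.CoordinateRing) (e : ℤ) : Prop :=
  (∀ z ∈ I, z ≠ 0 → e ≤ ordA R z) ∧ ∃ z ∈ I, z ≠ 0 ∧ ordA R z = e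

lemma MinOrd.unique {R : W.Point} {I : Ideal 𝔸} {e e' : ℤ} (h : MinOrd R I e)
    (h' : MinOrd R I e') : e = e' := by
  obtain ⟨z, hz, hz0, rfl⟩ := h.2
  obtain ⟨z', hz', hz0', rfl⟩ := h'.2
  exact le_antisymm (h.1 z' hz' hz0') (h'.1 z hz hz0)

lemma MinOrd.mul {R : W.Point} {I J : Ideal 𝔸} {e e' : ℤ} (h : MinOrd R I e)
    (h' : MinOrd R J e') : MinOrd R (I * J) (e + e') := by
  refine ⟨fun z hz hz0 => ?_, ?_⟩
  · have : OrdGE (e + e') (transl W R (ι z)) := by
      refine Submodule.mul_induction_on hz (fun a ha b hb => ?_) (fun a b ha hb => ?_)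
      · by_cases ha0 : a = 0
        · exact Or.inl (by rw [ha0, zero_mul, map_zero, map_zero])
        by_cases hb0 : b = 0
        · exact Or.inl (by rw [hb0, mul_zero, map_zero, map_zero])
        rw [map_mul, map_mul]
        exact OrdGE.mul (Or.inr (h.1 a ha ha0)) (Or.inr (h'.1 b hb hb0))
      · rw [map_add, map_add]; exact ha.add hb
    exact this.le ((_root_.map_ne_zero _).mpr (algebraMap_ne_zero hz0))
  · obtain ⟨a, ha, ha0, rfl⟩ := h.2
    obtain ⟨b, hb, hb0, rfl⟩ := h'.2
    exact ⟨a * b, Ideal.mul_mem_mul ha hb, mul_ne_zero ha0 hb0, ordA_mul R ha0 hb0⟩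

variable {c d : k} {h : W.Nonsingular c d}

lemma minOrd_span {z : 𝔸} (hz : z ≠ 0) :
    MinOrd (Point.some c d h) (Ideal.span {z}) (ordA (Point.some c d h) z) := by
  refine ⟨fun w hw hw0 => ?_, z, Ideal.subset_span rfl, hz, rfl⟩
  obtain ⟨a, rfl⟩ := Ideal.mem_span_singleton'.mp hw
  have ha : a ≠ 0 := left_ne_zero_of_mul hw0
  rw [ordA_mul _ ha hz]
  have := ordA_nonneg h ha
  omega

lemma exists_minOrd {I : Ideal 𝔸} (hI : ∃ z ∈ I, z ≠ 0) :
    ∃ e, MinOrd (Point.some c d h) I e := by
  classical
  obtain ⟨z, hz, hz0⟩ := hI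
  have hex : ∃ n : ℕ, ∃ z ∈ I, z ≠ 0 ∧ (ordA (Point.some c d h) z).toNat = n := ⟨_, z, hz, hz0, rfl⟩
  obtain ⟨w, hw, hw0, hwn⟩ := Nat.find_spec hex
  refine ⟨ordA (Point.some c d h) w, fun v hv hv0 => ?_, w, hw, hw0, rfl⟩
  have hle := Nat.find_min' hex ⟨v, hv, hv0, rfl⟩
  have := ordA_nonneg h hw0
  have := ordA_nonneg h hv0
  omega

end MinOrd

variable {c d : k} (h : W.Nonsingular c d)

/-- The ideal of a point has order one there. -/
lemma minOrd_self : MinOrd (Point.some c d h) (CoordinateRing.XYIdeal W c (C d)) 1 := by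
  have hX : CoordinateRing.XClass W c ∈ CoordinateRing.XYIdeal W c (C d) :=
    Ideal.subset_span (Or.inl rfl)
  have hX' : CoordinateRing.XClass W c ∈ CoordinateRing.XYIdeal W c (C (W.negY c d)) :=
    Ideal.subset_span (Or.inl rfl)
  obtain ⟨e, he⟩ := exists_minOrd (h := h) ⟨_, hX, CoordinateRing.XClass_ne_zero c⟩
  obtain ⟨e', he'⟩ := exists_minOrd (h := h) ⟨_, hX', CoordinateRing.XClass_ne_zero c⟩
  have hmul := he'.mul he
  rw [CoordinateRing.XYIdeal_neg_mul h, CoordinateRing.XIdeal] at hmul
  have hsum : e' + e = ordA (Point.some c d h : W.Point) (CoordinateRing.XClass W c) :=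
    hmul.unique (minOrd_span (CoordinateRing.XClass_ne_zero c))
  obtain ⟨u, hu, hu0, hue⟩ := he.2
  have he1 : 1 ≤ e := hue ▸ one_le_ordA h hu0 ((mem_XYIdeal_iff h u).mp hu)
  obtain ⟨w, hw, hw0, hwe⟩ := he'.2
  have key : ∀ (n : ℕ) (z : 𝔸), z ≠ 0 → (ordA (Point.some c d h : W.Point) z).toNat = n →
      e ∣ ordA (Point.some c d h : W.Point) z := by
    intro n
    induction n using Nat.strong_induction_on with
    | _ n ih =>
      intro z hz hn
      by_cases hev : evalPt h z = 0
      · have hzm := (mem_XYIdeal_iff h z).mpr hev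
        have : w * z ∈ CoordinateRing.XIdeal W c :=
          CoordinateRing.XYIdeal_neg_mul h ▸ Ideal.mul_mem_mul hw hzm
        obtain ⟨z', hz'⟩ := Ideal.mem_span_singleton'.mp this
        have hz'0 : z' ≠ 0 := by
          rintro rfl
          rw [zero_mul] at hz'
          exact mul_ne_zero hw0 hz hz'.symm
        have e2 := congrArg (ordA (Point.some c d h : W.Point)) hz'
        rw [ordA_mul (Point.some c d h : W.Point) hz'0 (CoordinateRing.XClass_ne_zero c),
          ordA_mul (Point.some c d h : W.Point) hw0 hz, hwe, ← hsum] at e2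
        have hnn := ordA_nonneg h hz'0
        have e3 : ordA (Point.some c d h : W.Point) z =
            ordA (Point.some c d h : W.Point) z' + e := by omega
        have := ih (ordA (Point.some c d h : W.Point) z').toNat (by omega) z' hz'0 rfl
        rw [e3]
        exact dvd_add this dvd_rfl
      · rw [ordA_eq_zero h hev]; exact dvd_zero e
  have hxy : xF W / yF W ≠ 0 := div_ne_zero (xF_ne_zero W) (yF_ne_zero W)
  obtain ⟨a, b, ha, hb, hab⟩ :=
    exists_eq_div ((_root_.map_ne_zero (transl W (-(Point.some c d h : W.Point)))).mpr hxy)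
  have h1 : ordAt (Point.some c d h : W.Point)
      (transl W (-(Point.some c d h : W.Point)) (xF W / yF W)) = 1 := by
    rw [ordAt_transl, add_neg_cancel, ordAt_zero, ord_div_eq (xF_ne_zero W) (yF_ne_zero W),
      ord_xF, ord_yF]
    rfl
  rw [hab, ordAt_div (Point.some c d h : W.Point) (algebraMap_ne_zero ha) (algebraMap_ne_zero hb)]
    at h1
  have he_dvd : e ∣ (1 : ℤ) := h1 ▸ dvd_sub (key _ a ha rfl) (key _ b hb rfl)
  rwa [show e = 1 from le_antisymm (Int.le_of_dvd one_pos he_dvd) he1] at he

open scoped Classical in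
/-- The indicator of equality of points. -/
noncomputable def δ (P Q : W.Point) : ℤ := if P = Q then 1 else 0

omit [IsAlgClosed k] [W.IsElliptic] [DecidableEq W.FunctionField] in
lemma δ_self (P : W.Point) : δ P P = 1 := by rw [δ, if_pos rfl]

omit [IsAlgClosed k] [W.IsElliptic] [DecidableEq W.FunctionField] in
lemma δ_of_ne {P Q : W.Point} (hPQ : P ≠ Q) : δ P Q = 0 := by rw [δ, if_neg hPQ]

lemma minOrd_point {a b : k} (hU : W.Nonsingular a b) :
    MinOrd (Point.some c d h) (CoordinateRing.XYIdeal W a (C b))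
      (δ (Point.some c d h) (Point.some a b hU)) := by
  by_cases he : Point.some c d h = Point.some a b hU
  · rw [Point.some.injEq] at he
    obtain ⟨rfl, rfl⟩ := he
    rw [δ_self]
    exact minOrd_self h
  rw [δ_of_ne he]
  refine ⟨fun z _ hz => ordA_nonneg h hz, ?_⟩
  rw [Point.some.injEq, not_and] at he
  by_cases hca : c = a
  · refine ⟨CoordinateRing.YClass W (C b), Ideal.subset_span (Or.inr rfl),
      CoordinateRing.YClass_ne_zero _, ordA_eq_zero h ?_⟩
    rw [evalPt_YClass, eval_C, sub_ne_zero]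
    exact he hca
  · refine ⟨CoordinateRing.XClass W a, Ideal.subset_span (Or.inl rfl),
      CoordinateRing.XClass_ne_zero _, ordA_eq_zero h ?_⟩
    rw [evalPt_XClass, sub_ne_zero]
    exact hca

lemma ordA_XClass {a b : k} (hU : W.Nonsingular a b) :
    ordA (Point.some c d h) (CoordinateRing.XClass W a) =
      δ (Point.some c d h) (-Point.some a b hU) + δ (Point.some c d h) (Point.some a b hU) := by
  have h1 := (minOrd_point h ((nonsingular_neg ..).mpr hU)).mul (minOrd_point h hU)
  rw [CoordinateRing.XYIdeal_neg_mul hU, CoordinateRing.XIdeal] at h1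
  rw [Point.neg_some]
  exact (minOrd_span (CoordinateRing.XClass_ne_zero a)).unique h1

variable (W)

omit [IsAlgClosed k] [DecidableEq k] [W.IsElliptic] [DecidableEq W.FunctionField] in
lemma degN_XClass (a : k) : degN (CoordinateRing.XClass W a) = 2 := by
  rw [CoordinateRing.XClass, (degN_C W (X_sub_C_ne_zero a)).1, natDegree_X_sub_C]

omit [IsAlgClosed k] [DecidableEq k] [W.IsElliptic] [DecidableEq W.FunctionField] in
lemma degN_YClass_linePolynomial (x y l : k) :
    degN (CoordinateRing.YClass W (linePolynomial x y l)) = 3 := by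
  have h : CoordinateRing.YClass W (linePolynomial x y l) =
      (-linePolynomial x y l) • (1 : 𝔸) + (1 : k[X]) • CoordinateRing.mk W X := by
    rw [one_smul, CoordinateRing.smul, mul_one, C_neg, map_neg, CoordinateRing.YClass, map_sub]
    ring
  have := poleDeg_smul_basis (W := W) (-linePolynomial x y l) 1
  rw [← h, poleDeg_eq (CoordinateRing.YClass_ne_zero _), degree_one, degree_neg, two_nsmul,
    two_nsmul, add_zero, zero_add, max_eq_right] at this
  · exact_mod_cast this
  · have : (linePolynomial x y l).degree ≤ 1 := by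
      unfold linePolynomial
      compute_degree
    exact (add_le_add this this).trans (by norm_num)

variable {W}

/-- A function with divisor `(T) + (U) - (T + U) - (0)`. -/
lemma exists_miller (T U : W.Point) : ∃ f : FF, f ≠ 0 ∧
    ∀ R, ordAt R f = δ R T + δ R U - δ R (T + U) - δ R 0 := by
  rcases T with _ | ⟨x₁, y₁, h₁⟩
  · refine ⟨1, one_ne_zero, fun R => ?_⟩
    rw [ordAt_one, ← Point.zero_def, zero_add]; ring
  rcases U with _ | ⟨x₂, y₂, h₂⟩
  · refine ⟨1, one_ne_zero, fun R => ?_⟩
    rw [ordAt_one, ← Point.zero_def, add_zero]; ring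
  by_cases hxy : x₁ = x₂ ∧ y₁ = W.negY x₂ y₂
  · refine ⟨ι (CoordinateRing.XClass W x₂),
      algebraMap_ne_zero (CoordinateRing.XClass_ne_zero x₂), fun R => ?_⟩
    have e : Point.some x₁ y₁ h₁ = -Point.some x₂ y₂ h₂ := by
      rw [Point.neg_some, Point.some.injEq]; exact hxy
    rw [e, neg_add_cancel]
    rcases R with _ | ⟨c, d, h⟩
    · rw [← Point.zero_def, ordAt_zero, ord_algebraMap (CoordinateRing.XClass_ne_zero x₂),
        degN_XClass, δ_self, δ_of_ne (fun e' => Point.some_ne_zero h₂ e'.symm),
        δ_of_ne (fun e' => Point.some_ne_zero h₂ (neg_eq_zero.mp e'.symm))]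
      rfl
    · rw [δ_of_ne (Point.some_ne_zero h), sub_zero, sub_zero]
      exact ordA_XClass h h₂
  set l := W.slope x₁ x₂ y₁ y₂
  set T : W.Point := Point.some x₁ y₁ h₁
  set U : W.Point := Point.some x₂ y₂ h₂
  have hadd : T + U = Point.some _ _ (nonsingular_add h₁ h₂ hxy) := Point.add_some hxy
  refine ⟨ι (CoordinateRing.YClass W (linePolynomial x₁ y₁ l)) /
      ι (CoordinateRing.XClass W (W.addX x₁ x₂ l)),
    div_ne_zero (algebraMap_ne_zero (CoordinateRing.YClass_ne_zero _))
      (algebraMap_ne_zero (CoordinateRing.XClass_ne_zero _)), fun R => ?_⟩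
  rw [ordAt_div R (algebraMap_ne_zero (CoordinateRing.YClass_ne_zero _))
    (algebraMap_ne_zero (CoordinateRing.XClass_ne_zero _)), hadd]
  rcases R with _ | ⟨c, d, h⟩
  · rw [← Point.zero_def, ordAt_zero, ordAt_zero,
      ord_algebraMap (CoordinateRing.YClass_ne_zero _),
      ord_algebraMap (CoordinateRing.XClass_ne_zero _), degN_YClass_linePolynomial, degN_XClass,
      δ_self, δ_of_ne (fun e' => Point.some_ne_zero h₁ e'.symm),
      δ_of_ne (fun e' => Point.some_ne_zero h₂ e'.symm),
      δ_of_ne (fun e' => Point.some_ne_zero _ e'.symm)]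
    rfl
  have h3 := nonsingular_add h₁ h₂ hxy
  have e1 := ((minOrd_span (h := h) (CoordinateRing.XClass_ne_zero (W' := W) (W.addX x₁ x₂ l)))).mul
    ((minOrd_point h h₁).mul (minOrd_point h h₂))
  have e2 := (minOrd_span (h := h)
    (CoordinateRing.YClass_ne_zero (W' := W) (linePolynomial x₁ y₁ l))).mul (minOrd_point h h3)
  have hid := CoordinateRing.XYIdeal_mul_XYIdeal h₁.left h₂.left hxy
  rw [CoordinateRing.XIdeal, CoordinateRing.YIdeal] at hid
  rw [hid] at e1
  have := e1.unique e2
  rw [δ_of_ne (Point.some_ne_zero h)]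
  change ordA _ _ - ordA _ _ = _
  linarith

open scoped Classical in
/-- A function with divisor `∑ (T) - (∑ T) - (#-1)(0)`. -/
lemma exists_fun_of_multiset (s : Multiset W.Point) : ∃ f : FF, f ≠ 0 ∧
    ∀ R, ordAt R f = (s.count R : ℤ) - δ R s.sum - ((Multiset.card s : ℤ) - 1) * δ R 0 := by
  induction s using Multiset.induction_on with
  | empty => exact ⟨1, one_ne_zero, fun R => by simp [ordAt_one]⟩
  | cons T s ih =>
    obtain ⟨f, hf, hfR⟩ := ih
    obtain ⟨g, hg, hgR⟩ := exists_miller T s.sum
    refine ⟨f * g, mul_ne_zero hf hg, fun R => ?_⟩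
    rw [ordAt_mul R hf hg, hfR, hgR, Multiset.sum_cons, Multiset.count_cons, Multiset.card_cons]
    have : δ R T = if R = T then 1 else 0 := by rw [δ]
    rw [this]
    split_ifs <;> push_cast <;> ring

omit [DecidableEq k] [DecidableEq W.FunctionField] in
lemma exists_XYIdeal_le {M : Ideal 𝔸} [hM : M.IsMaximal] (hne : M ≠ ⊥) :
    ∃ (c d : k) (_ : W.Nonsingular c d), CoordinateRing.XYIdeal W c (C d) ≤ M := by
  obtain ⟨z, hz, hz0⟩ := Submodule.exists_mem_ne_zero_of_ne_bot hne
  have hN : CoordinateRing.mk W (C (Algebra.norm k[X] z)) ∈ M := by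
    obtain ⟨p, q, rfl⟩ := CoordinateRing.exists_smul_basis_eq z
    have := CoordinateRing.coe_norm_smul_basis (W' := W) p q
    change CoordinateRing.mk W (C (Algebra.norm k[X] _)) = _ at this
    rw [this, map_mul]
    refine Ideal.mul_mem_right _ _ ?_
    rw [CoordinateRing.smul, CoordinateRing.smul, mul_one, ← map_mul, ← map_add] at hz
    exact hz
  set N := Algebra.norm k[X] z
  have hN0 : N ≠ 0 := norm_ne_zero hz0
  have hp := (IsAlgClosed.splits N).eq_prod_roots
  rw [hp, C_mul, map_mul] at hN
  have hunit : CoordinateRing.mk W (C (C N.leadingCoeff)) ∉ M := fun hc => by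
    refine hM.ne_top (Ideal.eq_top_of_isUnit_mem M hc ?_)
    exact ((isUnit_iff_ne_zero.mpr (leadingCoeff_ne_zero.mpr hN0)).map C).map C |>.map _
  have hprod := (hM.isPrime.mem_or_mem hN).resolve_left hunit
  rw [map_multiset_prod, map_multiset_prod] at hprod
  obtain ⟨w, hw, hwM⟩ := (hM.isPrime.multiset_prod_mem_iff_exists_mem _).mp hprod
  simp only [Multiset.mem_map] at hw
  obtain ⟨_, ⟨_, ⟨c, -, rfl⟩, rfl⟩, rfl⟩ := hw
  obtain ⟨d, hd, -⟩ := exists_point W c
  have hX : CoordinateRing.XIdeal W c ≤ M := by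
    rw [CoordinateRing.XIdeal, Ideal.span_singleton_le_iff_mem]; exact hwM
  rw [← CoordinateRing.XYIdeal_neg_mul hd] at hX
  rcases hM.isPrime.mul_le.mp hX with hle | hle
  · exact ⟨c, _, (nonsingular_neg ..).mpr hd, hle⟩
  · exact ⟨c, d, hd, hle⟩

/-- A function without poles outside infinity and with at most a simple pole there is constant. -/
lemma exists_eq_const {f : FF} (hf : f ≠ 0) (hreg : ∀ R : W.Point, R ≠ 0 → 0 ≤ ordAt R f)
    (hinf : -1 ≤ ord f) : ∃ a : k, a ≠ 0 ∧ f = algebraMap k FF a := by
  let I : Ideal 𝔸 :=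
    { carrier := {b | ∃ a, ι a = ι b * f}
      add_mem' := by
        rintro b b' ⟨a, ha⟩ ⟨a', ha'⟩
        exact ⟨a + a', by rw [map_add, map_add, ha, ha', add_mul]⟩
      zero_mem' := ⟨0, by rw [map_zero, zero_mul]⟩
      smul_mem' := by
        rintro t b ⟨a, ha⟩
        exact ⟨t * a, by rw [smul_eq_mul, map_mul, map_mul, ha, mul_assoc]⟩ }
  have hI : I = ⊤ := by
    by_contra hI
    obtain ⟨M, hM, hIM⟩ := Ideal.exists_le_maximal I hI
    obtain ⟨a, b, ha, hb, hab⟩ := exists_eq_div hf
    have hbI : b ∈ I := ⟨a, by rw [hab, mul_div_cancel₀ _ (algebraMap_ne_zero hb)]⟩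
    have hne : M ≠ ⊥ := fun hc => hb (by simpa [hc] using hIM hbI)
    obtain ⟨c, d, h, hle⟩ := exists_XYIdeal_le hne
    have hMev : ∀ z ∈ M, evalPt h z = 0 := by
      intro z hz
      by_contra hev
      refine hM.ne_top (Ideal.eq_top_of_isUnit_mem M
        (x := CoordinateRing.mk W (C (C (evalPt h z)))) ?_
        ((((isUnit_iff_ne_zero.mpr hev).map C).map C).map _))
      have h2 : z - CoordinateRing.mk W (C (C (evalPt h z))) ∈ M := hle
        ((mem_XYIdeal_iff h _).mpr (by rw [map_sub, evalPt_mk h]; simp [evalEval]))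
      simpa using M.sub_mem hz h2
    obtain ⟨e, he⟩ := exists_minOrd (h := h) (I := CoordinateRing.XYIdeal W c (C (W.negY c d)))
      ⟨_, Ideal.subset_span (Or.inl rfl), CoordinateRing.XClass_ne_zero c⟩
    have hmul := he.mul (minOrd_self h)
    rw [CoordinateRing.XYIdeal_neg_mul h, CoordinateRing.XIdeal] at hmul
    have hsum := hmul.unique (minOrd_span (CoordinateRing.XClass_ne_zero c))
    obtain ⟨w, hw, hw0, hwe⟩ := he.2
    have key : ∀ (n : ℕ) (b : 𝔸),
        b ∈ I → b ≠ 0 → (ordA (Point.some c d h : W.Point) b).toNat = n → False := by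
      intro n
      induction n using Nat.strong_induction_on with
      | _ n ih =>
        intro b hbI hb0 hn
        obtain ⟨a, ha⟩ := hbI
        have ha0 : a ≠ 0 := by
          rintro rfl
          rw [map_zero] at ha
          exact mul_ne_zero (algebraMap_ne_zero hb0) hf ha.symm
        have hb1 := one_le_ordA h hb0 (hMev b (hIM ⟨a, ha⟩))
        have ha1 : 1 ≤ ordA (Point.some c d h : W.Point) a := by
          rw [ordA, ha, ordAt_mul (Point.some c d h : W.Point) (algebraMap_ne_zero hb0) hf]
          have := hreg (Point.some c d h : W.Point) (Point.some_ne_zero h)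
          simp only [ordA] at hb1
          omega
        have hdiv : ∀ t : 𝔸, t ≠ 0 → 1 ≤ ordA (Point.some c d h : W.Point) t →
            ∃ t', t' * CoordinateRing.XClass W c = w * t := by
          intro t ht ht1
          have : t ∈ CoordinateRing.XYIdeal W c (C d) := by
            rw [mem_XYIdeal_iff h]
            by_contra hev
            rw [ordA_eq_zero h hev] at ht1
            omega
          have hmem := Ideal.mul_mem_mul hw this
          rw [CoordinateRing.XYIdeal_neg_mul h, CoordinateRing.XIdeal] at hmem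
          exact Ideal.mem_span_singleton'.mp hmem
        obtain ⟨b', hb'⟩ := hdiv b hb0 hb1
        obtain ⟨a', ha'⟩ := hdiv a ha0 ha1
        have hb'0 : b' ≠ 0 := by
          rintro rfl
          rw [zero_mul] at hb'
          exact mul_ne_zero hw0 hb0 hb'.symm
        have hb'I : b' ∈ I := by
          refine ⟨a', mul_right_cancel₀
            (algebraMap_ne_zero (CoordinateRing.XClass_ne_zero (W' := W) c)) ?_⟩
          rw [← map_mul, ha', map_mul, ha]
          have := congrArg ι hb'
          rw [map_mul, map_mul] at this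
          linear_combination -f * this
        have e2 := congrArg (ordA (Point.some c d h : W.Point)) hb'
        rw [ordA_mul (Point.some c d h : W.Point) hb'0 (CoordinateRing.XClass_ne_zero c),
          ordA_mul (Point.some c d h : W.Point) hw0 hb0, hwe,
          ← hsum] at e2
        exact ih (ordA (Point.some c d h : W.Point) b').toNat
          (by have := ordA_nonneg h hb'0; omega) b' hb'I hb'0 rfl
    exact key _ b hbI hb rfl
  obtain ⟨a, ha⟩ : (1 : 𝔸) ∈ I := by rw [hI]; trivial
  rw [map_one, one_mul] at ha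
  have ha0 : a ≠ 0 := by
    rintro rfl
    exact hf (by rw [← ha, map_zero])
  rw [← ha, ord_algebraMap ha0] at hinf
  have hd1 : degN a ≤ 1 := by omega
  have hd0 : degN a = 0 := by
    have := CoordinateRing.natDegree_norm_ne_one a
    change degN a ≠ 1 at this
    omega
  obtain ⟨p, q, rfl⟩ := CoordinateRing.exists_smul_basis_eq a
  have hdeg := poleDeg_smul_basis (W := W) p q
  rw [poleDeg_eq ha0, hd0, Nat.cast_zero] at hdeg
  have hq : q = 0 := by
    by_contra hq
    have h3 : (0 : WithBot ℕ) < 2 • q.degree + 3 := by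
      rw [degree_eq_natDegree hq, two_nsmul, ← Nat.cast_add,
        show (3 : WithBot ℕ) = ((3 : ℕ) : WithBot ℕ) from rfl, ← Nat.cast_add]
      exact_mod_cast (by omega : 0 < q.natDegree + q.natDegree + 3)
    exact absurd hdeg (lt_max_of_lt_right h3).ne
  have hpd : p.degree ≤ 0 := by
    by_contra hp
    rw [not_le] at hp
    exact absurd hdeg (lt_max_of_lt_left (lt_of_lt_of_le hp
      (by rw [two_nsmul]; exact le_add_of_nonneg_left hp.le))).ne
  obtain ⟨s, hs⟩ : ∃ s, p = C s := ⟨_, eq_C_of_degree_le_zero hpd⟩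
  have hs0 : s ≠ 0 := by rintro rfl; simp [hs, hq] at ha0
  refine ⟨s, hs0, ?_⟩
  rw [← ha, hs, hq, zero_smul, add_zero, CoordinateRing.smul, mul_one, algebraMap_base]
  rfl

end FLTAgent.ECTorsion.Weil
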