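import Mathlib.AlgebraicGeometry.EllipticCurve.Affine.Point

/-!
# The order at infinity on the function field of a Weierstrass curve

`ord` is minus the degree of the norm to `k[X]`, with the predicate `OrdGE`. It is multiplicative
and non-archimedean, and `ord x = -2`, `ord y = -3` (`ord_xF`, `ord_yF`).
-/

set_option autoImplicit false

open Polynomial WeierstrassCurve.Affine

namespace FLTAgent.ECTorsion.Weil

universe u

variable {k : Type u} [Field k] {W : WeierstrassCurve.Affine k}

local notation "𝔸" => W.CoordinateRing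
local notation "FF" => W.FunctionField

/-- The degree of the norm to `k[X]`: the pole order at infinity. -/
noncomputable def poleDeg (a : W.CoordinateRing) : WithBot ℕ := (Algebra.norm k[X] a).degree

lemma poleDeg_smul_basis (p q : k[X]) :
    poleDeg (p • (1 : 𝔸) + q • CoordinateRing.mk W (X : k[X][X])) =
      max (2 • p.degree) (2 • q.degree + 3) :=
  CoordinateRing.degree_norm_smul_basis p q

lemma poleDeg_add_le (a b : 𝔸) : poleDeg (a + b) ≤ max (poleDeg a) (poleDeg b) := by
  obtain ⟨p, q, rfl⟩ := CoordinateRing.exists_smul_basis_eq a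
  obtain ⟨p', q', rfl⟩ := CoordinateRing.exists_smul_basis_eq b
  rw [show p • (1 : 𝔸) + q • CoordinateRing.mk W X + (p' • (1 : 𝔸) + q' • CoordinateRing.mk W X) =
    (p + p') • (1 : 𝔸) + (q + q') • CoordinateRing.mk W X by simp only [add_smul]; abel,
    poleDeg_smul_basis, poleDeg_smul_basis, poleDeg_smul_basis]
  have h1 : (p + p').degree ≤ max p.degree p'.degree := degree_add_le _ _
  have h2 : (q + q').degree ≤ max q.degree q'.degree := degree_add_le _ _
  simp only [two_nsmul]
  rcases le_total p.degree p'.degree with hp | hp <;>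
    rcases le_total q.degree q'.degree with hq | hq <;>
    simp only [max_eq_right, max_eq_left, hp, hq] at h1 h2 <;>
    refine max_le ?_ ?_
  all_goals
    first
      | exact le_max_of_le_right (le_max_of_le_left (add_le_add h1 h1))
      | exact le_max_of_le_left (le_max_of_le_left (add_le_add h1 h1))
      | exact le_max_of_le_right (le_max_of_le_right (add_le_add (add_le_add h2 h2) le_rfl))
      | exact le_max_of_le_left (le_max_of_le_right (add_le_add (add_le_add h2 h2) le_rfl))

/-- The degree of the norm, as a natural number. -/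
noncomputable def degN (a : W.CoordinateRing) : ℕ := (Algebra.norm k[X] a).natDegree

lemma norm_ne_zero {a : 𝔸} (ha : a ≠ 0) : Algebra.norm k[X] a ≠ 0 := by
  intro h
  obtain ⟨p, q, rfl⟩ := CoordinateRing.exists_smul_basis_eq a
  have := poleDeg_smul_basis (W := W) p q
  rw [poleDeg, h, degree_zero, eq_comm, max_eq_bot, two_nsmul, two_nsmul] at this
  simp only [WithBot.add_eq_bot, degree_eq_bot, or_self, or_false,
    show ((3 : WithBot ℕ) = ⊥) = False from by simp] at this
  simp [this.1, this.2] at ha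

lemma poleDeg_eq {a : 𝔸} (ha : a ≠ 0) : poleDeg a = (degN a : WithBot ℕ) :=
  degree_eq_natDegree (norm_ne_zero ha)

lemma degN_mul {a b : 𝔸} (ha : a ≠ 0) (hb : b ≠ 0) : degN (a * b) = degN a + degN b := by
  rw [degN, map_mul, natDegree_mul (norm_ne_zero ha) (norm_ne_zero hb)]; rfl

lemma degN_one : degN (1 : 𝔸) = 0 := by rw [degN, map_one, natDegree_one]

lemma degN_add_le {a b : 𝔸} (ha : a ≠ 0) (hb : b ≠ 0) (hab : a + b ≠ 0) :
    degN (a + b) ≤ max (degN a) (degN b) := by
  have := poleDeg_add_le a b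
  rw [poleDeg_eq ha, poleDeg_eq hb, poleDeg_eq hab, ← Nat.mono_cast.map_max] at this
  exact_mod_cast this

/-- The order at infinity of a function. -/
noncomputable def ord (f : W.FunctionField) : ℤ :=
  (degN ((IsFractionRing.div_surjective (A := W.CoordinateRing) f).choose_spec.choose) : ℤ) -
    degN (IsFractionRing.div_surjective (A := W.CoordinateRing) f).choose

lemma ord_div {a b : 𝔸} (ha : a ≠ 0) (hb : b ≠ 0) :
    ord (algebraMap 𝔸 FF a / algebraMap 𝔸 FF b) = (degN b : ℤ) - degN a := by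
  set h := IsFractionRing.div_surjective (A := 𝔸) (algebraMap 𝔸 FF a / algebraMap 𝔸 FF b)
  obtain ⟨hd, he⟩ := h.choose_spec.choose_spec
  change (degN h.choose_spec.choose : ℤ) - degN h.choose = _
  set c := h.choose
  set d := h.choose_spec.choose
  have hd0 : d ≠ 0 := nonZeroDivisors.ne_zero hd
  have inj := IsFractionRing.injective 𝔸 FF
  have hne : ∀ {z : 𝔸}, z ≠ 0 → algebraMap 𝔸 FF z ≠ 0 := fun hz =>
    (map_ne_zero_iff _ inj).mpr hz
  rw [div_eq_div_iff (hne hd0) (hne hb), ← map_mul, ← map_mul] at he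
  have he' : c * b = a * d := inj he
  have hc0 : c ≠ 0 := by
    intro hc
    rw [hc, zero_mul, eq_comm, mul_eq_zero] at he'
    exact he'.elim ha hd0
  have e1 := degN_mul hc0 hb
  have e2 := degN_mul ha hd0
  rw [he'] at e1
  change (degN d : ℤ) - (degN c : ℤ) = _
  clear_value c d
  omega

lemma algebraMap_ne_zero {a : 𝔸} (ha : a ≠ 0) : algebraMap 𝔸 FF a ≠ 0 :=
  (map_ne_zero_iff _ (IsFractionRing.injective 𝔸 FF)).mpr ha

lemma ord_algebraMap {a : 𝔸} (ha : a ≠ 0) : ord (algebraMap 𝔸 FF a) = -(degN a : ℤ) := by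
  have := ord_div ha (one_ne_zero (α := 𝔸))
  rw [map_one, div_one, degN_one] at this
  simpa using this

lemma exists_eq_div {f : FF} (hf : f ≠ 0) :
    ∃ a b : 𝔸, a ≠ 0 ∧ b ≠ 0 ∧ f = algebraMap 𝔸 FF a / algebraMap 𝔸 FF b := by
  obtain ⟨a, b, hb, rfl⟩ := IsFractionRing.div_surjective (A := 𝔸) f
  refine ⟨a, b, ?_, nonZeroDivisors.ne_zero hb, rfl⟩
  rintro rfl
  simp at hf

lemma ord_mul {f g : FF} (hf : f ≠ 0) (hg : g ≠ 0) : ord (f * g) = ord f + ord g := by
  obtain ⟨a, b, ha, hb, rfl⟩ := exists_eq_div hf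
  obtain ⟨c, d, hc, hd, rfl⟩ := exists_eq_div hg
  rw [div_mul_div_comm, ← map_mul, ← map_mul, ord_div (mul_ne_zero ha hc) (mul_ne_zero hb hd),
    ord_div ha hb, ord_div hc hd, degN_mul ha hc, degN_mul hb hd]
  push_cast
  ring

lemma ord_one : ord (1 : FF) = 0 := by
  have := ord_mul (W := W) (one_ne_zero (α := FF)) one_ne_zero
  rw [one_mul] at this
  linarith

lemma ord_inv {f : FF} (hf : f ≠ 0) : ord f⁻¹ = -ord f := by
  have := ord_mul hf (inv_ne_zero hf)
  rw [mul_inv_cancel₀ hf, ord_one] at this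
  linarith

lemma ord_div_eq {f g : FF} (hf : f ≠ 0) (hg : g ≠ 0) : ord (f / g) = ord f - ord g := by
  rw [div_eq_mul_inv, ord_mul hf (inv_ne_zero hg), ord_inv hg]; ring

lemma ord_neg (f : FF) : ord (-f) = ord f := by
  rcases eq_or_ne f 0 with rfl | hf
  · rw [neg_zero]
  have h1 := ord_mul (neg_ne_zero.mpr hf) (neg_ne_zero.mpr hf)
  have h2 := ord_mul hf hf
  rw [neg_mul_neg] at h1
  omega

lemma ord_pow {f : FF} (hf : f ≠ 0) (n : ℕ) : ord (f ^ n) = n * ord f := by
  induction n with
  | zero => simp [ord_one]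
  | succ n ih => rw [pow_succ, ord_mul (pow_ne_zero n hf) hf, ih]; push_cast; ring

lemma ord_prod {ι : Type*} (s : Finset ι) (f : ι → FF) (hf : ∀ i ∈ s, f i ≠ 0) :
    ord (∏ i ∈ s, f i) = ∑ i ∈ s, ord (f i) := by
  classical
  induction s using Finset.induction_on with
  | empty => simp [ord_one]
  | insert a s ha ih =>
    simp only [Finset.mem_insert, forall_eq_or_imp] at hf
    rw [Finset.prod_insert ha, Finset.sum_insert ha,
      ord_mul hf.1 (Finset.prod_ne_zero_iff.mpr hf.2), ih hf.2]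

/-- `f = 0` or `ord f ≥ e`. -/
def OrdGE (e : ℤ) (f : W.FunctionField) : Prop := f = 0 ∨ e ≤ ord f

lemma ordGE_zero (e : ℤ) : OrdGE e (0 : FF) := Or.inl rfl

lemma ordGE_self (f : FF) : OrdGE (ord f) f := Or.inr le_rfl

/-- A bound on the order of a nonzero function. -/
lemma OrdGE.le {e : ℤ} {f : FF} (h : OrdGE e f) (hf : f ≠ 0) : e ≤ ord f := h.resolve_left hf

lemma OrdGE.mono {e e' : ℤ} {f : FF} (h : OrdGE e f) (he : e' ≤ e) : OrdGE e' f :=
  h.imp id he.trans

lemma OrdGE.neg {e : ℤ} {f : FF} (h : OrdGE e f) : OrdGE e (-f) :=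
  h.imp (fun h => by rw [h, neg_zero]) (fun h => by rwa [ord_neg])

lemma OrdGE.mul {e e' : ℤ} {f g : FF} (h : OrdGE e f) (h' : OrdGE e' g) :
    OrdGE (e + e') (f * g) := by
  by_cases hf : f = 0
  · exact Or.inl (by rw [hf, zero_mul])
  by_cases hg : g = 0
  · exact Or.inl (by rw [hg, mul_zero])
  exact Or.inr (by rw [ord_mul hf hg]; exact add_le_add (h.le hf) (h'.le hg))

lemma OrdGE.add {e : ℤ} {f g : FF} (h : OrdGE e f) (h' : OrdGE e g) : OrdGE e (f + g) := by
  by_cases hf : f = 0
  · rwa [hf, zero_add]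
  by_cases hg : g = 0
  · rwa [hg, add_zero]
  by_cases hfg : f + g = 0
  · exact Or.inl hfg
  refine Or.inr ?_
  have hf' := h.le hf
  have hg' := h'.le hg
  obtain ⟨a, b, ha, hb, rfl⟩ := exists_eq_div hf
  obtain ⟨c, d, hc, hd, rfl⟩ := exists_eq_div hg
  rw [div_add_div _ _ (algebraMap_ne_zero hb) (algebraMap_ne_zero hd), ← map_mul, ← map_mul,
    ← map_mul, ← map_add] at hfg ⊢
  have hn : a * d + b * c ≠ 0 := fun h => hfg (by rw [h, map_zero, zero_div])
  rw [ord_div hn (mul_ne_zero hb hd), degN_mul hb hd]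
  rw [ord_div ha hb] at hf'
  rw [ord_div hc hd] at hg'
  have hle := degN_add_le (mul_ne_zero ha hd) (mul_ne_zero hb hc) hn
  rw [degN_mul ha hd, degN_mul hb hc] at hle
  omega

lemma OrdGE.sub {e : ℤ} {f g : FF} (h : OrdGE e f) (h' : OrdGE e g) : OrdGE e (f - g) :=
  sub_eq_add_neg f g ▸ h.add h'.neg

lemma ord_add_eq_left {f g : FF} (hf : f ≠ 0) (hg : OrdGE (ord f + 1) g) :
    f + g ≠ 0 ∧ ord (f + g) = ord f := by
  have key : ¬ OrdGE (ord f + 1) (f + g) := fun h => by
    have := (h.sub hg).le (by rwa [add_sub_cancel_right])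
    rw [add_sub_cancel_right] at this
    omega
  have hne : f + g ≠ 0 := fun h => key (Or.inl h)
  refine ⟨hne, le_antisymm ?_ (((ordGE_self f).add (hg.mono (by omega))).le hne)⟩
  by_contra hlt
  exact key (Or.inr (by omega))

lemma algebraMap_base (c : k) : algebraMap k FF c = algebraMap 𝔸 FF (algebraMap k 𝔸 c) :=
  IsScalarTower.algebraMap_apply k 𝔸 FF c

lemma ord_const {c : k} (hc : c ≠ 0) : ord (algebraMap k FF c) = 0 := by
  have h : algebraMap k 𝔸 c = (C c) • (1 : 𝔸) + (0 : k[X]) • CoordinateRing.mk W X := by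
    rw [zero_smul, add_zero, CoordinateRing.smul, mul_one]; rfl
  have hne : algebraMap k 𝔸 c ≠ 0 := by
    intro h'
    rw [h'] at h
    exact C_ne_zero.mpr hc (CoordinateRing.smul_basis_eq_zero h.symm).1
  rw [algebraMap_base, ord_algebraMap hne]
  have := poleDeg_smul_basis (W := W) (C c) 0
  rw [← h, poleDeg_eq hne, degree_C hc, degree_zero, nsmul_zero, two_nsmul,
    WithBot.bot_add, WithBot.bot_add, max_bot_right] at this
  rw [show degN (algebraMap k 𝔸 c) = 0 by exact_mod_cast this]
  rfl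

lemma ordGE_const (c : k) : OrdGE 0 (algebraMap k FF c) := by
  rcases eq_or_ne c 0 with rfl | hc
  · exact Or.inl (map_zero _)
  · exact Or.inr (ord_const hc).ge

variable (W)

/-- The function `x`. -/
noncomputable def xF : W.FunctionField :=
  algebraMap W.CoordinateRing W.FunctionField (CoordinateRing.mk W (C X))

/-- The function `y`. -/
noncomputable def yF : W.FunctionField :=
  algebraMap W.CoordinateRing W.FunctionField (CoordinateRing.mk W X)

lemma degN_X : degN (CoordinateRing.mk W (C X)) = 2 ∧ CoordinateRing.mk W (C X) ≠ 0 := by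
  have h : CoordinateRing.mk W (C X) = (X : k[X]) • (1 : 𝔸) +
      (0 : k[X]) • CoordinateRing.mk W X := by
    rw [zero_smul, add_zero, CoordinateRing.smul, mul_one]
  have hne : CoordinateRing.mk W (C X) ≠ 0 := fun h' => by
    rw [h'] at h; exact X_ne_zero (CoordinateRing.smul_basis_eq_zero h.symm).1
  have := poleDeg_smul_basis (W := W) X 0
  rw [← h, poleDeg_eq hne, degree_X, degree_zero, two_nsmul, two_nsmul, WithBot.bot_add,
    WithBot.bot_add, max_bot_right] at this
  exact ⟨by exact_mod_cast this, hne⟩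

lemma degN_Y : degN (CoordinateRing.mk W (X : k[X][X])) = 3 ∧
    CoordinateRing.mk W (X : k[X][X]) ≠ 0 := by
  have h : CoordinateRing.mk W (X : k[X][X]) =
      (0 : k[X]) • (1 : 𝔸) + (1 : k[X]) • CoordinateRing.mk W X := by
    rw [zero_smul, zero_add, one_smul]
  have hne : CoordinateRing.mk W (X : k[X][X]) ≠ 0 := fun h' => by
    rw [h'] at h
    simp only [smul_zero, add_zero] at h
    exact one_ne_zero (CoordinateRing.smul_basis_eq_zero (p := (0 : k[X])) (q := (1 : k[X]))
      (by rw [zero_smul, zero_add, one_smul, h'])).2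
  have := poleDeg_smul_basis (W := W) 0 1
  rw [← h, poleDeg_eq hne, degree_zero, degree_one, two_nsmul, two_nsmul, WithBot.bot_add,
    max_bot_left, add_zero, zero_add] at this
  exact ⟨by exact_mod_cast this, hne⟩

lemma ord_xF : ord (xF W) = -2 := by
  rw [xF, ord_algebraMap (degN_X W).2, (degN_X W).1]; rfl

lemma ord_yF : ord (yF W) = -3 := by
  rw [yF, ord_algebraMap (degN_Y W).2, (degN_Y W).1]; rfl

lemma xF_ne_zero : xF W ≠ 0 := algebraMap_ne_zero (degN_X W).2

lemma yF_ne_zero : yF W ≠ 0 := algebraMap_ne_zero (degN_Y W).2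

end FLTAgent.ECTorsion.Weil
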