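import Mathlib.AlgebraicGeometry.EllipticCurve.DivisionPolynomial.Basic
import Mathlib.AlgebraicGeometry.EllipticCurve.Affine.Point
import Mathlib.Tactic.LinearCombination
import Mathlib.Tactic.FieldSimp
import Mathlib.Tactic.Ring

/-!
# Identities between abscissae of sums, differences and doubles

For points on a Weierstrass curve: `sub_sub_add_formula`, `prod_formula`, `sum_formula` and
`add_self_some`, in terms of the values `psi2`, `psi3`, `phi2` of the first division polynomials.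
They are the base of the multiplication-by-`n` formula.
-/

set_option autoImplicit false

open Polynomial WeierstrassCurve

namespace FLTAgent.ECTorsion

universe u

section Ring

variable {R : Type u} [CommRing R] (W : WeierstrassCurve R)

/-- The value `ψ₂ = 2y + a₁x + a₃`. -/
def psi2 (x y : R) : R := 2 * y + W.a₁ * x + W.a₃

/-- The numerator `3x² + 2a₂x + a₄ - a₁y` of the tangent slope. -/
def xi (x y : R) : R := 3 * x ^ 2 + 2 * W.a₂ * x + W.a₄ - W.a₁ * y

/-- The value of `ψ₂²` as a function of `x`. -/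
def psiSqVal (x : R) : R := 4 * x ^ 3 + W.b₂ * x ^ 2 + 2 * W.b₄ * x + W.b₆

/-- Half of the derivative of `psiSqVal`. -/
def halfDer (x : R) : R := 6 * x ^ 2 + W.b₂ * x + W.b₄

/-- The numerator of the duplication formula. -/
def phi2 (x : R) : R := x ^ 4 - W.b₄ * x ^ 2 - 2 * W.b₆ * x - W.b₈

/-- The value of the third division polynomial. -/
def psi3 (x : R) : R := 3 * x ^ 4 + W.b₂ * x ^ 3 + 3 * W.b₄ * x ^ 2 + 3 * W.b₆ * x + W.b₈

/-- The value of `ψ₄ / ψ₂`. -/
def prePsi4 (x : R) : R :=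
  2 * x ^ 6 + W.b₂ * x ^ 5 + 5 * W.b₄ * x ^ 4 + 10 * W.b₆ * x ^ 3 + 10 * W.b₈ * x ^ 2 +
    (W.b₂ * W.b₈ - W.b₄ * W.b₆) * x + (W.b₄ * W.b₈ - W.b₆ ^ 2)

lemma eval_Ψ₂Sq (x : R) : W.Ψ₂Sq.eval x = psiSqVal W x := by
  simp [WeierstrassCurve.Ψ₂Sq, psiSqVal]

lemma eval_Ψ₃ (x : R) : W.Ψ₃.eval x = psi3 W x := by
  simp [WeierstrassCurve.Ψ₃, psi3]

lemma eval_preΨ₄ (x : R) : W.preΨ₄.eval x = prePsi4 W x := by
  simp [WeierstrassCurve.preΨ₄, prePsi4]

lemma mul_psiSqVal_sub_psi3 (x : R) : x * psiSqVal W x - psi3 W x = phi2 W x := by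
  simp only [psiSqVal, psi3, phi2]; ring

variable {W}

lemma psi2_sq {x y : R} (h : W.toAffine.Equation x y) : psi2 W x y ^ 2 = psiSqVal W x := by
  rw [Affine.equation_iff] at h
  simp only [psi2, psiSqVal, b₂, b₄, b₆]
  linear_combination 4 * h

lemma two_xi_add {x : R} (y : R) : 2 * xi W x y + W.a₁ * psi2 W x y = halfDer W x := by
  simp only [xi, psi2, halfDer, b₂, b₄]; ring

lemma xi_sq {x y : R} (h : W.toAffine.Equation x y) :
    xi W x y ^ 2 + W.a₁ * xi W x y * psi2 W x y - (W.a₂ + 2 * x) * psi2 W x y ^ 2 = phi2 W x := by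
  rw [Affine.equation_iff] at h
  simp only [psi2, xi, phi2, b₄, b₆, b₈]
  linear_combination (-(W.a₁ ^ 2 + 4 * W.a₂ + 8 * x)) * h

lemma psi3_eq_neg_sq {x y : R} (h : W.toAffine.Equation x y) (h0 : psi2 W x y = 0) :
    psi3 W x = -xi W x y ^ 2 := by
  have h1 := xi_sq h
  have h2 := mul_psiSqVal_sub_psi3 W x
  have h3 := psi2_sq h
  rw [h0] at h1 h3
  linear_combination h1 - h2 - x * h3

lemma psi2_negY (x y : R) : psi2 W x (W.toAffine.negY x y) = -psi2 W x y := by
  simp only [psi2, Affine.negY]; ring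

lemma psi2_eq_sub_negY (x y : R) : psi2 W x y = y - W.toAffine.negY x y := by
  simp only [psi2, Affine.negY]; ring

end Ring

section Field

open WeierstrassCurve.Affine

variable {F : Type u} [Field F] [DecidableEq F] {W : WeierstrassCurve F}

lemma add_some_X {X Y x y : F} {hQ : W.toAffine.Nonsingular X Y} {hR : W.toAffine.Nonsingular x y}
    {p yp : F} {hp : W.toAffine.Nonsingular p yp} (hX : X ≠ x)
    (h : Point.some X Y hQ + Point.some x y hR = Point.some p yp hp) :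
    p = W.toAffine.addX X x (W.toAffine.slope X x Y y) ∧
      yp = W.toAffine.addY X x Y (W.toAffine.slope X x Y y) := by
  rw [Point.add_of_X_ne hX, Point.some.injEq] at h
  exact ⟨h.1.symm, h.2.symm⟩

lemma sub_some_X {X Y x y : F} {hQ : W.toAffine.Nonsingular X Y} {hR : W.toAffine.Nonsingular x y}
    {m ym : F} {hm : W.toAffine.Nonsingular m ym} (hX : X ≠ x)
    (h : Point.some X Y hQ - Point.some x y hR = Point.some m ym hm) :
    m = W.toAffine.addX X x (W.toAffine.slope X x Y (W.toAffine.negY x y)) := by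
  rw [sub_eq_add_neg, Point.neg_some] at h
  exact (add_some_X hX h).1

/-- `x(Q - R) - x(Q + R) = ψ₂(Q)ψ₂(R) / (x(Q) - x(R))²`. -/
lemma sub_sub_add_formula {X Y x y : F} {hQ : W.toAffine.Nonsingular X Y}
    {hR : W.toAffine.Nonsingular x y}
    {p yp : F} {hp : W.toAffine.Nonsingular p yp}
    {m ym : F} {hm : W.toAffine.Nonsingular m ym} (hX : X ≠ x)
    (hadd : Point.some X Y hQ + Point.some x y hR = Point.some p yp hp)
    (hsub : Point.some X Y hQ - Point.some x y hR = Point.some m ym hm) :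
    (m - p) * (X - x) ^ 2 = psi2 W X Y * psi2 W x y := by
  have hu : (x - X) ≠ 0 := sub_ne_zero_of_ne hX.symm
  rw [(add_some_X hX hadd).1, sub_some_X hX hsub, addX_eq_addX_negY_sub Y y hX,
    psi2_eq_sub_negY, psi2_eq_sub_negY]
  field_simp
  ring

private lemma four_mul_addX {X Y x y : F} (hX : X ≠ x) :
    4 * W.toAffine.addX X x (W.toAffine.slope X x Y y) * (X - x) ^ 2 =
      (psi2 W X Y - psi2 W x y) ^ 2 - (W.b₂ + 4 * X + 4 * x) * (X - x) ^ 2 := by
  have hu : (X - x) ≠ 0 := sub_ne_zero_of_ne hX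
  rw [slope_of_X_ne hX]
  simp only [addX, psi2, b₂]
  field_simp
  ring

/-- The symmetric formula for `(x(Q+R) - x(Q)) (x(Q-R) - x(Q))`. -/
lemma prod_formula (h2 : (2 : F) ≠ 0) {X Y x y : F} {hQ : W.toAffine.Nonsingular X Y}
    {hR : W.toAffine.Nonsingular x y}
    {p yp : F} {hp : W.toAffine.Nonsingular p yp}
    {m ym : F} {hm : W.toAffine.Nonsingular m ym} (hX : X ≠ x)
    (hadd : Point.some X Y hQ + Point.some x y hR = Point.some p yp hp)
    (hsub : Point.some X Y hQ - Point.some x y hR = Point.some m ym hm) :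
    (p - X) * (m - X) * (X - x) ^ 2 = phi2 W X - x * psiSqVal W X := by
  have hu : (X - x) ≠ 0 := sub_ne_zero_of_ne hX
  have hp4 : 4 * p * (X - x) ^ 2 =
      (psi2 W X Y - psi2 W x y) ^ 2 - (W.b₂ + 4 * X + 4 * x) * (X - x) ^ 2 := by
    rw [(add_some_X hX hadd).1]; exact four_mul_addX hX
  have hm4 : 4 * m * (X - x) ^ 2 =
      (psi2 W X Y + psi2 W x y) ^ 2 - (W.b₂ + 4 * X + 4 * x) * (X - x) ^ 2 := by
    rw [sub_some_X hX hsub, four_mul_addX hX, psi2_negY]; ring
  have h16 : (16 : F) * (X - x) ^ 2 ≠ 0 := by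
    have : (16 : F) = 2 ^ 4 := by norm_num
    rw [this]; exact mul_ne_zero (pow_ne_zero _ h2) (pow_ne_zero _ hu)
  apply mul_left_cancel₀ h16
  have key : 16 * (X - x) ^ 2 * ((p - X) * (m - X) * (X - x) ^ 2) =
      (psi2 W X Y ^ 2 - psi2 W x y ^ 2) ^ 2
        - 2 * (W.b₂ + 8 * X + 4 * x) * (X - x) ^ 2 * (psi2 W X Y ^ 2 + psi2 W x y ^ 2)
        + (W.b₂ + 8 * X + 4 * x) ^ 2 * (X - x) ^ 4 := by
    linear_combination (4 * m * (X - x) ^ 2 - 4 * X * (X - x) ^ 2) * hp4 +
      ((psi2 W X Y - psi2 W x y) ^ 2 - (W.b₂ + 8 * X + 4 * x) * (X - x) ^ 2) * hm4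
  rw [key, psi2_sq hQ.left, psi2_sq hR.left]
  simp only [psiSqVal, phi2, b₂, b₄, b₆, b₈]
  ring

/-- The formula for `x(Q+R) + x(Q-R)`. -/
lemma sum_formula (h2 : (2 : F) ≠ 0) {X Y x y : F} {hQ : W.toAffine.Nonsingular X Y}
    {hR : W.toAffine.Nonsingular x y}
    {p yp : F} {hp : W.toAffine.Nonsingular p yp}
    {m ym : F} {hm : W.toAffine.Nonsingular m ym} (hX : X ≠ x)
    (hadd : Point.some X Y hQ + Point.some x y hR = Point.some p yp hp)
    (hsub : Point.some X Y hQ - Point.some x y hR = Point.some m ym hm) :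
    (p + m - 2 * x) * (X - x) ^ 2 = psiSqVal W x + (X - x) * halfDer W x := by
  have hp4 : 4 * p * (X - x) ^ 2 =
      (psi2 W X Y - psi2 W x y) ^ 2 - (W.b₂ + 4 * X + 4 * x) * (X - x) ^ 2 := by
    rw [(add_some_X hX hadd).1]; exact four_mul_addX hX
  have hm4 : 4 * m * (X - x) ^ 2 =
      (psi2 W X Y + psi2 W x y) ^ 2 - (W.b₂ + 4 * X + 4 * x) * (X - x) ^ 2 := by
    rw [sub_some_X hX hsub, four_mul_addX hX, psi2_negY]; ring
  have e1 := psi2_sq hQ.left
  have e2 := psi2_sq hR.left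
  have h4 : (4 : F) ≠ 0 := by
    have : (4 : F) = 2 * 2 := by norm_num
    rw [this]; exact mul_ne_zero h2 h2
  apply mul_left_cancel₀ h4
  simp only [psiSqVal, halfDer] at *
  linear_combination hp4 + hm4 + 2 * e1 + 2 * e2

lemma add_self_some {X Y : F} {hQ : W.toAffine.Nonsingular X Y} (hη : psi2 W X Y ≠ 0) :
    ∃ (p yp : F) (hp : W.toAffine.Nonsingular p yp),
      Point.some X Y hQ + Point.some X Y hQ = Point.some p yp hp ∧
      p * psi2 W X Y ^ 2 = phi2 W X ∧
      psi2 W p yp * psi2 W X Y ^ 3 = prePsi4 W X := by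
  have hy : Y ≠ W.toAffine.negY X Y := by
    intro hc; exact hη (by rw [psi2_eq_sub_negY, sub_eq_zero]; exact hc)
  refine ⟨_, _, _, Point.add_self_of_Y_ne hy, ?_, ?_⟩
  all_goals
    have hl : W.toAffine.slope X X Y Y * psi2 W X Y = xi W X Y := by
      rw [slope_of_Y_ne rfl hy, psi2_eq_sub_negY, div_mul_cancel₀ _ (sub_ne_zero_of_ne hy)]
      rfl
    have h1 := xi_sq hQ.left
    generalize W.toAffine.slope X X Y Y = l at hl
    have hp : W.toAffine.addX X X l * psi2 W X Y ^ 2 = phi2 W X := by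
      simp only [addX]
      linear_combination (l * psi2 W X Y + xi W X Y + W.a₁ * psi2 W X Y) * hl + h1
  · exact hp
  · have hC : (2 * l + W.a₁) * psi2 W X Y = halfDer W X := by
      rw [← two_xi_add Y]; linear_combination 2 * hl
    have hB := psi2_sq hQ.left
    have e : psi2 W (W.toAffine.addX X X l) (W.toAffine.addY X X Y l) =
        -(2 * l + W.a₁) * (W.toAffine.addX X X l - X) - psi2 W X Y := by
      simp only [psi2, addY, negAddY, Affine.negY]; ring
    have e4 : -halfDer W X * (phi2 W X - X * psiSqVal W X) - psiSqVal W X ^ 2 = prePsi4 W X := by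
      simp only [halfDer, phi2, psiSqVal, prePsi4, b₂, b₄, b₆, b₈]; ring
    rw [e]
    linear_combination -(W.toAffine.addX X X l - X) * psi2 W X Y ^ 2 * hC - halfDer W X * hp +
      (halfDer W X * X - (psi2 W X Y ^ 2 + psiSqVal W X)) * hB + e4

end Field

end FLTAgent.ECTorsion
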