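import Fermat.Agent.ECTorsion.WeilPairing

/-!
# Equivariance of the Weil pairing

A field endomorphism `s` fixing the curve (`FixesCurve`) acts on the function field (`conjF`), and
`e(sP, sQ) = s e(P, Q)` (`weilPairing_conj`).
-/

set_option autoImplicit false

open Polynomial WeierstrassCurve.Affine
open scoped WeierstrassCurve.Affine

namespace FLTAgent.ECTorsion.Weil

universe u

variable {k : Type u} [Field k] [IsAlgClosed k] [DecidableEq k] {W : WeierstrassCurve.Affine k}
  [W.IsElliptic] [DecidableEq W.FunctionField]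

local notation "𝔸" => W.CoordinateRing
local notation "FF" => W.FunctionField
local notation "ι" => algebraMap W.CoordinateRing W.FunctionField

/-- A field endomorphism fixing the coefficients of `W`. -/
structure FixesCurve (W : WeierstrassCurve.Affine k) (s : k →+* k) : Prop where
  map_eq : WeierstrassCurve.map W s = W

variable {s : k →+* k}

omit [IsAlgClosed k] [DecidableEq k] [W.IsElliptic] [DecidableEq W.FunctionField] in
lemma FixesCurve.polynomial_map (hs : FixesCurve W s) :
    W.polynomial.map (mapRingHom s) = W.polynomial := by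
  have := WeierstrassCurve.Affine.map_polynomial W s
  rwa [show W.map s = W from hs.map_eq, eq_comm] at this

omit [IsAlgClosed k] [DecidableEq k] [W.IsElliptic] [DecidableEq W.FunctionField] in
lemma conj_root_aux (hs : FixesCurve W s) :
    W.polynomial.eval₂ ((AdjoinRoot.of W.polynomial).comp (mapRingHom s))
      (AdjoinRoot.root W.polynomial) = 0 := by
  rw [← eval₂_map, hs.polynomial_map, AdjoinRoot.eval₂_root]

/-- The action on the coordinate ring. -/
noncomputable def conjA (hs : FixesCurve W s) : W.CoordinateRing →+* W.CoordinateRing :=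
  AdjoinRoot.lift ((AdjoinRoot.of W.polynomial).comp (mapRingHom s))
    (AdjoinRoot.root W.polynomial) (conj_root_aux hs)

omit [IsAlgClosed k] [DecidableEq k] [W.IsElliptic] [DecidableEq W.FunctionField] in
lemma conjA_mk_C (hs : FixesCurve W s) (p : k[X]) :
    conjA hs (CoordinateRing.mk W (C p)) = CoordinateRing.mk W (C (p.map s)) := by
  unfold conjA
  refine (AdjoinRoot.lift_mk (f := W.polynomial) _ _).trans ?_
  rw [eval₂_C]
  rfl

omit [IsAlgClosed k] [DecidableEq k] [W.IsElliptic] [DecidableEq W.FunctionField] in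
lemma conjA_mk_X (hs : FixesCurve W s) :
    conjA hs (CoordinateRing.mk W X) = CoordinateRing.mk W X := by
  unfold conjA
  refine (AdjoinRoot.lift_mk (f := W.polynomial) _ _).trans ?_
  rw [eval₂_X]
  rfl

omit [IsAlgClosed k] [DecidableEq k] [W.IsElliptic] [DecidableEq W.FunctionField] in
lemma conjA_smul_basis (hs : FixesCurve W s) (p q : k[X]) :
    conjA hs (p • (1 : 𝔸) + q • CoordinateRing.mk W X) =
      p.map s • (1 : 𝔸) + q.map s • CoordinateRing.mk W X := by
  simp only [CoordinateRing.smul, mul_one, map_add, map_mul, conjA_mk_C, conjA_mk_X]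

omit [IsAlgClosed k] [DecidableEq k] [W.IsElliptic] [DecidableEq W.FunctionField] in
lemma conjA_injective (hs : FixesCurve W s) : Function.Injective (conjA hs) := by
  refine (injective_iff_map_eq_zero _).mpr fun z hz => ?_
  obtain ⟨p, q, rfl⟩ := CoordinateRing.exists_smul_basis_eq z
  rw [conjA_smul_basis] at hz
  obtain ⟨hp, hq⟩ := CoordinateRing.smul_basis_eq_zero hz
  rw [(Polynomial.map_eq_zero_iff s.injective).mp hp,
    (Polynomial.map_eq_zero_iff s.injective).mp hq,
    zero_smul, zero_smul, add_zero]

omit [IsAlgClosed k] [DecidableEq k] [W.IsElliptic] [DecidableEq W.FunctionField] in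
lemma degN_conjA (hs : FixesCurve W s) {z : 𝔸} (hz : z ≠ 0) : degN (conjA hs z) = degN z := by
  have h1 := poleDeg_eq hz
  have h2 := poleDeg_eq ((map_ne_zero_iff _ (conjA_injective hs)).mpr hz)
  obtain ⟨p, q, rfl⟩ := CoordinateRing.exists_smul_basis_eq z
  rw [conjA_smul_basis, poleDeg_smul_basis, degree_map, degree_map, ← poleDeg_smul_basis, h1] at h2
  rw [conjA_smul_basis]
  exact_mod_cast h2.symm

/-- The action on the function field. -/
noncomputable def conjF (hs : FixesCurve W s) : W.FunctionField →+* W.FunctionField :=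
  IsFractionRing.lift (g := (algebraMap W.CoordinateRing W.FunctionField).comp (conjA hs))
    ((IsFractionRing.injective W.CoordinateRing W.FunctionField).comp (conjA_injective hs))

omit [IsAlgClosed k] [DecidableEq k] [W.IsElliptic] [DecidableEq W.FunctionField] in
lemma conjF_algebraMap (hs : FixesCurve W s) (z : 𝔸) : conjF hs (ι z) = ι (conjA hs z) :=
  IsFractionRing.lift_algebraMap _ z

omit [IsAlgClosed k] [DecidableEq k] [W.IsElliptic] [DecidableEq W.FunctionField] in
lemma conjF_const (hs : FixesCurve W s) (c : k) :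
    conjF hs (algebraMap k FF c) = algebraMap k FF (s c) := by
  rw [algebraMap_base, algebraMap_base, conjF_algebraMap]
  congr 1
  exact (conjA_mk_C hs (C c)).trans (by rw [map_C]; rfl)

omit [IsAlgClosed k] [DecidableEq k] [W.IsElliptic] [DecidableEq W.FunctionField] in
lemma conjF_xF (hs : FixesCurve W s) : conjF hs (xF W) = xF W := by
  rw [xF, conjF_algebraMap, conjA_mk_C, map_X]

omit [IsAlgClosed k] [DecidableEq k] [W.IsElliptic] [DecidableEq W.FunctionField] in
lemma conjF_yF (hs : FixesCurve W s) : conjF hs (yF W) = yF W := by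
  rw [yF, conjF_algebraMap, conjA_mk_X]

omit [IsAlgClosed k] [DecidableEq k] [W.IsElliptic] [DecidableEq W.FunctionField] in
lemma ord_conjF (hs : FixesCurve W s) (f : FF) : ord (conjF hs f) = ord f := by
  rcases eq_or_ne f 0 with rfl | hf
  · rw [map_zero]
  obtain ⟨a, b, ha, hb, rfl⟩ := exists_eq_div hf
  rw [map_div₀, conjF_algebraMap, conjF_algebraMap,
    ord_div ((map_ne_zero_iff _ (conjA_injective hs)).mpr ha)
      ((map_ne_zero_iff _ (conjA_injective hs)).mpr hb),
    degN_conjA hs ha, degN_conjA hs hb, ord_div ha hb]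

omit [IsAlgClosed k] [DecidableEq k] [W.IsElliptic] [DecidableEq W.FunctionField] in
lemma map_conjF_baseChange (hs : FixesCurve W s) : (W⁄FF).map (conjF hs) = W⁄FF := by
  have h := hs.map_eq
  change WeierstrassCurve.map (WeierstrassCurve.map W (algebraMap k FF)) (conjF hs) =
    WeierstrassCurve.map W (algebraMap k FF)
  rw [WeierstrassCurve.map_map,
    show (conjF hs).comp (algebraMap k FF) = (algebraMap k FF).comp s from
      RingHom.ext (conjF_const hs), ← WeierstrassCurve.map_map, h]

/-- The action on points is compatible with `s`. -/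
def Compatible (s : k →+* k) (s' : W.Point ≃+ W.Point) : Prop :=
  ∀ (c d : k) (h : W.Nonsingular c d), ∃ h' : W.Nonsingular (s c) (s d),
    s' (Point.some c d h) = Point.some (s c) (s d) h'

lemma conjF_transl (hs : FixesCurve W s) {s' : W.Point ≃+ W.Point} (hs' : Compatible s s')
    (P : W.Point) (f : FF) :
    conjF hs (transl W P f) = transl W (s' P) (conjF hs f) := by
  have hxy : conjF hs (transl W P (xF W)) = transl W (s' P) (xF W) ∧
      conjF hs (transl W P (yF W)) = transl W (s' P) (yF W) := by
    rcases P with _ | ⟨c, d, h⟩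
    · rw [← Point.zero_def, map_zero, transl_zero, transl_zero, conjF_xF, conjF_yF]
      exact ⟨rfl, rfl⟩
    obtain ⟨h', e⟩ := hs' c d h
    have key : ∀ (c d : k) (h : W.Nonsingular c d),
        transl W (Point.some c d h) (xF W) = (W⁄FF).addX (xF W) (algebraMap k FF c)
            ((W⁄FF).slope (xF W) (algebraMap k FF c) (yF W) (algebraMap k FF d)) ∧
          transl W (Point.some c d h) (yF W) = (W⁄FF).addY (xF W) (algebraMap k FF c) (yF W)
            ((W⁄FF).slope (xF W) (algebraMap k FF c) (yF W) (algebraMap k FF d)) := by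
      intro c d h
      obtain ⟨h', hR⟩ := cst_some (W := W) h
      have hxc : xF W ≠ algebraMap k FF c := fun e =>
        notMem_range_of_ord (by rw [ord_xF]; norm_num) (xF_ne_zero W) ⟨c, e.symm⟩
      have hsum := map_transl (W := W) (Point.some c d h)
      rw [hR, gPt, Point.add_of_X_ne hxc, Point.map_some, Point.some.injEq] at hsum
      exact hsum
    rw [e, (key c d h).1, (key c d h).2, (key (s c) (s d) h').1, (key (s c) (s d) h').2,
      ← WeierstrassCurve.Affine.map_addX (conjF hs), ← WeierstrassCurve.Affine.map_addY (conjF hs),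
      ← WeierstrassCurve.Affine.map_slope (conjF hs), map_conjF_baseChange, conjF_xF, conjF_yF,
      conjF_const, conjF_const]
    exact ⟨rfl, rfl⟩
  suffices (conjF hs).comp (transl W P).toRingHom = (transl W (s' P)).toRingHom.comp (conjF hs) from
    congr($this f)
  refine IsLocalization.ringHom_ext (nonZeroDivisors 𝔸) (RingHom.ext fun z => ?_)
  obtain ⟨p, q, rfl⟩ := CoordinateRing.exists_smul_basis_eq z
  have hp : ∀ p : k[X], conjF hs (transl W P (aeval (xF W) p)) =
      transl W (s' P) (conjF hs (aeval (xF W) p)) := by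
    intro p
    induction p using Polynomial.induction_on with
    | C a => simp only [aeval_C, AlgHom.commutes, conjF_const]
    | add p q hp hq => simp only [map_add, hp, hq]
    | monomial n a ih =>
      rw [pow_succ, ← mul_assoc, map_mul (aeval (xF W)) (C a * X ^ n) X,
        map_mul (transl W P), map_mul (conjF hs), map_mul (conjF hs), map_mul (transl W (s' P)), ih,
        aeval_X, hxy.1, conjF_xF]
  simp only [RingHom.coe_comp, Function.comp_apply, AlgHom.toRingHom_eq_coe, RingHom.coe_coe,
    CoordinateRing.smul, mul_one, map_add, map_mul, algebraMap_mk_C, hp]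
  rw [show ι (CoordinateRing.mk W X) = yF W from rfl, hxy.2, conjF_yF]

variable {n : ℕ}

/-- `e(sP, sQ) = s e(P, Q)`. -/
theorem weilPairing_conj (hn : (n : k) ≠ 0) (hs : FixesCurve W s) {s' : W.Point ≃+ W.Point}
    (hs' : Compatible s s') {P Q : W.Point} (hP : n • P = 0) (hQ : n • Q = 0) :
    weilPairing W hn (s' P) (s' Q) = s (weilPairing W hn P Q) := by
  obtain ⟨hg, hd⟩ := weilFun_spec hn hQ
  have hdiv : ∀ R : W.Point, ordAt R (conjF hs (weilFun W hn Q)) =
      δ (n • R) (s' Q) - δ (n • R) 0 := fun R => by
    have e := conjF_transl hs hs' (s'.symm R) (weilFun W hn Q)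
    rw [AddEquiv.apply_symm_apply] at e
    rw [ordAt, ← e, ord_conjF]
    change ordAt (s'.symm R) (weilFun W hn Q) = _
    rw [hd, ← map_nsmul]
    simp only [δ, AddEquiv.symm_apply_eq, map_zero]
  refine weilPairing_eq hn (by rw [← map_nsmul, hP, map_zero]) (by rw [← map_nsmul, hQ, map_zero])
    ((_root_.map_ne_zero _).mpr hg) hdiv ?_
  rw [← conjF_transl hs hs', transl_weilFun hn hP hQ, map_mul, conjF_const]

end FLTAgent.ECTorsion.Weil
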