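import Fermat.Agent.ECTorsion.Isogeny
import Fermat.Agent.ECTorsion.WeilGalois

/-!
# The endomorphism `φ - 1` and its pullback

For a curve fixed by the `q`-th power map `φ`, `exists_isPullback_frob_sub_one` constructs a
pullback of `φ - 1` to the function field, so that `Isogeny` applies to it.
-/

set_option autoImplicit false

open Polynomial WeierstrassCurve.Affine
open scoped WeierstrassCurve.Affine

namespace FLTAgent.ECTorsion.Weil

universe u

variable {k : Type u} [Field k] [IsAlgClosed k] [DecidableEq k] {W : WeierstrassCurve.Affine k}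
  [W.IsElliptic] [DecidableEq W.FunctionField]

local notation "FF" => W.FunctionField

omit [IsAlgClosed k] [DecidableEq k] [W.IsElliptic] [DecidableEq W.FunctionField] in
/-- The coefficients of a curve fixed by the `q`-th power map. -/
lemma FixesCurve.coeff_pow {s : k →+* k} (hs : FixesCurve W s) {q : ℕ}
    (hsq : ∀ c, s c = c ^ q) :
    W.a₁ ^ q = W.a₁ ∧ W.a₂ ^ q = W.a₂ ∧ W.a₃ ^ q = W.a₃ ∧ W.a₄ ^ q = W.a₄ ∧ W.a₆ ^ q = W.a₆ := by
  simp only [← hsq]
  exact ⟨congrArg WeierstrassCurve.a₁ hs.map_eq, congrArg WeierstrassCurve.a₂ hs.map_eq,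
    congrArg WeierstrassCurve.a₃ hs.map_eq, congrArg WeierstrassCurve.a₄ hs.map_eq,
    congrArg WeierstrassCurve.a₆ hs.map_eq⟩

omit [IsAlgClosed k] [DecidableEq k] [W.IsElliptic] [DecidableEq W.FunctionField] in
lemma map_frob_baseChange {s : k →+* k} (hs : FixesCurve W s) {q : ℕ} (hsq : ∀ c, s c = c ^ q)
    {φ : W.FunctionField →+* W.FunctionField} (hφ : ∀ f, φ f = f ^ q) :
    (W⁄FF).map φ = W⁄FF := by
  have h := hs.map_eq
  change WeierstrassCurve.map (WeierstrassCurve.map W (algebraMap k FF)) φ =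
    WeierstrassCurve.map W (algebraMap k FF)
  rw [WeierstrassCurve.map_map,
    show φ.comp (algebraMap k FF) = (algebraMap k FF).comp s from
      RingHom.ext fun c => by simp [hφ, hsq], ← WeierstrassCurve.map_map, h]

omit [IsAlgClosed k] [DecidableEq k] [W.IsElliptic] [DecidableEq W.FunctionField] in
lemma xF_pow_sub_xF {q : ℕ} (hq : 2 ≤ q) :
    xF W ^ q - xF W ≠ 0 ∧ ord (xF W ^ q - xF W) = -2 * (q : ℤ) := by
  have hX : ord (xF W ^ q) = -2 * (q : ℤ) := by
    rw [ord_pow (xF_ne_zero W), ord_xF]; ring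
  have := ord_add_eq_left (pow_ne_zero q (xF_ne_zero W)) (g := -xF W)
    ((ordGE_self (xF W)).neg.mono (by rw [hX, ord_xF]; omega))
  rwa [← sub_eq_add_neg, hX] at this

omit [IsAlgClosed k] [DecidableEq k] [W.IsElliptic] in
/-- The abscissa of `φ(x, y) - (x, y)` has a pole of order two at infinity. -/
lemma ord_addX_frob {s : k →+* k} (hs : FixesCurve W s) {q : ℕ} (hq : 2 ≤ q)
    (hsq : ∀ c, s c = c ^ q) {φ : W.FunctionField →+* W.FunctionField} (hφ : ∀ f, φ f = f ^ q) :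
    let a := (W⁄FF).addX (xF W ^ q) (xF W) ((W⁄FF).slope (xF W ^ q) (xF W) (yF W ^ q)
      ((W⁄FF).negY (xF W) (yF W)))
    a ≠ 0 ∧ ord a = -2 := by
  intro a
  obtain ⟨h1, h2, h3, h4, h6⟩ := hs.coeff_pow hsq
  obtain ⟨hd0, hd⟩ := xF_pow_sub_xF (W := W) hq
  set x := xF W
  set y := yF W
  have hE := congrArg φ ((equation_iff ..).mp (equation_xF_yF W))
  change φ (y ^ 2 + algebraMap k FF W.a₁ * x * y + algebraMap k FF W.a₃ * y) =
    φ (x ^ 3 + algebraMap k FF W.a₂ * x ^ 2 + algebraMap k FF W.a₄ * x + algebraMap k FF W.a₆) at hE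
  simp only [map_add, map_mul, map_pow] at hE
  simp only [hφ, ← map_pow (algebraMap k FF), h1, h2, h3, h4, h6] at hE
  suffices key : ∀ b, b = ((y ^ q - (-y - algebraMap k FF W.a₁ * x - algebraMap k FF W.a₃)) /
      (x ^ q - x)) ^ 2 + algebraMap k FF W.a₁ *
      ((y ^ q - (-y - algebraMap k FF W.a₁ * x - algebraMap k FF W.a₃)) / (x ^ q - x))
      - algebraMap k FF W.a₂ - x ^ q - x → b ≠ 0 ∧ ord b = -2 from key a (by
        change (W⁄FF).addX (xF W ^ q) (xF W) _ = _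
        rw [slope_of_X_ne (W := W⁄FF) (x₁ := xF W ^ q) (sub_ne_zero.mp hd0), addX, negY]
        rfl)
  intro b hb
  rw [hb]
  set a₁ := algebraMap k FF W.a₁
  set a₂ := algebraMap k FF W.a₂
  set a₃ := algebraMap k FF W.a₃
  set a₄ := algebraMap k FF W.a₄
  set a₆ := algebraMap k FF W.a₆
  set X := x ^ q with hXd
  set Y := y ^ q with hYd
  set z := y + a₁ * x + a₃ with hzd
  set r := -a₃ * Y + a₄ * X + a₆ + (Y * z + Y * z) + z * z + a₁ * (-x * Y + z * X - z * x)
    - a₂ * (-(X * x) - X * x + x * x) + X * (x * x) - x * (x * x) with hr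
  have hA : ((Y - (-y - a₁ * x - a₃)) / (X - x)) ^ 2 + a₁ * ((Y - (-y - a₁ * x - a₃)) / (X - x))
      - a₂ - X - x = (X * X * x + r) / ((X - x) * (X - x)) := by
    rw [hr, hzd]
    field_simp
    linear_combination hE
  rw [hA]
  have hx : OrdGE (-2) x := Or.inr (ord_xF W).ge
  have hy : OrdGE (-3) y := Or.inr (ord_yF W).ge
  have hXo : ord X = -2 * (q : ℤ) := by rw [hXd, ord_pow (xF_ne_zero W), ord_xF]; ring
  have hX : OrdGE (-2 * (q : ℤ)) X := Or.inr hXo.ge
  have hY : OrdGE (-3 * (q : ℤ)) Y := Or.inr (by rw [hYd, ord_pow (yF_ne_zero W), ord_yF]; linarith)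
  have c1 : OrdGE 0 a₁ := ordGE_const _
  have c2 : OrdGE 0 a₂ := ordGE_const _
  have c3 : OrdGE 0 a₃ := ordGE_const _
  have c4 : OrdGE 0 a₄ := ordGE_const _
  have c6 : OrdGE 0 a₆ := ordGE_const _
  have hz : OrdGE (-3) z :=
    ((hy.add ((c1.mul hx).mono (by norm_num))).add (c3.mono (by norm_num)))
  have hrest : OrdGE (-4 * (q : ℤ) - 1) r := by
    refine OrdGE.sub (OrdGE.add (OrdGE.sub (OrdGE.add (OrdGE.add (OrdGE.add (OrdGE.add
      (OrdGE.add ?_ ?_) ?_) ?_) ?_) ?_) ?_) ?_) ?_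
    · exact (c3.neg.mul hY).mono (by omega)
    · exact (c4.mul hX).mono (by omega)
    · exact c6.mono (by omega)
    · exact ((hY.mul hz).add (hY.mul hz)).mono (by omega)
    · exact (hz.mul hz).mono (by omega)
    · refine (c1.mul (OrdGE.sub (OrdGE.add ((hx.neg.mul hY).mono ?_) ((hz.mul hX).mono ?_))
        ((hz.mul hx).mono ?_) : OrdGE (-4 * (q : ℤ) - 1) _)).mono ?_ <;> omega
    · refine (c2.mul (OrdGE.add (OrdGE.sub ((hX.mul hx).neg.mono ?_) ((hX.mul hx).mono ?_))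
        ((hx.mul hx).mono ?_) : OrdGE (-4 * (q : ℤ) - 1) _)).mono ?_ <;> omega
    · exact (hX.mul (hx.mul hx)).mono (by omega)
    · exact (hx.mul (hx.mul hx)).mono (by omega)
  have hx0 := xF_ne_zero W
  have hX0 : X ≠ 0 := pow_ne_zero q hx0
  have hm0 : X * X * x ≠ 0 := mul_ne_zero (mul_ne_zero hX0 hX0) hx0
  have hm : ord (X * X * x) = -4 * (q : ℤ) - 2 := by
    rw [ord_mul (mul_ne_zero hX0 hX0) hx0, ord_mul hX0 hX0, hXo, ord_xF]; ring
  obtain ⟨hn0, hn⟩ := ord_add_eq_left hm0 (hrest.mono (by omega))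
  refine ⟨div_ne_zero hn0 (mul_ne_zero hd0 hd0), ?_⟩
  rw [ord_div_eq hn0 (mul_ne_zero hd0 hd0), hn, hm, ord_mul hd0 hd0, hd]
  ring

lemma map_transl_xF_yF (R : W.Point) :
    ∃ h, gPt W + cst W R = Point.some (transl W R (xF W)) (transl W R (yF W)) h := by
  rw [← map_transl, gPt, Point.map_some]
  exact ⟨_, rfl⟩

/-- The endomorphism `φ - 1` has a pullback to the function field. -/
theorem exists_isPullback_frob_sub_one {s : k →+* k} (hs : FixesCurve W s) {q : ℕ} (hq : 2 ≤ q)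
    (hsq : ∀ c, s c = c ^ q) {φ : W.FunctionField →+* W.FunctionField} (hφ : ∀ f, φ f = f ^ q)
    {s' : W.Point →+ W.Point}
    (hs' : ∀ (c d : k) (h : W.Nonsingular c d), ∃ h' : W.Nonsingular (s c) (s d),
      s' (Point.some c d h) = Point.some (s c) (s d) h') :
    ∃ ψ, IsPullback ψ (s' - AddMonoidHom.id W.Point) := by
  have hWφ := map_frob_baseChange hs hsq hφ
  have hns : (W⁄FF).Nonsingular (xF W ^ q) (yF W ^ q) := by
    have := (map_nonsingular (W⁄FF) φ.injective (xF W) (yF W)).mpr nonsingular_xF_yF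
    rwa [hWφ, hφ, hφ] at this
  have hne : xF W ^ q ≠ xF W := sub_ne_zero.mp (xF_pow_sub_xF hq).1
  have hG : ∃ h, Point.some (W' := W⁄FF) _ _ hns - gPt W = Point.some
      ((W⁄FF).addX (xF W ^ q) (xF W) ((W⁄FF).slope (xF W ^ q) (xF W) (yF W ^ q)
        ((W⁄FF).negY (xF W) (yF W))))
      ((W⁄FF).addY (xF W ^ q) (xF W) (yF W ^ q) ((W⁄FF).slope (xF W ^ q) (xF W) (yF W ^ q)
        ((W⁄FF).negY (xF W) (yF W)))) h := by
    rw [sub_eq_add_neg, gPt, Point.neg_some, Point.add_of_X_ne hne]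
    exact ⟨_, rfl⟩
  obtain ⟨hGns, hG⟩ := hG
  have ha := notMem_range_of_ord (f := (W⁄FF).addX (xF W ^ q) (xF W) _)
    (by rw [(ord_addX_frob hs hq hsq hφ).2]; norm_num) (ord_addX_frob hs hq hsq hφ).1
  refine ⟨pointHom W hGns.left ha, ⟨fun R => ?_, ?_⟩⟩
  swap
  · rw [pointHom_xF]; exact (ord_addX_frob hs hq hsq hφ).2
  have e : Point.map (pointHom W hGns.left ha) (gPt W) =
      Point.some (W' := W⁄FF) _ _ hns - gPt W := by
    rw [hG, gPt, Point.map_some, Point.some.injEq]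
    exact ⟨pointHom_xF W hGns.left ha, pointHom_yF W hGns.left ha⟩
  have key : Point.map (transl W R) (Point.some (W' := W⁄FF) _ _ hns) =
      Point.some (W' := W⁄FF) _ _ hns + cst W (s' R) := by
    rw [Point.map_some]
    rcases R with _ | ⟨c, d, h⟩
    · rw [← Point.zero_def, map_zero, map_zero, add_zero, Point.some.injEq, transl_zero,
        transl_zero]
      exact ⟨rfl, rfl⟩
    obtain ⟨h', es⟩ := hs' c d h
    obtain ⟨h₀, e₀⟩ := cst_some (W := W) h
    obtain ⟨h₁, e₁⟩ := cst_some (W := W) h'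
    obtain ⟨_, et⟩ := map_transl_xF_yF (Point.some c d h)
    have hx0 : xF W ≠ algebraMap k FF c := fun e =>
      notMem_range_of_ord (by rw [ord_xF]; norm_num) (xF_ne_zero W) ⟨c, e.symm⟩
    have hx1 : xF W ^ q ≠ algebraMap k FF (s c) := fun e => hx0 (φ.injective (by
      rw [hφ, hφ, e, hsq, map_pow]))
    rw [e₀, gPt, Point.add_of_X_ne hx0, Point.some.injEq] at et
    rw [es, e₁, Point.add_of_X_ne hx1, Point.some.injEq, map_pow, map_pow, ← et.1, ← et.2,
      ← hφ, ← hφ, ← hφ, ← hφ, hsq, hsq, map_pow, map_pow, ← hφ (algebraMap k FF c),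
      ← hφ (algebraMap k FF d), ← WeierstrassCurve.Affine.map_addX φ,
      ← WeierstrassCurve.Affine.map_addY φ, ← WeierstrassCurve.Affine.map_slope φ, hWφ]
    exact ⟨rfl, rfl⟩
  rw [e, map_sub, key, map_transl, AddMonoidHom.sub_apply, AddMonoidHom.id_apply, map_sub]
  abel

end FLTAgent.ECTorsion.Weil
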