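import Fermat.Agent.ECTorsion.FrobIsogeny
import Fermat.Prelude.Def_EllipticCurve_FrobeniusTrace
import Fermat.Prelude.Def_FLTPrelim_Modularity
import Mathlib.FieldTheory.Finite.Basic
import Mathlib.RingTheory.RootsOfUnity.AlgebraicallyClosed

/-!
# Fixed points of the Frobenius

Over a finite field with `q` elements the points fixed by the Frobenius are the rational points
(`card_fixed_points`); used for the trace of Frobenius in `ConductorMatch`.
-/

set_option autoImplicit false

open WeierstrassCurve.Affine WeierstrassCurve.Affine.Point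
open scoped WeierstrassCurve.Affine

namespace FLTAgent.ECTorsion

universe u v

variable {F : Type u} [Field F] [Fintype F] {K : Type v} [Field K] [DecidableEq K] [Algebra F K]
  [IsAlgClosed K] (W₀ : WeierstrassCurve.Affine F) [(W₀⁄K).IsElliptic]

omit [DecidableEq K] [IsAlgClosed K] in
/-- An element fixed by the Frobenius comes from the finite field. -/
lemma mem_range_of_pow_card_eq {c : K} (hc : c ^ Fintype.card F = c) :
    c ∈ (algebraMap F K).range := by
  classical
  have hq : 1 < Fintype.card F := Fintype.one_lt_card
  let P : Polynomial K := Polynomial.X ^ Fintype.card F - Polynomial.X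
  have hP : P ≠ 0 := FiniteField.X_pow_card_sub_X_ne_zero K hq
  have hroot : ∀ a : K, a ∈ P.roots.toFinset ↔ a ^ Fintype.card F = a := fun a => by
    simp [P, Polynomial.mem_roots hP, sub_eq_zero]
  have hsub : Finset.univ.image (algebraMap F K) ⊆ P.roots.toFinset := fun a ha => by
    obtain ⟨b, -, rfl⟩ := Finset.mem_image.mp ha
    rw [hroot, ← map_pow, FiniteField.pow_card]
  have heq := Finset.eq_of_subset_of_card_le hsub (by
    rw [Finset.card_image_of_injective _ (algebraMap F K).injective, Finset.card_univ]
    refine (Multiset.toFinset_card_le _).trans ((Polynomial.card_roots' P).trans_eq ?_)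
    exact FiniteField.X_pow_card_sub_X_natDegree_eq K hq)
  have := (hroot c).mpr hc
  rw [← heq, Finset.mem_image] at this
  obtain ⟨b, -, e⟩ := this
  exact ⟨b, e⟩

variable (σ : K ≃ₐ[F] K)

omit [IsAlgClosed K] [(W₀⁄K).IsElliptic] in
/-- The fixed points of the Frobenius are the rational points. -/
lemma card_fixed_points [DecidableEq F] (hσ : ∀ c, σ c = c ^ Fintype.card F) :
    Nat.card {T : (W₀⁄K).Point // σ • T = T} = Nat.card W₀.Point := by
  have hfix : ∀ T : (W₀⁄F).Point,
      σ • (Point.baseChange F K T : (W₀⁄K).Point) = Point.baseChange F K T := fun T =>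
    Point.map_baseChange (W' := W₀) σ.toAlgHom T
  let j : (W₀⁄F).Point → {T : (W₀⁄K).Point // σ • T = T} := fun T => ⟨_, hfix T⟩
  have hj : Function.Bijective j := by
    refine ⟨fun T T' e => Point.map_injective _ (congrArg Subtype.val e), ?_⟩
    rintro ⟨(_ | ⟨c, d, h⟩), hT⟩
    · exact ⟨0, Subtype.ext (_root_.map_zero _)⟩
    rw [algEquiv_smul_def, Point.map_some, Point.some.injEq] at hT
    obtain ⟨a, ha⟩ := mem_range_of_pow_card_eq ((hσ c).symm.trans hT.1)
    obtain ⟨b, hb⟩ := mem_range_of_pow_card_eq ((hσ d).symm.trans hT.2)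
    subst ha hb
    exact ⟨Point.some a b
      ((baseChange_nonsingular (W := W₀) (f := Algebra.ofId F K) (algebraMap F K).injective a
        b).mp h),
      Subtype.ext rfl⟩
  rw [← Nat.card_eq_of_bijective j hj]
  rfl

end FLTAgent.ECTorsion
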