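import Fermat.Agent.ECTorsion.Values

/-!
# The multiplication formula away from zeros of the division values

`hasMulFormula_of_ne_zero`: if no division value vanishes at `P`, then `x(nP) ψₙ² = φₙ`. The same
induction gives the invariant relation and the duplication identities, specialised in `Universal`.
-/

set_option autoImplicit false

open WeierstrassCurve WeierstrassCurve.Affine

namespace FLTAgent.ECTorsion

universe u

variable {F : Type u} [Field F] [DecidableEq F] {W : WeierstrassCurve F} {x y : F}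
  {h : W.toAffine.Nonsingular x y}

/-- The value of `ψ₂` at `Q = mP`, from the abscissae of `Q ± P`. -/
lemma psi2_of_add_sub (hb : psi2 W x y ≠ 0) {X Y p yp q yq : F} (m : ℤ)
    {hQ : W.toAffine.Nonsingular X Y} {hp : W.toAffine.Nonsingular p yp}
    {hq : W.toAffine.Nonsingular q yq}
    (hadd : Point.some X Y hQ + Point.some x y h = Point.some p yp hp)
    (hsub : Point.some X Y hQ - Point.some x y h = Point.some q yq hq)
    (hXm : X * psiVal W x y m ^ 2 = phiVal W x y m)
    (hpm : p * psiVal W x y (m + 1) ^ 2 = phiVal W x y (m + 1))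
    (hqm : q * psiVal W x y (m - 1) ^ 2 = phiVal W x y (m - 1))
    (h1 : psiVal W x y (m + 1) ≠ 0) (h2 : psiVal W x y (m - 1) ≠ 0) :
    psi2 W X Y * psiVal W x y m ^ 4 = psiVal W x y (2 * m) := by
  have hu : (X - x) * psiVal W x y m ^ 2 =
      -(psiVal W x y (m + 1) * psiVal W x y (m - 1)) := by
    rw [phiVal] at hXm; linear_combination hXm
  have hX : X ≠ x := by
    rintro rfl
    rw [sub_self, zero_mul, eq_comm, neg_eq_zero] at hu
    exact mul_ne_zero h1 h2 hu
  have e := sub_sub_add_formula hX hadd hsub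
  simp only [phiVal, show m + 1 + 1 = m + 2 by ring, add_sub_cancel_right,
    show m - 1 - 1 = m - 2 by ring, sub_add_cancel] at hpm hqm
  apply mul_right_cancel₀ hb
  linear_combination psiVal W x y m ^ 4 * (-e) +
    (q - p) * ((X - x) * psiVal W x y m ^ 2 -
      psiVal W x y (m + 1) * psiVal W x y (m - 1)) * hu +
    psiVal W x y (m + 1) ^ 2 * hqm - psiVal W x y (m - 1) ^ 2 * hpm -
    psiVal_even (W := W) (x := x) (y := y) m

omit [DecidableEq F] in
/-- Difference of the abscissae of consecutive multiples. -/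
lemma sub_mul_psiVal_sq {X X' : F} (m : ℤ)
    (hX : X * psiVal W x y (m + 1) ^ 2 = phiVal W x y (m + 1))
    (hX' : X' * psiVal W x y m ^ 2 = phiVal W x y m) :
    (X - X') * (psiVal W x y (m + 1) ^ 2 * psiVal W x y m ^ 2) =
      -psiVal W x y (2 * m + 1) := by
  simp only [phiVal, show m + 1 + 1 = m + 2 by ring, add_sub_cancel_right] at hX hX'
  linear_combination psiVal W x y m ^ 2 * hX - psiVal W x y (m + 1) ^ 2 * hX' +
    psiVal_odd (W := W) (x := x) (y := y) m

/-- The odd step. -/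
lemma odd_step {X Y X' Y' p yp : F} (m : ℤ)
    {hQ : W.toAffine.Nonsingular X Y} {hR : W.toAffine.Nonsingular X' Y'}
    {hp : W.toAffine.Nonsingular p yp}
    (hadd : Point.some X Y hQ + Point.some X' Y' hR = Point.some p yp hp)
    (hsub : Point.some X Y hQ - Point.some X' Y' hR = Point.some x y h)
    (hX : X * psiVal W x y (m + 1) ^ 2 = phiVal W x y (m + 1))
    (hX' : X' * psiVal W x y m ^ 2 = phiVal W x y m)
    (hψ : psi2 W X Y * psiVal W x y (m + 1) ^ 4 = psiVal W x y (2 * (m + 1)))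
    (hψ' : psi2 W X' Y' * psiVal W x y m ^ 4 = psiVal W x y (2 * m))
    (hn : psiVal W x y (2 * m + 1) ≠ 0) :
    p * psiVal W x y (2 * m + 1) ^ 2 = phiVal W x y (2 * m + 1) := by
  have hu := sub_mul_psiVal_sq m hX hX'
  have hne : X ≠ X' := by
    rintro rfl
    rw [sub_self, zero_mul, eq_comm, neg_eq_zero] at hu
    exact hn hu
  have e := sub_sub_add_formula hne hadd hsub
  rw [phiVal, show 2 * m + 1 + 1 = 2 * (m + 1) by ring, add_sub_cancel_right, ← hψ, ← hψ']
  linear_combination -psiVal W x y (m + 1) ^ 4 * psiVal W x y m ^ 4 * e +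
    (x - p) * ((X - X') * (psiVal W x y (m + 1) ^ 2 * psiVal W x y m ^ 2) -
      psiVal W x y (2 * m + 1)) * hu

lemma phi2_sub_mul (h2 : (2 : F) ≠ 0) {X Y p yp q yq : F} (m : ℤ)
    {hQ : W.toAffine.Nonsingular X Y} {hp : W.toAffine.Nonsingular p yp}
    {hq : W.toAffine.Nonsingular q yq}
    (hadd : Point.some X Y hQ + Point.some x y h = Point.some p yp hp)
    (hsub : Point.some X Y hQ - Point.some x y h = Point.some q yq hq)
    (hXm : X * psiVal W x y m ^ 2 = phiVal W x y m)
    (hpm : p * psiVal W x y (m + 1) ^ 2 = phiVal W x y (m + 1))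
    (hqm : q * psiVal W x y (m - 1) ^ 2 = phiVal W x y (m - 1))
    (h1 : psiVal W x y (m + 1) ≠ 0) (h2' : psiVal W x y (m - 1) ≠ 0) :
    (phi2 W X - x * psiSqVal W X) * psiVal W x y m ^ 8 =
      -(psiVal W x y (2 * m + 1) * psiVal W x y (2 * m - 1)) := by
  have hu : (X - x) * psiVal W x y m ^ 2 =
      -(psiVal W x y (m + 1) * psiVal W x y (m - 1)) := by
    rw [phiVal] at hXm; linear_combination hXm
  have hX : X ≠ x := by
    rintro rfl
    rw [sub_self, zero_mul, eq_comm, neg_eq_zero] at hu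
    exact mul_ne_zero h1 h2' hu
  have e := prod_formula h2 hX hadd hsub
  have e1 := sub_mul_psiVal_sq (X := p) (X' := X) m hpm hXm
  have e2 := sub_mul_psiVal_sq (X := X) (X' := q) (W := W) (x := x) (y := y) (m - 1)
    (by rw [sub_add_cancel]; exact hXm) hqm
  rw [sub_add_cancel, show 2 * (m - 1) + 1 = 2 * m - 1 by ring] at e2
  linear_combination -psiVal W x y m ^ 8 * e +
    ((p - X) * (q - X) * psiVal W x y m ^ 4) *
      ((X - x) * psiVal W x y m ^ 2 - psiVal W x y (m + 1) * psiVal W x y (m - 1)) * hu +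
    ((q - X) * psiVal W x y m ^ 2 * psiVal W x y (m - 1) ^ 2) * e1 +
    psiVal W x y (2 * m + 1) * e2

variable (h) in
/-- `n • P = (X, Y)` with `X ψₙ(P)² = φₙ(P)`. -/
def HasMulFormula (n : ℕ) : Prop :=
  ∃ (X Y : F) (hXY : W.toAffine.Nonsingular X Y),
    n • Point.some x y h = Point.some X Y hXY ∧ X * psiVal W x y n ^ 2 = phiVal W x y n

lemma hasMulFormula_one : HasMulFormula h 1 :=
  ⟨x, y, h, one_nsmul _, by simp [phiVal]⟩

lemma hasMulFormula_two (hb : psi2 W x y ≠ 0) : HasMulFormula h 2 := by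
  obtain ⟨p, yp, hp, e, e1, -⟩ := add_self_some (hQ := h) hb
  refine ⟨p, yp, hp, by rw [two_nsmul, e], ?_⟩
  rw [← mul_psiSqVal_sub_psi3, ← psi2_sq h.left] at e1
  simp only [Nat.cast_ofNat, phiVal, psiVal_two, show (2 : ℤ) + 1 = 3 from rfl,
    show (2 : ℤ) - 1 = 1 from rfl, psiVal_three, psiVal_one, mul_one]
  linear_combination e1

lemma psi2_nsmul_two (hb : psi2 W x y ≠ 0) {X Y : F} {hXY : W.toAffine.Nonsingular X Y}
    (e : 2 • Point.some x y h = Point.some X Y hXY) :
    psi2 W X Y * psiVal W x y 2 ^ 4 = psiVal W x y 4 := by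
  obtain ⟨p, yp, hp, e', -, e2⟩ := add_self_some (hQ := h) hb
  rw [two_nsmul, e', Point.some.injEq] at e
  obtain ⟨rfl, rfl⟩ := e
  simp only [psiVal_two, psiVal_four]
  linear_combination psi2 W x y * e2

lemma psi2_nsmul_of_ne (hb : psi2 W x y ≠ 0) {m : ℕ} (hm : 1 ≤ m)
    (hprev : HasMulFormula h (m - 1)) (hnext : HasMulFormula h (m + 1))
    (h1 : psiVal W x y ((m : ℤ) + 1) ≠ 0) (h2 : psiVal W x y ((m : ℤ) - 1) ≠ 0)
    {X Y : F} {hXY : W.toAffine.Nonsingular X Y}
    (e : m • Point.some x y h = Point.some X Y hXY)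
    (hX : X * psiVal W x y m ^ 2 = phiVal W x y m) :
    psi2 W X Y * psiVal W x y m ^ 4 = psiVal W x y (2 * m) := by
  obtain ⟨p, yp, hp, e1, hpm⟩ := hnext
  obtain ⟨q, yq, hq, e2, hqm⟩ := hprev
  obtain ⟨k, rfl⟩ : ∃ k, m = k + 1 := ⟨m - 1, by omega⟩
  rw [Nat.add_sub_cancel] at e2 hqm
  refine psi2_of_add_sub (h := h) (hQ := hXY) hb (hp := hp) (hq := hq) ((k + 1 : ℕ) : ℤ) ?_ ?_ hX
    (by exact_mod_cast hpm) (by simpa using hqm) h1 h2
  · rw [← e, ← e1]; exact (succ_nsmul _ _).symm
  · rw [← e, ← e2, succ_nsmul, add_sub_cancel_right]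

lemma nsmul_two_mul_of_some {m : ℕ} {X Y : F} {hXY : W.toAffine.Nonsingular X Y}
    (e : m • Point.some x y h = Point.some X Y hXY) (hη : psi2 W X Y ≠ 0) :
    ∃ (p yp : F) (hp : W.toAffine.Nonsingular p yp),
      (2 * m) • Point.some x y h = Point.some p yp hp ∧
        p * psi2 W X Y ^ 2 = phi2 W X := by
  obtain ⟨p, yp, hp, e', e1, -⟩ := add_self_some (hQ := hXY) hη
  exact ⟨p, yp, hp, by rw [mul_nsmul', e, two_nsmul, e'], e1⟩

/-- The multiplication formula when no division value vanishes. -/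
theorem hasMulFormula_of_ne_zero (h2 : (2 : F) ≠ 0)
    (hw : ∀ n : ℕ, 1 ≤ n → psiVal W x y n ≠ 0) {n : ℕ} (hn : 1 ≤ n) : HasMulFormula h n := by
  have hb : psi2 W x y ≠ 0 := by simpa using hw 2 one_le_two
  induction n using Nat.strong_induction_on with
  | _ n ih =>
    rcases n.even_or_odd' with ⟨m, rfl | rfl⟩
    · rcases Nat.lt_or_ge m 2 with hm | hm
      · obtain rfl : m = 1 := by omega
        exact hasMulFormula_two hb
      obtain ⟨X, Y, hXY, e, hX⟩ := ih m (by omega) (by omega)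
      have hnext := ih (m + 1) (by omega) (by omega)
      have hprev := ih (m - 1) (by omega) (by omega)
      have w1 : psiVal W x y ((m : ℤ) + 1) ≠ 0 := by exact_mod_cast hw (m + 1) (by omega)
      have w2 : psiVal W x y ((m : ℤ) - 1) ≠ 0 := by
        have := hw (m - 1) (by omega)
        rwa [Nat.cast_sub (by omega), Nat.cast_one] at this
      have hψ := psi2_nsmul_of_ne hb (by omega) hprev hnext w1 w2 e hX
      have hη : psi2 W X Y ≠ 0 := by
        intro hc
        rw [hc, zero_mul, eq_comm] at hψ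
        exact hw (2 * m) (by omega) (by exact_mod_cast hψ)
      obtain ⟨p, yp, hp, ep, hpv⟩ := nsmul_two_mul_of_some e hη
      refine ⟨p, yp, hp, ep, ?_⟩
      obtain ⟨p', yp', hp', e1, hpm⟩ := hnext
      obtain ⟨q, yq, hq, e2, hqm⟩ := hprev
      have key := phi2_sub_mul h2 (hp := hp') (hq := hq) (hQ := hXY) (h := h) (m : ℤ)
        (by rw [← e, ← e1, succ_nsmul])
        (by
          rw [← e, ← e2]
          conv_lhs => rw [show m = m - 1 + 1 by omega, succ_nsmul, add_sub_cancel_right])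
        hX (by exact_mod_cast hpm)
        (by rw [Nat.cast_sub (by omega), Nat.cast_one] at hqm; exact hqm) w1 w2
      push_cast
      rw [phiVal]
      linear_combination psiVal W x y m ^ 8 * hpv + key
        + x * psiVal W x y m ^ 8 * (-psi2_sq hXY.left)
        - (p - x) * (psi2 W X Y * psiVal W x y m ^ 4 + psiVal W x y (2 * (m : ℤ))) * hψ
    · rcases Nat.eq_zero_or_pos m with rfl | hm
      · exact hasMulFormula_one
      obtain ⟨X', Y', hXY', e', hX'⟩ := ih m (by omega) (by omega)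
      obtain ⟨X, Y, hXY, e, hX⟩ := ih (m + 1) (by omega) (by omega)
      have hψ' : psi2 W X' Y' * psiVal W x y m ^ 4 = psiVal W x y (2 * m) := by
        rcases Nat.lt_or_ge m 2 with hm2 | hm2
        · obtain rfl : m = 1 := by omega
          rw [one_nsmul, Point.some.injEq] at e'
          obtain ⟨rfl, rfl⟩ := e'
          simp
        · exact psi2_nsmul_of_ne hb (by omega) (ih (m - 1) (by omega) (by omega))
            ⟨X, Y, hXY, e, hX⟩ (by exact_mod_cast hw (m + 1) (by omega))
            (by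
              have := hw (m - 1) (by omega)
              rwa [Nat.cast_sub (by omega), Nat.cast_one] at this) e' hX'
      have hψ : psi2 W X Y * psiVal W x y ((m : ℤ) + 1) ^ 4 =
          psiVal W x y (2 * ((m : ℤ) + 1)) := by
        rcases Nat.lt_or_ge m 2 with hm2 | hm2
        · obtain rfl : m = 1 := by omega
          exact psi2_nsmul_two hb e
        · have := psi2_nsmul_of_ne hb (m := m + 1) (by omega) ⟨X', Y', hXY', e', hX'⟩
            (ih (m + 2) (by omega) (by omega))
            (by exact_mod_cast hw (m + 2) (by omega))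
            (by push_cast; rw [add_sub_cancel_right]; exact hw m hm) e hX
          exact_mod_cast this
      have hn0 : psiVal W x y (2 * (m : ℤ) + 1) ≠ 0 := by
        exact_mod_cast hw (2 * m + 1) (by omega)
      have esum : (2 * m + 1) • Point.some x y h =
          Point.some X Y hXY + Point.some X' Y' hXY' := by
        rw [← e, ← e', ← add_nsmul]; congr 1; omega
      have hsub : Point.some X Y hXY - Point.some X' Y' hXY' = Point.some x y h := by
        rw [← e, ← e', succ_nsmul, add_sub_cancel_left]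
      have hu := sub_mul_psiVal_sq (m : ℤ) (by exact_mod_cast hX) hX'
      have hne : X ≠ X' := by
        rintro rfl
        rw [sub_self, zero_mul, eq_comm, neg_eq_zero] at hu
        exact hn0 hu
      refine ⟨_, _, _, esum.trans (Point.add_of_X_ne hne), ?_⟩
      have := odd_step (h := h) (m : ℤ) (Point.add_of_X_ne hne) hsub
        (by exact_mod_cast hX) hX' hψ hψ' hn0
      exact_mod_cast this

/-- The invariant relation between five consecutive division values. -/
lemma invariant_of_ne_zero (h : W.toAffine.Nonsingular x y) (h2 : (2 : F) ≠ 0)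
    (hw : ∀ n : ℕ, 1 ≤ n → psiVal W x y n ≠ 0) {m : ℕ} (hm : 1 ≤ m) :
    psiVal W x y ((m : ℤ) + 2) * psiVal W x y ((m : ℤ) - 1) ^ 2 +
      psiVal W x y ((m : ℤ) - 2) * psiVal W x y ((m : ℤ) + 1) ^ 2 +
      psi2 W x y ^ 2 * psiVal W x y m ^ 3 =
    halfDer W x * psiVal W x y ((m : ℤ) - 1) * psiVal W x y m * psiVal W x y ((m : ℤ) + 1) := by
  obtain ⟨k, rfl⟩ : ∃ k, m = k + 1 := ⟨m - 1, by omega⟩
  rcases Nat.eq_zero_or_pos k with rfl | hk
  · simp
  obtain ⟨X, Y, hXY, e, hX⟩ := hasMulFormula_of_ne_zero (h := h) h2 hw (n := k + 1) (by omega)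
  obtain ⟨p, yp, hp, e1, hpm⟩ :=
    hasMulFormula_of_ne_zero (h := h) h2 hw (n := k + 2) (by omega)
  obtain ⟨q, yq, hq, e2, hqm⟩ := hasMulFormula_of_ne_zero (h := h) h2 hw (n := k) (by omega)
  have w1 : psiVal W x y ((k : ℤ) + 2) ≠ 0 := by exact_mod_cast hw (k + 2) (by omega)
  have w2 : psiVal W x y k ≠ 0 := hw k hk
  simp only [phiVal, Nat.cast_add, Nat.cast_one, Nat.cast_ofNat, add_sub_cancel_right,
    show (k : ℤ) + 2 + 1 = k + 3 by ring, show (k : ℤ) + 2 - 1 = k + 1 by ring,
    show (k : ℤ) + 1 + 1 = k + 2 by ring, show (k : ℤ) + 1 + 2 = k + 3 by ring,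
    show (k : ℤ) + 1 - 2 = k - 1 by ring] at hX hpm hqm ⊢
  have hu : (X - x) * psiVal W x y (k + 1) ^ 2 = -(psiVal W x y (k + 2) * psiVal W x y k) := by
    linear_combination hX
  have hne : X ≠ x := by
    rintro rfl
    rw [sub_self, zero_mul, eq_comm, neg_eq_zero] at hu
    exact mul_ne_zero w1 w2 hu
  have hs := sum_formula h2 (hQ := hXY) (hR := h) (hp := hp) (hm := hq) hne
    (by rw [← e, ← e1]; exact (succ_nsmul _ _).symm)
    (by rw [← e, ← e2, succ_nsmul, add_sub_cancel_right])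
  rw [← psi2_sq h.left] at hs
  apply mul_left_cancel₀ (show psiVal W x y ((k : ℤ) + 1) ≠ 0 by
    exact_mod_cast hw (k + 1) (by omega))
  linear_combination -psiVal W x y (k + 1) ^ 4 * hs +
    ((p + q - 2 * x) * ((X - x) * psiVal W x y (k + 1) ^ 2 -
        psiVal W x y (k + 2) * psiVal W x y k)
      - halfDer W x * psiVal W x y (k + 1) ^ 2) * hu +
    psiVal W x y k ^ 2 * hpm + psiVal W x y (k + 2) ^ 2 * hqm

/-- The duplication identities. -/
lemma duplication_of_ne_zero (h : W.toAffine.Nonsingular x y) (h2 : (2 : F) ≠ 0)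
    (hw : ∀ n : ℕ, 1 ≤ n → psiVal W x y n ≠ 0) {m : ℕ} (hm : 1 ≤ m) :
    phiVal W x y (2 * m) = phiVal W x y m ^ 4
        - W.b₄ * phiVal W x y m ^ 2 * (psiVal W x y m ^ 2) ^ 2
        - 2 * W.b₆ * phiVal W x y m * (psiVal W x y m ^ 2) ^ 3
        - W.b₈ * (psiVal W x y m ^ 2) ^ 4 ∧
      psiVal W x y (2 * m) ^ 2 = 4 * phiVal W x y m ^ 3 * psiVal W x y m ^ 2
        + W.b₂ * phiVal W x y m ^ 2 * (psiVal W x y m ^ 2) ^ 2
        + 2 * W.b₄ * phiVal W x y m * (psiVal W x y m ^ 2) ^ 3
        + W.b₆ * (psiVal W x y m ^ 2) ^ 4 := by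
  have hb : psi2 W x y ≠ 0 := by simpa using hw 2 one_le_two
  obtain ⟨X, Y, hXY, e, hX⟩ := hasMulFormula_of_ne_zero (h := h) h2 hw hm
  have hψ : psi2 W X Y * psiVal W x y m ^ 4 = psiVal W x y (2 * m) := by
    rcases Nat.lt_or_ge m 2 with hm2 | hm2
    · obtain rfl : m = 1 := by omega
      rw [one_nsmul, Point.some.injEq] at e
      obtain ⟨rfl, rfl⟩ := e
      simp
    · exact psi2_nsmul_of_ne hb hm (hasMulFormula_of_ne_zero h2 hw (by omega))
        (hasMulFormula_of_ne_zero h2 hw (by omega)) (by exact_mod_cast hw (m + 1) (by omega))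
        (by
          have := hw (m - 1) (by omega)
          rwa [Nat.cast_sub (by omega), Nat.cast_one] at this) e hX
  have hη : psi2 W X Y ≠ 0 := by
    intro hc
    rw [hc, zero_mul] at hψ
    exact hw (2 * m) (by omega) (by exact_mod_cast hψ.symm)
  obtain ⟨p, yp, hp, ep, hpv⟩ := nsmul_two_mul_of_some e hη
  obtain ⟨p', yp', hp', ep', hp2⟩ :=
    hasMulFormula_of_ne_zero (h := h) h2 hw (n := 2 * m) (by omega)
  rw [ep, Point.some.injEq] at ep'
  obtain ⟨rfl, rfl⟩ := ep'
  push_cast at hp2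
  have hB := psi2_sq hXY.left
  rw [← hp2, ← hψ, ← hX]
  simp only [phi2, psiSqVal] at hpv hB
  constructor
  · linear_combination psiVal W x y m ^ 8 * hpv
  · linear_combination psiVal W x y m ^ 8 * hB

end FLTAgent.ECTorsion
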