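import Fermat.Agent.ECTorsion.WeilPairing

/-!
# The Weil pairing under an unramified endomorphism

`IsPullback ψ a` says that `ψ` is the pullback along an endomorphism `a` unramified at infinity.
Then `e(aP, aQ) = e(P, Q) ^ #ker a` (`IsPullback.weilPairing_map`).
-/

set_option autoImplicit false

open Polynomial WeierstrassCurve.Affine
open scoped WeierstrassCurve.Affine

namespace FLTAgent.ECTorsion.Weil

universe u

variable {k : Type u} [Field k] [IsAlgClosed k] [DecidableEq k] {W : WeierstrassCurve.Affine k}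
  [W.IsElliptic] [DecidableEq W.FunctionField]

local notation "FF" => W.FunctionField

/-- `ψ` is the pullback along the endomorphism `a` of the curve, which is unramified. -/
structure IsPullback (ψ : W.FunctionField →ₐ[k] W.FunctionField) (a : W.Point →+ W.Point) :
    Prop where
  equivariant : ∀ R : W.Point,
    Point.map (transl W R) (Point.map ψ (gPt W)) = Point.map ψ (gPt W) + cst W (a R)
  ord_xF : ord (ψ (xF W)) = -2

variable {ψ : W.FunctionField →ₐ[k] W.FunctionField} {a : W.Point →+ W.Point}

lemma IsPullback.transl_apply (h : IsPullback ψ a) (R : W.Point) (f : FF) :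
    transl W R (ψ f) = ψ (transl W (a R) f) := by
  have : (transl W R).comp ψ = ψ.comp (transl W (a R)) := algHom_ext_gPt (by
    rw [← Point.map_map, ← Point.map_map, map_transl, map_add, map_cst, h.equivariant])
  exact congr($this f)

lemma IsPullback.ordAt_apply (h : IsPullback ψ a) (R : W.Point) (f : FF) :
    ordAt R (ψ f) = ordAt (a R) f := by
  rw [ordAt, h.transl_apply, ord_algHom_of_ord_xF h.ord_xF, ordAt]

variable {n : ℕ}

/-- `e(aP, aQ) = e(P, Q) ^ #ker a`. -/
theorem IsPullback.weilPairing_map (h : IsPullback ψ a) (hn : (n : k) ≠ 0)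
    (hfin : {T : W.Point | a T = 0}.Finite) {P Q : W.Point} (hP : n • P = 0) (hQ : n • Q = 0) :
    weilPairing W hn (a P) (a Q) = weilPairing W hn P Q ^ hfin.toFinset.card := by
  classical
  set C : Finset W.Point := hfin.toFinset with hC
  set N := C.card
  have hmem : ∀ T, T ∈ C ↔ a T = 0 := fun T => Set.Finite.mem_toFinset _
  have hPa : n • a P = 0 := by rw [← map_nsmul, hP, map_zero]
  have hQa : n • a Q = 0 := by rw [← map_nsmul, hQ, map_zero]
  obtain ⟨hg, hdg⟩ := weilFun_spec hn hQ
  obtain ⟨hg', hdg'⟩ := weilFun_spec hn hQa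
  set g := weilFun W hn Q
  set g' := weilFun W hn (a Q)
  let s₀ : Multiset W.Point := C.val + Multiset.replicate N Q
  let s₁ : Multiset W.Point := (C.map (addLeftEmbedding Q)).val + Multiset.replicate N 0
  have hcard : Multiset.card s₁ = Multiset.card s₀ := by
    simp [s₀, s₁, N]
  have hsum : s₁.sum = s₀.sum := by
    simp only [s₀, s₁, Multiset.sum_add, Multiset.sum_replicate, nsmul_zero, add_zero,
      Finset.sum_val, Finset.sum_map, addLeftEmbedding_apply, id]
    rw [Finset.sum_add_distrib, Finset.sum_const, add_comm]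
  obtain ⟨f₀, hf₀, hd₀⟩ := exists_fun_of_multiset s₀
  obtain ⟨f₁, hf₁, hd₁⟩ := exists_fun_of_multiset s₁
  set f := f₁ / f₀
  have hf : f ≠ 0 := div_ne_zero hf₁ hf₀
  have hM : mulHom W hn f ≠ 0 := (_root_.map_ne_zero _).mpr hf
  have hG : ψ g' ≠ 0 := (_root_.map_ne_zero _).mpr hg'
  have hgN : g ^ N ≠ 0 := pow_ne_zero _ hg
  -- the two sides have the same divisor
  obtain ⟨b, -, hb⟩ := eq_const_of_ordAt_eq_zero (div_ne_zero hG (mul_ne_zero hgN hM)) fun R => by
    have hpow : ordAt R (g ^ N) = N * ordAt R g := by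
      rw [ordAt, map_pow, ord_pow ((_root_.map_ne_zero _).mpr hg)]; rfl
    rw [ordAt_div R hG (mul_ne_zero hgN hM), ordAt_mul R hgN hM, hpow, hdg, h.ordAt_apply, hdg',
      ordAt_mulHom, ordAt_div _ hf₁ hf₀, hd₀, hd₁, hsum, hcard, ← map_nsmul]
    have cQ : δ (a (n • R)) (a Q) = if n • R ∈ C.map (addLeftEmbedding Q) then 1 else 0 := by
      rw [δ]
      refine if_congr ?_ rfl rfl
      simp only [Finset.mem_map, addLeftEmbedding_apply, hmem]
      constructor
      · exact fun e => ⟨n • R - Q, by rw [map_sub, e, sub_self], add_sub_cancel Q _⟩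
      · rintro ⟨T, hT, e⟩
        rw [← e, map_add, hT, add_zero]
    have c0 : δ (a (n • R)) 0 = if n • R ∈ C then 1 else 0 := by
      rw [δ]
      exact if_congr (hmem _).symm rfl rfl
    simp only [s₀, s₁, Multiset.count_add, Multiset.count_replicate,
      Multiset.count_eq_of_nodup (Finset.nodup _), Finset.mem_val, cQ, c0]
    simp only [δ, eq_comm (a := Q), eq_comm (a := (0 : W.Point))]
    push_cast
    split_ifs <;> ring
  rw [div_eq_iff (mul_ne_zero hgN hM)] at hb
  have h1 : transl W P (ψ g') = algebraMap k FF (weilPairing W hn (a P) (a Q)) * ψ g' := by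
    rw [h.transl_apply, transl_weilFun hn hPa hQa, map_mul, AlgHom.commutes]
  have h2 : transl W P (ψ g') = algebraMap k FF (weilPairing W hn P Q ^ N) * ψ g' := by
    rw [hb, map_mul, map_mul, AlgHom.commutes, map_pow, transl_weilFun hn hP hQ, transl_mulHom, hP,
      transl_zero, map_pow, mul_pow]
    ring
  exact (algebraMap k FF).injective (mul_right_cancel₀ hG (h1.symm.trans h2))

end FLTAgent.ECTorsion.Weil
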