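import Fermat.Agent.ECTorsion.Derivation

/-!
# Polynomial identities between division polynomials

Proved on the universal curve and specialised: the Wronskian identity (`wronskian`), the invariant
(`preΨ_invariant`) and the divisibility behind simplicity of the roots
(`preΨ_dvd_separability`).
-/

set_option autoImplicit false

open Polynomial WeierstrassCurve

namespace FLTAgent.ECTorsion

universe u v

/-- `ℤ[a₁, a₂, a₃, a₄, a₆]`. -/
abbrev CoeffRing : Type := MvPolynomial (Fin 5) ℤ

/-- The universal Weierstrass curve. -/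
noncomputable def coeffCurve : WeierstrassCurve CoeffRing :=
  ⟨MvPolynomial.X 0, MvPolynomial.X 1, MvPolynomial.X 2, MvPolynomial.X 3, MvPolynomial.X 4⟩

/-- The specialisation of the universal curve to `W`. -/
noncomputable def coeffSpec {R : Type u} [CommRing R] (W : WeierstrassCurve R) : CoeffRing →+* R :=
  MvPolynomial.eval₂Hom (Int.castRingHom R) ![W.a₁, W.a₂, W.a₃, W.a₄, W.a₆]

lemma map_coeffSpec {R : Type u} [CommRing R] (W : WeierstrassCurve R) :
    coeffCurve.map (coeffSpec W) = W := by
  ext <;> simp [coeffCurve, coeffSpec]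

section Derivative

variable {F : Type u} [Field F] {W : WeierstrassCurve F} {d : Derivation ℤ F F}

lemma derivation_coeffSpec (hd : KillsCurve W d) (r : CoeffRing) : d (coeffSpec W r) = 0 := by
  induction r using MvPolynomial.induction_on with
  | C n => simp [coeffSpec]
  | add p q hp hq => rw [map_add, map_add, hp, hq, add_zero]
  | mul_X p i hp =>
    rw [map_mul, Derivation.leibniz, hp, smul_zero, add_zero]
    fin_cases i <;> simp [coeffSpec, hd.a₁, hd.a₂, hd.a₃, hd.a₄, hd.a₆]

lemma derivation_eval {A : Type v} [CommRing A] {g : A →+* F} (hg : ∀ r, d (g r) = 0)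
    (P : A[X]) (X₀ : F) :
    d ((P.map g).eval X₀) = ((derivative P).map g).eval X₀ * d X₀ := by
  induction P using Polynomial.induction_on' with
  | add p q hp hq => simp only [Polynomial.map_add, eval_add, map_add, hp, hq,
      add_mul]
  | monomial n a =>
    simp only [derivative_monomial, Polynomial.map_monomial, eval_monomial, Derivation.leibniz,
      Derivation.leibniz_pow, hg, smul_eq_mul, nsmul_eq_mul, mul_zero, add_zero, map_mul,
      map_natCast]
    ring

/-- The Wronskian identity at a point carrying the derivation `d x = ψ₂`. -/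
lemma wronskian_of_derivation [DecidableEq F] (hd : KillsCurve W d) {x y : F}
    (h : W.toAffine.Nonsingular x y) (h2 : (2 : F) ≠ 0)
    (hw : ∀ k : ℕ, 1 ≤ k → psiVal W x y k ≠ 0) (hx : d x = psi2 W x y) {n : ℕ} (hn : 1 ≤ n) :
    (derivative (W.Φ n)).eval x * (W.ΨSq n).eval x -
        (W.Φ n).eval x * (derivative (W.ΨSq n)).eval x =
      n * (W.preΨ (2 * n)).eval x := by
  obtain ⟨X', Y', hXY, e, hX⟩ := hasMulFormula_of_ne_zero (h := h) h2 hw hn
  have hb : psi2 W x y ≠ 0 := by simpa using hw 2 one_le_two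
  have hψ : psi2 W X' Y' * psiVal W x y n ^ 4 = psiVal W x y (2 * n) := by
    rcases Nat.lt_or_ge n 2 with hn2 | hn2
    · obtain rfl : n = 1 := by omega
      rw [one_nsmul, Affine.Point.some.injEq] at e
      obtain ⟨rfl, rfl⟩ := e
      simp
    · exact psi2_nsmul_of_ne hb hn (hasMulFormula_of_ne_zero h2 hw (by omega))
        (hasMulFormula_of_ne_zero h2 hw (by omega)) (by exact_mod_cast hw (n + 1) (by omega))
        (by
          have := hw (n - 1) (by omega)
          rwa [Nat.cast_sub (by omega), Nat.cast_one] at this) e hX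
  have hdX := derivation_nsmul hd h h2 hw hx hn e
  rw [psiVal_eq_eval h.left (2 * (n : ℤ)), if_pos (even_two_mul _)] at hψ
  rw [psiVal_sq h.left, phiVal_eq_eval h.left] at hX
  have hk : ∀ P : CoeffRing[X],
      d ((P.map (coeffSpec W)).eval x) =
        ((derivative P).map (coeffSpec W)).eval x * psi2 W x y := fun P => by
    rw [derivation_eval (derivation_coeffSpec hd), hx]
  have eΦ := hk (coeffCurve.Φ n)
  have eS := hk (coeffCurve.ΨSq n)
  rw [← derivative_map, ← map_Φ, map_coeffSpec] at eΦ
  rw [← derivative_map, ← map_ΨSq, map_coeffSpec] at eS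
  have e1 := congrArg d hX
  rw [Derivation.leibniz, eS, eΦ, hdX, smul_eq_mul, smul_eq_mul] at e1
  have hS := psiVal_sq h.left (n : ℤ)
  apply mul_right_cancel₀ hb
  linear_combination -(W.ΨSq n).eval x * e1 +
    (derivative (W.ΨSq n)).eval x * psi2 W x y * hX + (n : F) * hψ -
    (n : F) * psi2 W X' Y' * (psiVal W x y n ^ 2 + (W.ΨSq n).eval x) * hS

end Derivative

section UnivFieldFacts

local notation "Wu" => univCurve.map (algebraMap UnivRing UnivField)
local notation "xu" => algebraMap UnivRing UnivField univX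
local notation "yu" => algebraMap UnivRing UnivField univY

/-- The derivation `ψ₂ ∂/∂x + (3x² + 2a₂x + a₄ - a₁y) ∂/∂y` of the universal pointed curve. -/
noncomputable def univDerivation :=
  MvPolynomial.mkDerivation (σ := Fin 6) (A := UnivRing) ℤ
    ![0, 0, 0, 0, psi2 univCurve univX univY, xi univCurve univX univY]

lemma univDerivation_killsCurve :
    KillsCurve Wu (derivationExt UnivField univDerivation) := by
  constructor <;> rw [WeierstrassCurve.map] <;> dsimp only <;> rw [derivationExt_algebraMap]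
  all_goals
    convert map_zero (algebraMap UnivRing UnivField)
    simp [univDerivation, univCurve, univX, univY, psi2, xi, Derivation.leibniz,
      Derivation.leibniz_pow]
  ring

lemma univDerivation_x :
    derivationExt UnivField univDerivation xu = psi2 Wu xu yu := by
  rw [derivationExt_algebraMap, map_psi2]
  simp [univDerivation, univX]

/-- The Wronskian identity at the universal point. -/
lemma univField_wronskian {n : ℕ} (hn : 1 ≤ n) :
    (derivative ((Wu).Φ n)).eval xu * ((Wu).ΨSq n).eval xu -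
        ((Wu).Φ n).eval xu * (derivative ((Wu).ΨSq n)).eval xu =
      n * ((Wu).preΨ (2 * n)).eval xu := by
  classical
  exact wronskian_of_derivation univDerivation_killsCurve univField_nonsingular
    univField_two_ne_zero (fun k hk => univField_psiVal_ne_zero (by omega)) univDerivation_x hn

end UnivFieldFacts

variable {R : Type u} [CommRing R] {W : WeierstrassCurve R} {x y : R}

/-- The Wronskian identity at any point. -/
lemma wronskian_eval (h : W.toAffine.Equation x y) {n : ℕ} (hn : 1 ≤ n) :
    (derivative (W.Φ n)).eval x * (W.ΨSq n).eval x -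
        (W.Φ n).eval x * (derivative (W.ΨSq n)).eval x =
      n * (W.preΨ (2 * n)).eval x := by
  obtain ⟨f, rfl, rfl, rfl⟩ := exists_specialization h
  have := univField_wronskian hn
  simp only [map_Φ, map_ΨSq, map_preΨ, derivative_map, eval_map_apply, ← map_mul, ← map_sub,
    ← map_natCast (algebraMap UnivRing UnivField)] at this
  simp only [map_Φ, map_ΨSq, map_preΨ, derivative_map, eval_map_apply, ← map_mul, ← map_sub,
    ← map_natCast f]
  rw [IsFractionRing.injective UnivRing UnivField this]

section Generic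

variable (W)

/-- The generic point of `W` over its coordinate ring. -/
noncomputable def genX : W.toAffine.CoordinateRing :=
  algebraMap R[X] W.toAffine.CoordinateRing X

/-- The generic point of `W` over its coordinate ring. -/
noncomputable def genY : W.toAffine.CoordinateRing :=
  Affine.CoordinateRing.mk W.toAffine (X : R[X][X])

lemma eval_genX (P : R[X]) :
    (P.map (algebraMap R W.toAffine.CoordinateRing)).eval (genX W) =
      algebraMap R[X] W.toAffine.CoordinateRing P := by
  rw [eval_map, ← aeval_def, genX, aeval_algebraMap_apply, aeval_X_left_apply]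

lemma equation_gen :
    (W.map (algebraMap R W.toAffine.CoordinateRing)).toAffine.Equation (genX W) (genY W) := by
  have hA : ∀ r : R, algebraMap R W.toAffine.CoordinateRing r =
      Affine.CoordinateRing.mk W.toAffine (C (C r)) := fun r => rfl
  have hX : genX W = Affine.CoordinateRing.mk W.toAffine (C X) := rfl
  rw [Affine.equation_iff, WeierstrassCurve.map]
  dsimp only
  rw [hA, hA, hA, hA, hA, hX, genY]
  simp only [← map_mul, ← map_pow, ← map_add]
  refine AdjoinRoot.mk_eq_mk.mpr ⟨1, ?_⟩
  rw [Affine.polynomial]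
  simp only [C_add, C_mul, C_pow]
  ring

lemma eq_of_eval_genX {P Q : R[X]}
    (h : (P.map (algebraMap R W.toAffine.CoordinateRing)).eval (genX W) =
      (Q.map (algebraMap R W.toAffine.CoordinateRing)).eval (genX W)) : P = Q := by
  rw [eval_genX, eval_genX] at h
  exact FaithfulSMul.algebraMap_injective R[X] W.toAffine.CoordinateRing h

end Generic

/-- `Φₙ' ΨSqₙ - Φₙ ΨSqₙ' = n preΨ₂ₙ`. -/
theorem wronskian (W : WeierstrassCurve R) (n : ℕ) :
    derivative (W.Φ n) * W.ΨSq n - W.Φ n * derivative (W.ΨSq n) = (n : R[X]) * W.preΨ (2 * n) := by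
  rcases Nat.eq_zero_or_pos n with rfl | hn
  · simp
  refine eq_of_eval_genX W ?_
  have := wronskian_eval (equation_gen W) hn
  simpa only [Polynomial.map_sub, Polynomial.map_mul, Polynomial.map_natCast, eval_sub, eval_mul,
    eval_natCast, map_Φ, map_ΨSq, map_preΨ, derivative_map] using this

/-- `q(n-1)²q(n+2) + q(n-2)q(n+1)² = qₙ(C q(n-1)q(n+1) - qₙ²)` for odd `n`, `qₖ = preΨₖ`. -/
theorem preΨ_invariant (W : WeierstrassCurve R) {n : ℕ} (hn : Odd n) :
    W.preΨ ((n : ℤ) - 1) ^ 2 * W.preΨ ((n : ℤ) + 2) +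
        W.preΨ ((n : ℤ) - 2) * W.preΨ ((n : ℤ) + 1) ^ 2 =
      W.preΨ n * ((C 6 * X ^ 2 + C W.b₂ * X + C W.b₄) *
        W.preΨ ((n : ℤ) - 1) * W.preΨ ((n : ℤ) + 1) - W.preΨ n ^ 2) := by
  suffices key : coeffCurve.preΨ ((n : ℤ) - 1) ^ 2 * coeffCurve.preΨ ((n : ℤ) + 2) +
        coeffCurve.preΨ ((n : ℤ) - 2) * coeffCurve.preΨ ((n : ℤ) + 1) ^ 2 =
      coeffCurve.preΨ n * ((C 6 * X ^ 2 + C coeffCurve.b₂ * X + C coeffCurve.b₄) *
        coeffCurve.preΨ ((n : ℤ) - 1) * coeffCurve.preΨ ((n : ℤ) + 1) -
          coeffCurve.preΨ n ^ 2) by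
    have := congrArg (Polynomial.map (coeffSpec W)) key
    simp only [Polynomial.map_add, Polynomial.map_sub, Polynomial.map_mul, Polynomial.map_pow,
      Polynomial.map_C, Polynomial.map_X] at this
    rw [← map_preΨ, ← map_preΨ, ← map_preΨ, ← map_preΨ, ← map_preΨ, ← map_b₂, ← map_b₄,
      map_ofNat (coeffSpec W) 6, map_coeffSpec] at this
    exact this
  have h4 : (4 : CoeffRing) ≠ 0 := by norm_num
  apply mul_left_cancel₀ (coeffCurve.Ψ₂Sq_ne_zero h4)
  refine eq_of_eval_genX coeffCurve ?_
  have heq := equation_gen coeffCurve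
  have := psiVal_invariant heq hn.pos
  have hne : ¬ Even (n : ℤ) := by rw [Int.even_coe_nat, Nat.not_even_iff_odd]; exact hn
  simp only [psiVal_eq_eval heq, Int.even_sub, Int.even_add, even_two, iff_true, Int.not_even_one,
    hne, if_false, if_true, mul_one, map_preΨ] at this
  simp only [Polynomial.map_add, Polynomial.map_sub, Polynomial.map_mul, Polynomial.map_pow,
    Polynomial.map_C, Polynomial.map_X, map_ofNat, Polynomial.map_ofNat, eval_add, eval_sub,
    eval_mul, eval_pow,
    eval_C, eval_X, ← map_Ψ₂Sq, eval_Ψ₂Sq, ← psi2_sq heq]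
  simp only [halfDer, map_b₂, map_b₄] at this
  simp only [eval_ofNat]
  linear_combination this

/-- For odd `n`, with `q = preΨₙ`: `Φₙ q' + n q(n-1)²q(n+2)` is divisible by `q`. -/
theorem preΨ_dvd_separability (W : WeierstrassCurve R) {n : ℕ} (hn : Odd n) :
    W.preΨ n ∣ W.Φ n * derivative (W.preΨ n) +
      (n : R[X]) * (W.preΨ ((n : ℤ) - 1) ^ 2 * W.preΨ ((n : ℤ) + 2)) := by
  suffices key : coeffCurve.preΨ n ∣ coeffCurve.Φ n * derivative (coeffCurve.preΨ n) +
      (n : CoeffRing[X]) *
        (coeffCurve.preΨ ((n : ℤ) - 1) ^ 2 * coeffCurve.preΨ ((n : ℤ) + 2)) by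
    have := Polynomial.map_dvd (coeffSpec W) key
    simpa only [Polynomial.map_add, Polynomial.map_mul, Polynomial.map_pow, Polynomial.map_natCast,
      ← derivative_map, ← map_preΨ, ← map_Φ, map_coeffSpec] using this
  have hw := wronskian coeffCurve n
  have hE := preΨ_invariant coeffCurve hn
  have hne : ¬ Even (n : ℤ) := by rw [Int.even_coe_nat, Nat.not_even_iff_odd]; exact hn
  rw [WeierstrassCurve.ΨSq, if_neg hne, mul_one, preΨ_even, derivative_pow] at hw
  set q := coeffCurve.preΨ (n : ℤ) with hq
  set G := (C 6 * X ^ 2 + C coeffCurve.b₂ * X + C coeffCurve.b₄) *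
    coeffCurve.preΨ ((n : ℤ) - 1) * coeffCurve.preΨ ((n : ℤ) + 1) - q ^ 2
  set A := coeffCurve.preΨ ((n : ℤ) - 1) ^ 2 * coeffCurve.preΨ ((n : ℤ) + 2)
  have hn0 : (n : CoeffRing) ≠ 0 := Nat.cast_ne_zero.mpr hn.pos.ne'
  have hq0 : q ≠ 0 := coeffCurve.preΨ_ne_zero (by exact_mod_cast hn0)
  have e : q * (derivative (coeffCurve.Φ n) + (n : CoeffRing[X]) * G) =
      C 2 * (coeffCurve.Φ n * derivative q + (n : CoeffRing[X]) * A) := by
    apply mul_left_cancel₀ hq0
    simp only [Nat.cast_ofNat, Nat.add_one_sub_one, pow_one, map_ofNat] at hw ⊢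
    linear_combination hw - q * (n : CoeffRing[X]) * hE
  have hp : Prime (C 2 : CoeffRing[X]) := by
    rw [prime_C_iff, show (2 : CoeffRing) = MvPolynomial.C 2 by simp [map_ofNat],
      MvPolynomial.prime_C_iff]
    exact Int.prime_two
  have hnd : ¬ (C 2 : CoeffRing[X]) ∣ q := by
    intro hd
    rw [C_dvd_iff_dvd_coeff] at hd
    have := hd ((n ^ 2 - 1) / 2)
    rw [hq, preΨ_ofNat] at this
    have hcoef := coeffCurve.coeff_preΨ' n
    rw [if_neg (Nat.not_even_iff_odd.mpr hn), if_neg (Nat.not_even_iff_odd.mpr hn)] at hcoef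
    rw [hcoef] at this
    have h2 := map_dvd (MvPolynomial.eval (0 : Fin 5 → ℤ)) this
    simp only [map_ofNat, map_natCast] at h2
    obtain ⟨k, rfl⟩ := hn
    omega
  obtain ⟨H, hH⟩ := (hp.dvd_or_dvd ⟨_, e⟩).resolve_left hnd
  refine ⟨H, mul_left_cancel₀ hp.ne_zero ?_⟩
  rw [hH] at e
  linear_combination -e

end FLTAgent.ECTorsion
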