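import Fermat.Agent.ECTorsion.FFOrd
import Fermat.Agent.ECTorsion.Torsion

/-!
# Translations and multiplication by `n` on the function field

`transl R` and `mulHom` are the endomorphisms of `k(W)` given by translation and by `[n]`, read
off the generic point `gPt`; `ordAt R` is the order at `R` and `ord_mulHom` says `[n]` is
unramified at infinity.
-/

set_option autoImplicit false

open Polynomial WeierstrassCurve.Affine
open scoped WeierstrassCurve.Affine

namespace FLTAgent.ECTorsion.Weil

universe u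

variable {k : Type u} [Field k] (W : WeierstrassCurve.Affine k)

local notation "𝔸" => W.CoordinateRing
local notation "FF" => W.FunctionField

lemma algebraMap_mk_C (p : k[X]) :
    algebraMap 𝔸 FF (CoordinateRing.mk W (C p)) = aeval (xF W) p := by
  induction p using Polynomial.induction_on' with
  | add p q hp hq => rw [C_add, map_add, map_add, hp, hq, map_add]
  | monomial n c =>
    rw [← C_mul_X_pow_eq_monomial, C_mul, C_pow, map_mul, map_pow, map_mul, map_pow, map_mul,
      map_pow, aeval_C, aeval_X, xF, algebraMap_base]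
    rfl

lemma equation_xF_yF : (W⁄FF).Equation (xF W) (yF W) := by
  have h0 : algebraMap 𝔸 FF (CoordinateRing.mk W (X ^ 2 + C (C W.a₁ * X + C W.a₃) * X -
      C (X ^ 3 + C W.a₂ * X ^ 2 + C W.a₄ * X + C W.a₆))) = 0 :=
    (congrArg (algebraMap 𝔸 FF) (AdjoinRoot.mk_self (f := W.polynomial))).trans (map_zero _)
  simp only [map_sub, map_add, map_mul, map_pow, algebraMap_mk_C, aeval_C, aeval_X] at h0
  rw [equation_iff]
  change yF W ^ 2 + algebraMap k FF W.a₁ * xF W * yF W + algebraMap k FF W.a₃ * yF W =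
    xF W ^ 3 + algebraMap k FF W.a₂ * xF W ^ 2 + algebraMap k FF W.a₄ * xF W + algebraMap k FF W.a₆
  rw [yF]
  linear_combination h0

lemma degN_C {p : k[X]} (hp : p ≠ 0) :
    degN (CoordinateRing.mk W (C p)) = 2 * p.natDegree ∧ CoordinateRing.mk W (C p) ≠ 0 := by
  have h : CoordinateRing.mk W (C p) = p • (1 : 𝔸) + (0 : k[X]) • CoordinateRing.mk W X := by
    rw [zero_smul, add_zero, CoordinateRing.smul, mul_one]
  have hne : CoordinateRing.mk W (C p) ≠ 0 := fun h' => by
    rw [h'] at h; exact hp (CoordinateRing.smul_basis_eq_zero h.symm).1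
  have := poleDeg_smul_basis (W := W) p 0
  rw [← h, poleDeg_eq hne, degree_eq_natDegree hp, degree_zero, two_nsmul, two_nsmul,
    WithBot.bot_add, WithBot.bot_add, max_bot_right, ← Nat.cast_add] at this
  exact ⟨by rw [two_mul]; exact_mod_cast this, hne⟩

lemma ord_aeval_xF {p : k[X]} (hp : p ≠ 0) :
    ord (aeval (xF W) p) = -2 * (p.natDegree : ℤ) ∧ aeval (xF W) p ≠ 0 := by
  rw [← algebraMap_mk_C, ord_algebraMap (degN_C W hp).2, (degN_C W hp).1]
  exact ⟨by push_cast; ring, algebraMap_ne_zero (degN_C W hp).2⟩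

variable {W}

lemma notMem_range_of_ord {f : FF} (h : ord f ≠ 0) (hf : f ≠ 0) :
    f ∉ (algebraMap k FF).range := by
  rintro ⟨c, rfl⟩
  refine h (ord_const ?_)
  rintro rfl
  exact hf (map_zero _)

variable [IsAlgClosed k]

lemma aeval_ne_zero {T : FF} (hT : T ∉ (algebraMap k FF).range) {p : k[X]} (hp : p ≠ 0) :
    aeval T p ≠ 0 := by
  intro h
  rw [(IsAlgClosed.splits p).eq_prod_roots, map_mul, aeval_C, mul_eq_zero] at h
  rcases h with h | h
  · exact leadingCoeff_ne_zero.mpr hp ((map_eq_zero _).mp h)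
  · rw [map_multiset_prod, Multiset.prod_eq_zero_iff] at h
    obtain ⟨q, hq, h0⟩ := Multiset.mem_map.mp h
    obtain ⟨r, -, rfl⟩ := Multiset.mem_map.mp hq
    rw [map_sub, aeval_X, aeval_C, sub_eq_zero] at h0
    exact hT ⟨r, h0.symm⟩

lemma mem_range_of_equation {a b : FF} (h : (W⁄FF).Equation a b)
    (ha : a ∈ (algebraMap k FF).range) : b ∈ (algebraMap k FF).range := by
  obtain ⟨c, rfl⟩ := ha
  by_contra hb
  obtain ⟨d, hd⟩ := exists_equation W c
  have hd' : (W⁄FF).Equation (algebraMap k FF c) (algebraMap k FF d) :=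
    Equation.map (algebraMap k FF) hd
  rcases Y_eq_of_X_eq h hd' rfl with e | e
  · exact hb ⟨d, e.symm⟩
  · refine hb ⟨W.negY c d, ?_⟩
    rw [e]
    exact (map_negY (algebraMap k FF) c d).symm

variable (W)

omit [IsAlgClosed k] in
lemma eval₂_polynomial_eq_zero {a b : FF} (h : (W⁄FF).Equation a b) :
    W.polynomial.eval₂ (aeval a).toRingHom b = 0 := by
  rw [equation_iff] at h
  simp only [WeierstrassCurve.Affine.polynomial, eval₂_sub, eval₂_add, eval₂_mul, eval₂_pow,
    eval₂_X, eval₂_C, AlgHom.toRingHom_eq_coe, RingHom.coe_coe, map_add, map_mul, map_pow,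
    aeval_C, aeval_X]
  rw [sub_eq_zero]
  change b ^ 2 + (algebraMap k FF W.a₁ * a + algebraMap k FF W.a₃) * b =
    a ^ 3 + algebraMap k FF W.a₂ * a ^ 2 + algebraMap k FF W.a₄ * a + algebraMap k FF W.a₆
  change b ^ 2 + algebraMap k FF W.a₁ * a * b + algebraMap k FF W.a₃ * b =
    a ^ 3 + algebraMap k FF W.a₂ * a ^ 2 + algebraMap k FF W.a₄ * a + algebraMap k FF W.a₆ at h
  linear_combination h

/-- The `k`-algebra map `k[W] → k(W)` given by a point. -/
noncomputable def coordHom {a b : FF} (h : (W⁄FF).Equation a b) : 𝔸 →ₐ[k] FF :=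
  { AdjoinRoot.lift (aeval a).toRingHom b (eval₂_polynomial_eq_zero W h) with
    commutes' := fun c => by
      change AdjoinRoot.lift _ b (eval₂_polynomial_eq_zero W h)
        (CoordinateRing.mk W (C (C c))) = _
      rw [AdjoinRoot.lift_mk, eval₂_C]
      exact aeval_C a c }

omit [IsAlgClosed k] in
lemma coordHom_mk {a b : FF} (h : (W⁄FF).Equation a b) (q : k[X][X]) :
    coordHom W h (CoordinateRing.mk W q) = q.eval₂ (aeval a).toRingHom b :=
  AdjoinRoot.lift_mk (eval₂_polynomial_eq_zero W h) q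

omit [IsAlgClosed k] in
lemma coordHom_smul_basis {a b : FF} (h : (W⁄FF).Equation a b) (p q : k[X]) :
    coordHom W h (p • (1 : 𝔸) + q • CoordinateRing.mk W X) = aeval a p + aeval a q * b := by
  rw [map_add, CoordinateRing.smul, CoordinateRing.smul, mul_one, map_mul, coordHom_mk,
    coordHom_mk, coordHom_mk, eval₂_C, eval₂_C, eval₂_X]
  rfl

lemma coordHom_injective {a b : FF} (h : (W⁄FF).Equation a b)
    (ha : a ∉ (algebraMap k FF).range) : Function.Injective (coordHom W h) := by
  refine (injective_iff_map_eq_zero _).mpr fun z hz => ?_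
  obtain ⟨p, q, rfl⟩ := CoordinateRing.exists_smul_basis_eq z
  have h1 := congrArg (coordHom W h) (CoordinateRing.coe_norm_smul_basis (W' := W) p q)
  rw [coordHom_smul_basis] at hz
  have h2 : CoordinateRing.mk W (C (Algebra.norm k[X]
      (p • (1 : 𝔸) + q • CoordinateRing.mk W X))) = AdjoinRoot.of W.polynomial
      (Algebra.norm k[X] (p • (1 : 𝔸) + q • CoordinateRing.mk W X)) := rfl
  rw [← h2, coordHom_mk, coordHom_mk, eval₂_C, eval₂_mul, eval₂_add, eval₂_C, eval₂_mul, eval₂_C,
    eval₂_X] at h1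
  have h3 : (aeval a).toRingHom p + (aeval a).toRingHom q * b = 0 := hz
  rw [h3, zero_mul] at h1
  by_contra hne
  exact aeval_ne_zero ha (norm_ne_zero hne) h1

/-- The endomorphism of `k(W)` given by a non-constant point. -/
noncomputable def pointHom {a b : FF} (h : (W⁄FF).Equation a b)
    (ha : a ∉ (algebraMap k FF).range) : FF →ₐ[k] FF :=
  IsFractionRing.liftAlgHom (coordHom_injective W h ha)

lemma pointHom_algebraMap {a b : FF} (h : (W⁄FF).Equation a b)
    (ha : a ∉ (algebraMap k FF).range) (z : 𝔸) :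
    pointHom W h ha (algebraMap 𝔸 FF z) = coordHom W h z :=
  IsFractionRing.lift_algebraMap (coordHom_injective W h ha) z

lemma pointHom_xF {a b : FF} (h : (W⁄FF).Equation a b) (ha : a ∉ (algebraMap k FF).range) :
    pointHom W h ha (xF W) = a := by
  rw [xF, pointHom_algebraMap, coordHom_mk, eval₂_C]
  exact aeval_X a

lemma pointHom_yF {a b : FF} (h : (W⁄FF).Equation a b) (ha : a ∉ (algebraMap k FF).range) :
    pointHom W h ha (yF W) = b := by
  rw [yF, pointHom_algebraMap, coordHom_mk, eval₂_X]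

variable {W}

omit [IsAlgClosed k] in
lemma algHom_ext {φ ψ : FF →ₐ[k] FF} (hx : φ (xF W) = ψ (xF W)) (hy : φ (yF W) = ψ (yF W)) :
    φ = ψ := by
  refine AlgHom.coe_ringHom_injective (IsLocalization.ringHom_ext (nonZeroDivisors 𝔸) ?_)
  refine RingHom.ext fun z => ?_
  obtain ⟨p, q, rfl⟩ := CoordinateRing.exists_smul_basis_eq z
  have hp : ∀ p : k[X], φ (aeval (xF W) p) = ψ (aeval (xF W) p) := fun p => by
    rw [← aeval_algHom_apply, ← aeval_algHom_apply, hx]
  simp only [RingHom.coe_comp, RingHom.coe_coe, Function.comp_apply, CoordinateRing.smul, map_add,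
    map_mul, mul_one, algebraMap_mk_C, hp]
  rw [show algebraMap 𝔸 FF (CoordinateRing.mk W X) = yF W from rfl, hy]

variable [W.IsElliptic]

omit [IsAlgClosed k] in
lemma nonsingular_xF_yF : (W⁄FF).Nonsingular (xF W) (yF W) :=
  equation_iff_nonsingular.mp (equation_xF_yF W)

variable (W) in
/-- The generic point. -/
noncomputable def gPt : (W⁄FF).Point := Point.some _ _ (nonsingular_xF_yF (W := W))

variable [DecidableEq k] [DecidableEq W.FunctionField]

variable (W) in
/-- The constant points. -/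
noncomputable def cst : W.Point →+ (W⁄FF).Point :=
  (Point.baseChange k FF : (W⁄k).Point →+ (W⁄FF).Point)

omit [IsAlgClosed k] [W.IsElliptic] in
lemma cst_some {c d : k} (h : W.Nonsingular c d) :
    ∃ h', cst W (Point.some c d h) = Point.some (algebraMap k FF c) (algebraMap k FF d) h' :=
  ⟨_, rfl⟩

omit [IsAlgClosed k] [W.IsElliptic] in
lemma cst_injective : Function.Injective (cst W) := Point.map_injective _

omit [IsAlgClosed k] [W.IsElliptic] in
lemma map_cst (φ : FF →ₐ[k] FF) (R : W.Point) : Point.map φ (cst W R) = cst W R :=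
  Point.map_baseChange (W' := W) φ (R : (W⁄k).Point)

omit [IsAlgClosed k] [DecidableEq k] in
lemma algHom_ext_gPt {φ ψ : FF →ₐ[k] FF} (h : Point.map φ (gPt W) = Point.map ψ (gPt W)) :
    φ = ψ := by
  rw [gPt, Point.map_some, Point.map_some, Point.some.injEq] at h
  exact algHom_ext h.1 h.2

omit [W.IsElliptic] in
lemma mem_range_cst {a b : FF} (h : (W⁄FF).Nonsingular a b)
    (ha : a ∈ (algebraMap k FF).range) : Point.some a b h ∈ (cst W).range := by
  obtain ⟨c, rfl⟩ := ha
  obtain ⟨d, rfl⟩ := mem_range_of_equation h.left ⟨c, rfl⟩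
  have : W.Nonsingular c d :=
    (map_nonsingular W (algebraMap k FF).injective c d).mp h
  exact ⟨Point.some c d this, rfl⟩

lemma exists_pointHom {Q : (W⁄FF).Point} (hQ : Q ∉ (cst W).range) :
    ∃ φ : FF →ₐ[k] FF, Point.map φ (gPt W) = Q := by
  rcases Q with _ | ⟨a, b, h⟩
  · exact absurd ⟨0, map_zero _⟩ hQ
  have ha : a ∉ (algebraMap k FF).range := fun hc => hQ (mem_range_cst h hc)
  refine ⟨pointHom W h.left ha, ?_⟩
  rw [gPt, Point.map_some, Point.some.injEq]
  exact ⟨pointHom_xF W h.left ha, pointHom_yF W h.left ha⟩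

omit [IsAlgClosed k] in
lemma gPt_notMem_range : gPt W ∉ (cst W).range := by
  rintro ⟨R, hR⟩
  rcases R with _ | ⟨c, d, hcd⟩
  · exact Point.some_ne_zero _ hR.symm
  · obtain ⟨h', e⟩ := cst_some hcd
    rw [e, gPt, Point.some.injEq] at hR
    exact notMem_range_of_ord (by rw [ord_xF]; norm_num) (xF_ne_zero W) ⟨c, hR.1⟩

omit [IsAlgClosed k] in
lemma gPt_add_notMem_range (R : W.Point) : gPt W + cst W R ∉ (cst W).range := fun h =>
  gPt_notMem_range (by simpa using sub_mem h ((cst W).mem_range.mpr ⟨R, rfl⟩))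

variable (W) in
/-- The translation of the function field by a point. -/
noncomputable def transl (R : W.Point) : FF →ₐ[k] FF :=
  (exists_pointHom (gPt_add_notMem_range R)).choose

lemma map_transl (R : W.Point) : Point.map (transl W R) (gPt W) = gPt W + cst W R :=
  (exists_pointHom (gPt_add_notMem_range R)).choose_spec

lemma transl_transl (R P : W.Point) (f : FF) :
    transl W R (transl W P f) = transl W (R + P) f := by
  have : (transl W R).comp (transl W P) = transl W (R + P) := algHom_ext_gPt (by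
    rw [← Point.map_map, map_transl, map_transl, map_add, map_transl, map_cst, map_add]
    abel)
  exact congr($this f)

lemma transl_zero (f : FF) : transl W 0 f = f := by
  have : transl W 0 = AlgHom.id k FF := algHom_ext_gPt (by
    rw [map_transl, map_zero, add_zero, gPt, Point.map_some]; rfl)
  exact congr($this f)

/-- The order of a function at a point. -/
noncomputable def ordAt (R : W.Point) (f : FF) : ℤ := ord (transl W R f)

lemma ordAt_zero (f : FF) : ordAt (0 : W.Point) f = ord f := by rw [ordAt, transl_zero]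

lemma ordAt_transl (R P : W.Point) (f : FF) : ordAt R (transl W P f) = ordAt (R + P) f := by
  rw [ordAt, transl_transl, ordAt]

lemma ordAt_mul (R : W.Point) {f g : FF} (hf : f ≠ 0) (hg : g ≠ 0) :
    ordAt R (f * g) = ordAt R f + ordAt R g := by
  rw [ordAt, map_mul, ord_mul ((_root_.map_ne_zero _).mpr hf) ((_root_.map_ne_zero _).mpr hg)]; rfl

lemma ordAt_div (R : W.Point) {f g : FF} (hf : f ≠ 0) (hg : g ≠ 0) :
    ordAt R (f / g) = ordAt R f - ordAt R g := by
  rw [ordAt, map_div₀,
    ord_div_eq ((_root_.map_ne_zero _).mpr hf) ((_root_.map_ne_zero _).mpr hg)]; rfl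

lemma ordAt_prod (R : W.Point) {ι : Type*} (s : Finset ι) (f : ι → FF) (hf : ∀ i ∈ s, f i ≠ 0) :
    ordAt R (∏ i ∈ s, f i) = ∑ i ∈ s, ordAt R (f i) := by
  rw [ordAt, map_prod, ord_prod _ _ fun i hi => (_root_.map_ne_zero _).mpr (hf i hi)]; rfl

lemma ordAt_one (R : W.Point) : ordAt R (1 : FF) = 0 := by rw [ordAt, map_one, ord_one]

section MulHom

variable {n : ℕ}

omit [IsAlgClosed k] [W.IsElliptic] [DecidableEq k] [DecidableEq W.FunctionField] in
lemma eval_baseChange_ΨSq (n : ℤ) (z : FF) :
    (WeierstrassCurve.ΨSq (W⁄FF) n).eval z = aeval z (WeierstrassCurve.ΨSq W n) := by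
  rw [show (W⁄FF) = WeierstrassCurve.map W (algebraMap k FF) from rfl,
    WeierstrassCurve.map_ΨSq, eval_map, ← aeval_def]

omit [IsAlgClosed k] [W.IsElliptic] [DecidableEq k] [DecidableEq W.FunctionField] in
lemma eval_baseChange_Φ (n : ℤ) (z : FF) :
    (WeierstrassCurve.Φ (W⁄FF) n).eval z = aeval z (WeierstrassCurve.Φ W n) := by
  rw [show (W⁄FF) = WeierstrassCurve.map W (algebraMap k FF) from rfl,
    WeierstrassCurve.map_Φ, eval_map, ← aeval_def]

omit [IsAlgClosed k] [DecidableEq k] in
lemma nsmul_gPt_ne_zero (hn : (n : k) ≠ 0) : n • gPt W ≠ 0 := by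
  rw [gPt, Ne, nsmul_some_eq_zero_iff, eval_baseChange_ΨSq]
  exact (ord_aeval_xF W (WeierstrassCurve.ΨSq_ne_zero W (by exact_mod_cast hn))).2

lemma nsmul_gPt_notMem_range (hn : (n : k) ≠ 0) : n • gPt W ∉ (cst W).range := by
  rintro ⟨S, hS⟩
  obtain ⟨S', rfl⟩ := nsmul_surjective W (n := n) (fun h => hn (by rw [h, Nat.cast_zero])) S
  have e : n • (gPt W + cst W (-S')) = 0 := by
    rw [nsmul_add, ← hS, map_neg, neg_nsmul, map_nsmul, add_neg_cancel]
  rw [← map_transl, ← map_nsmul] at e
  exact nsmul_gPt_ne_zero hn (Point.map_injective _ (e.trans (map_zero _).symm))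

variable (W) in
/-- Pullback by multiplication by `n`. -/
noncomputable def mulHom (hn : (n : k) ≠ 0) : FF →ₐ[k] FF :=
  (exists_pointHom (nsmul_gPt_notMem_range hn)).choose

lemma map_mulHom (hn : (n : k) ≠ 0) : Point.map (mulHom W hn) (gPt W) = n • gPt W :=
  (exists_pointHom (nsmul_gPt_notMem_range hn)).choose_spec

lemma transl_mulHom (hn : (n : k) ≠ 0) (R : W.Point) (f : FF) :
    transl W R (mulHom W hn f) = mulHom W hn (transl W (n • R) f) := by
  have : (transl W R).comp (mulHom W hn) = (mulHom W hn).comp (transl W (n • R)) :=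
    algHom_ext_gPt (by
      rw [← Point.map_map, ← Point.map_map, map_mulHom, map_nsmul, map_transl, map_transl,
        map_add, map_mulHom, map_cst, map_nsmul, nsmul_add])
  exact congr($this f)

lemma ord_mulHom_xF (hn : (n : k) ≠ 0) : ord (mulHom W hn (xF W)) = -2 := by
  have h := map_mulHom (W := W) hn
  rw [gPt, Point.map_some] at h
  have hx := nsmul_some_X (nonsingular_xF_yF (W := W)) n h.symm
  rw [eval_baseChange_ΨSq, eval_baseChange_Φ] at hx
  have hS := ord_aeval_xF W (WeierstrassCurve.ΨSq_ne_zero W (n := (n : ℤ)) (by exact_mod_cast hn))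
  have hΦ := ord_aeval_xF W (WeierstrassCurve.Φ_ne_zero W (n : ℤ))
  rw [WeierstrassCurve.natDegree_ΨSq W (by exact_mod_cast hn), Int.natAbs_natCast] at hS
  rw [WeierstrassCurve.natDegree_Φ, Int.natAbs_natCast] at hΦ
  have hne : mulHom W hn (xF W) ≠ 0 := (_root_.map_ne_zero _).mpr (xF_ne_zero W)
  have := congrArg ord hx
  rw [ord_mul hne hS.2, hΦ.1, hS.1] at this
  have hn1 : 1 ≤ n ^ 2 := Nat.one_le_pow _ _ (Nat.pos_of_ne_zero fun h => hn (by simp [h]))
  push_cast [Nat.cast_sub hn1] at this
  linarith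

end MulHom

omit [W.IsElliptic] [DecidableEq k] [DecidableEq W.FunctionField] in
/-- An endomorphism sending `x` to a function with a double pole at infinity preserves the order
at infinity. -/
lemma ord_algHom_of_ord_xF {φ : FF →ₐ[k] FF} (hx : ord (φ (xF W)) = -2) (f : FF) :
    ord (φ f) = ord f := by
  set a := φ (xF W)
  set b := φ (yF W)
  have ha : a ≠ 0 := (_root_.map_ne_zero _).mpr (xF_ne_zero W)
  have haeval : ∀ (a : FF), a ≠ 0 → ord a = -2 → ∀ p : k[X], p ≠ 0 →
      aeval a p ≠ 0 ∧ ord (aeval a p) = -2 * (p.natDegree : ℤ) := by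
    intro a ha hoa p hp
    have hT := notMem_range_of_ord (f := a) (by omega) ha
    refine ⟨aeval_ne_zero hT hp, ?_⟩
    have key : ∀ s : Multiset k,
        aeval a (s.map fun r => X - C r).prod ≠ 0 ∧
          ord (aeval a (s.map fun r => X - C r).prod) = -2 * (Multiset.card s : ℤ) := by
      intro s
      induction s using Multiset.induction_on with
      | empty => simp [ord_one]
      | cons r s ih =>
        have h1 := ord_add_eq_left ha
          ((ordGE_const r).neg.mono (by omega : ord a + 1 ≤ 0))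
        rw [← sub_eq_add_neg] at h1
        rw [Multiset.map_cons, Multiset.prod_cons, map_mul, map_sub, aeval_X, aeval_C,
          Multiset.card_cons]
        refine ⟨mul_ne_zero h1.1 ih.1, ?_⟩
        rw [ord_mul h1.1 ih.1, h1.2, hoa, ih.2]
        push_cast
        ring
    have hsp := IsAlgClosed.splits p
    conv_lhs => rw [hsp.eq_prod_roots, map_mul, aeval_C]
    rw [ord_mul ((_root_.map_ne_zero _).mpr (leadingCoeff_ne_zero.mpr hp)) (key _).1,
      ord_const (leadingCoeff_ne_zero.mpr hp), (key _).2, hsp.natDegree_eq_card_roots, zero_add]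
  have hb : b ≠ 0 := (_root_.map_ne_zero _).mpr (yF_ne_zero W)
  have hob : ord b = -3 := by
    have he0 := congrArg φ ((equation_iff ..).mp (equation_xF_yF W))
    simp only [baseChange, WeierstrassCurve.baseChange, WeierstrassCurve.map, map_add, map_mul,
      map_pow, AlgHom.commutes] at he0
    change b ^ 2 + algebraMap k FF W.a₁ * a * b + algebraMap k FF W.a₃ * b =
      a ^ 3 + algebraMap k FF W.a₂ * a ^ 2 + algebraMap k FF W.a₄ * a + algebraMap k FF W.a₆
      at he0
    have ga : OrdGE (-2) a := Or.inr hx.ge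
    have r1 : OrdGE (-5) (algebraMap k FF W.a₂ * a ^ 2 + algebraMap k FF W.a₄ * a +
        algebraMap k FF W.a₆) := by
      refine (OrdGE.add (OrdGE.add ?_ ?_) ?_)
      · rw [sq]; exact ((ordGE_const _).mul (ga.mul ga)).mono (by norm_num)
      · exact ((ordGE_const _).mul ga).mono (by norm_num)
      · exact (ordGE_const _).mono (by norm_num)
    have h3 : ord (a ^ 3) = -6 := by rw [ord_pow ha, hx]; rfl
    obtain ⟨hR0, hR⟩ := ord_add_eq_left (pow_ne_zero 3 ha) (f := a ^ 3)
      (r1.mono (by omega))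
    rw [h3, ← add_assoc, ← add_assoc, ← he0] at hR
    have hne : b ^ 2 + algebraMap k FF W.a₁ * a * b + algebraMap k FF W.a₃ * b ≠ 0 := by
      rw [he0, add_assoc, add_assoc]; rwa [← add_assoc (algebraMap k FF W.a₂ * a ^ 2)]
    rw [add_assoc] at hR hne
    have gb : OrdGE (ord b) b := ordGE_self b
    have l1 : OrdGE (ord b - 2) (algebraMap k FF W.a₁ * a * b + algebraMap k FF W.a₃ * b) :=
      ((((ordGE_const _).mul ga).mul gb).mono (by omega)).add
        (((ordGE_const _).mul gb).mono (by omega))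
    rcases le_or_gt (ord b) (-3) with hle | hlt
    · have := (ord_add_eq_left (pow_ne_zero 2 hb) (l1.mono
        (by rw [ord_pow hb]; push_cast; omega))).2
      rw [hR, ord_pow hb] at this
      push_cast at this
      omega
    · exfalso
      have : OrdGE (-4) (b ^ 2 + (algebraMap k FF W.a₁ * a * b + algebraMap k FF W.a₃ * b)) :=
        OrdGE.add (Or.inr (by rw [ord_pow hb]; push_cast; omega)) (l1.mono (by omega))
      have := this.le hne
      omega
  -- compare on the coordinate ring
  have key : ∀ z : 𝔸, z ≠ 0 → ord (φ (algebraMap 𝔸 FF z)) = ord (algebraMap 𝔸 FF z) := by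
    classical
    intro z hz
    obtain ⟨p, q, rfl⟩ := CoordinateRing.exists_smul_basis_eq z
    have e : algebraMap 𝔸 FF (p • (1 : 𝔸) + q • CoordinateRing.mk W X) =
        aeval (xF W) p + aeval (xF W) q * yF W := by
      rw [CoordinateRing.smul, CoordinateRing.smul, mul_one, map_add, map_mul, algebraMap_mk_C,
        algebraMap_mk_C]
      rfl
    rw [e, map_add, map_mul, ← aeval_algHom_apply, ← aeval_algHom_apply]
    change ord (aeval a p + aeval a q * b) = ord (aeval (xF W) p + aeval (xF W) q * yF W)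
    have hboth : ∀ a' b' : FF, a' ≠ 0 → ord a' = -2 → b' ≠ 0 → ord b' = -3 →
        ord (aeval a' p + aeval a' q * b') =
          if p = 0 then -2 * (q.natDegree : ℤ) - 3
          else if q = 0 then -2 * (p.natDegree : ℤ)
          else min (-2 * (p.natDegree : ℤ)) (-2 * (q.natDegree : ℤ) - 3) := by
      intro a' b' ha' hoa' hb' hob'
      split_ifs with hp hq
      · have hq : q ≠ 0 := by rintro rfl; simp [hp] at hz
        obtain ⟨h1, h2⟩ := haeval a' ha' hoa' q hq
        rw [hp, map_zero, zero_add, ord_mul h1 hb', h2, hob']; ring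
      · rw [hq, map_zero, zero_mul, add_zero, (haeval a' ha' hoa' p hp).2]
      · obtain ⟨h1, h2⟩ := haeval a' ha' hoa' q hq
        obtain ⟨h3, h4⟩ := haeval a' ha' hoa' p hp
        have h5 : ord (aeval a' q * b') = -2 * (q.natDegree : ℤ) - 3 := by
          rw [ord_mul h1 hb', h2, hob']; ring
        rcases lt_or_gt_of_ne (show -2 * (p.natDegree : ℤ) ≠ -2 * (q.natDegree : ℤ) - 3 by omega)
          with hlt | hlt
        · rw [(ord_add_eq_left h3 (Or.inr (by omega))).2, h4, min_eq_left hlt.le]
        · rw [add_comm, (ord_add_eq_left (mul_ne_zero h1 hb') (Or.inr (by omega))).2, h5,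
            min_eq_right hlt.le]
    rw [hboth a b ha hx hb hob, hboth _ _ (xF_ne_zero W) (ord_xF W) (yF_ne_zero W) (ord_yF W)]
  rcases eq_or_ne f 0 with rfl | hf
  · rw [map_zero]
  obtain ⟨c, d, hc, hd, rfl⟩ := exists_eq_div hf
  rw [map_div₀, ord_div_eq ((_root_.map_ne_zero _).mpr (algebraMap_ne_zero hc))
    ((_root_.map_ne_zero _).mpr (algebraMap_ne_zero hd)), key c hc, key d hd,
    ord_div_eq (algebraMap_ne_zero hc) (algebraMap_ne_zero hd)]

lemma ord_mulHom {n : ℕ} (hn : (n : k) ≠ 0) (f : FF) : ord (mulHom W hn f) = ord f :=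
  ord_algHom_of_ord_xF (ord_mulHom_xF hn) f

lemma ordAt_mulHom {n : ℕ} (hn : (n : k) ≠ 0) (R : W.Point) (f : FF) :
    ordAt R (mulHom W hn f) = ordAt (n • R) f := by
  rw [ordAt, transl_mulHom, ord_mulHom, ordAt]

end FLTAgent.ECTorsion.Weil
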