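import Fermat.Agent.ECTorsion.Generic
import Mathlib.RingTheory.MvPolynomial.Basic
import Mathlib.RingTheory.Localization.FractionRing

/-!
# The universal pointed Weierstrass curve

Every pointed curve is a specialisation of `univCurve` (`exists_specialization`), so the relations
of `Generic` hold at every point (`psiVal_invariant`, `psiVal_duplication`).
-/

set_option autoImplicit false

open WeierstrassCurve

namespace FLTAgent.ECTorsion

universe u

/-- `ℤ[a₁, a₂, a₃, a₄, x, y]`. -/
abbrev UnivRing : Type := MvPolynomial (Fin 6) ℤ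

/-- The field of fractions of `ℤ[a₁, a₂, a₃, a₄, x, y]`. -/
abbrev UnivField : Type := FractionRing UnivRing

/-- The universal `x`. -/
noncomputable def univX : UnivRing := MvPolynomial.X 4

/-- The universal `y`. -/
noncomputable def univY : UnivRing := MvPolynomial.X 5

/-- The universal Weierstrass curve through `(x, y)`. -/
noncomputable def univCurve : WeierstrassCurve UnivRing where
  a₁ := MvPolynomial.X 0
  a₂ := MvPolynomial.X 1
  a₃ := MvPolynomial.X 2
  a₄ := MvPolynomial.X 3
  a₆ := univY ^ 2 + MvPolynomial.X 0 * univX * univY + MvPolynomial.X 2 * univY -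
    univX ^ 3 - MvPolynomial.X 1 * univX ^ 2 - MvPolynomial.X 3 * univX

lemma univ_equation : univCurve.toAffine.Equation univX univY := by
  rw [Affine.equation_iff]
  simp only [univCurve]
  ring

/-- Every pointed curve is a specialisation of the universal one. -/
lemma exists_specialization {R : Type u} [CommRing R] {W : WeierstrassCurve R} {x y : R}
    (h : W.toAffine.Equation x y) :
    ∃ f : UnivRing →+* R, univCurve.map f = W ∧ f univX = x ∧ f univY = y := by
  refine ⟨MvPolynomial.eval₂Hom (Int.castRingHom R) ![W.a₁, W.a₂, W.a₃, W.a₄, x, y], ?_,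
    by simp [univX], by simp [univY]⟩
  rw [Affine.equation_iff] at h
  ext <;> simp [univCurve, univX, univY]
  linear_combination h

lemma univ_psi2_ne_zero : psi2 univCurve univX univY ≠ 0 := by
  intro h
  have := congrArg (MvPolynomial.eval ![0, 0, 0, 0, (0 : ℤ), 1]) h
  simp [psi2, univCurve, univX, univY] at this

lemma univ_psiVal_ne_zero {n : ℤ} (hn : n ≠ 0) : psiVal univCurve univX univY n ≠ 0 := by
  intro h
  let W₀ : WeierstrassCurve ℤ := ⟨0, 0, 0, 0, 0⟩
  have heq : (W₀.map (Polynomial.C : ℤ →+* Polynomial ℤ)).toAffine.Equation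
      (Polynomial.X ^ 2) (Polynomial.X ^ 3) := by
    rw [Affine.equation_iff]; simp [W₀]; ring
  obtain ⟨f, hf, hx, hy⟩ := exists_specialization heq
  have h0 := congrArg f h
  rw [map_zero, ← map_psiVal, hf, hx, hy, psiVal_eq_eval heq, map_preΨ,
    Polynomial.eval_map, ← Polynomial.comp.eq_1] at h0
  rcases mul_eq_zero.mp h0 with h1 | h1
  · rcases Polynomial.comp_eq_zero_iff.mp h1 with h2 | ⟨-, h2⟩
    · exact W₀.preΨ_ne_zero hn h2
    · have := congrArg Polynomial.natDegree h2
      simp at this
  · split_ifs at h1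
    · have := congrArg (fun q : Polynomial ℤ => q.coeff 3) h1
      simp [psi2, W₀] at this
    · exact one_ne_zero h1

section UnivFieldFacts

local notation "Wu" => univCurve.map (algebraMap UnivRing UnivField)
local notation "xu" => algebraMap UnivRing UnivField univX
local notation "yu" => algebraMap UnivRing UnivField univY

lemma univField_two_ne_zero : (2 : UnivField) ≠ 0 := by
  rw [← map_ofNat (algebraMap UnivRing UnivField) 2]
  exact fun h =>
    two_ne_zero (IsFractionRing.injective UnivRing UnivField (h.trans (map_zero _).symm))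

lemma univField_psi2_ne_zero : psi2 Wu xu yu ≠ 0 := by
  rw [map_psi2]
  exact (map_ne_zero_iff _ (IsFractionRing.injective UnivRing UnivField)).mpr univ_psi2_ne_zero

lemma univField_psiVal_ne_zero {n : ℤ} (hn : n ≠ 0) : psiVal Wu xu yu n ≠ 0 := by
  rw [map_psiVal]
  exact (map_ne_zero_iff _ (IsFractionRing.injective UnivRing UnivField)).mpr
    (univ_psiVal_ne_zero hn)

lemma univField_nonsingular : (Wu).toAffine.Nonsingular xu yu := by
  rw [Affine.nonsingular_iff]
  refine ⟨Affine.Equation.map _ univ_equation, Or.inr fun h => univField_psi2_ne_zero ?_⟩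
  simp only [psi2]
  linear_combination h

/-- The invariant relation between five consecutive division values, in the universal field. -/
lemma univField_invariant {m : ℕ} (hm : 1 ≤ m) :
    psiVal Wu xu yu ((m : ℤ) + 2) * psiVal Wu xu yu ((m : ℤ) - 1) ^ 2 +
      psiVal Wu xu yu ((m : ℤ) - 2) * psiVal Wu xu yu ((m : ℤ) + 1) ^ 2 +
      psi2 Wu xu yu ^ 2 * psiVal Wu xu yu m ^ 3 =
    halfDer Wu xu * psiVal Wu xu yu ((m : ℤ) - 1) * psiVal Wu xu yu m *
      psiVal Wu xu yu ((m : ℤ) + 1) := by
  classical
  exact invariant_of_ne_zero univField_nonsingular univField_two_ne_zero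
    (fun k hk => univField_psiVal_ne_zero (by omega)) hm

/-- The duplication of division values, in the universal field. -/
lemma univField_duplication {m : ℕ} (hm : 1 ≤ m) :
    phiVal Wu xu yu (2 * m) = phiVal Wu xu yu m ^ 4
        - (Wu).b₄ * phiVal Wu xu yu m ^ 2 * (psiVal Wu xu yu m ^ 2) ^ 2
        - 2 * (Wu).b₆ * phiVal Wu xu yu m * (psiVal Wu xu yu m ^ 2) ^ 3
        - (Wu).b₈ * (psiVal Wu xu yu m ^ 2) ^ 4 ∧
      psiVal Wu xu yu (2 * m) ^ 2 = 4 * phiVal Wu xu yu m ^ 3 * psiVal Wu xu yu m ^ 2
        + (Wu).b₂ * phiVal Wu xu yu m ^ 2 * (psiVal Wu xu yu m ^ 2) ^ 2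
        + 2 * (Wu).b₄ * phiVal Wu xu yu m * (psiVal Wu xu yu m ^ 2) ^ 3
        + (Wu).b₆ * (psiVal Wu xu yu m ^ 2) ^ 4 := by
  classical
  exact duplication_of_ne_zero univField_nonsingular univField_two_ne_zero
    (fun k hk => univField_psiVal_ne_zero (by omega)) hm

end UnivFieldFacts

variable {R : Type u} [CommRing R] {W : WeierstrassCurve R} {x y : R}

/-- The invariant relation between five consecutive division values. -/
theorem psiVal_invariant (h : W.toAffine.Equation x y) {m : ℕ} (hm : 1 ≤ m) :
    psiVal W x y ((m : ℤ) + 2) * psiVal W x y ((m : ℤ) - 1) ^ 2 +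
      psiVal W x y ((m : ℤ) - 2) * psiVal W x y ((m : ℤ) + 1) ^ 2 +
      psi2 W x y ^ 2 * psiVal W x y m ^ 3 =
    halfDer W x * psiVal W x y ((m : ℤ) - 1) * psiVal W x y m * psiVal W x y ((m : ℤ) + 1) := by
  obtain ⟨f, rfl, rfl, rfl⟩ := exists_specialization h
  have := univField_invariant hm
  simp only [map_psi2, map_psiVal, map_halfDer, ← map_mul, ← map_pow, ← map_add] at this
  simp only [map_psi2, map_psiVal, map_halfDer, ← map_mul, ← map_pow, ← map_add]
  rw [IsFractionRing.injective UnivRing UnivField this]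

/-- The duplication identities for division values. -/
theorem psiVal_duplication (h : W.toAffine.Equation x y) {m : ℕ} (hm : 1 ≤ m) :
    phiVal W x y (2 * m) = phiVal W x y m ^ 4
        - W.b₄ * phiVal W x y m ^ 2 * (psiVal W x y m ^ 2) ^ 2
        - 2 * W.b₆ * phiVal W x y m * (psiVal W x y m ^ 2) ^ 3
        - W.b₈ * (psiVal W x y m ^ 2) ^ 4 ∧
      psiVal W x y (2 * m) ^ 2 = 4 * phiVal W x y m ^ 3 * psiVal W x y m ^ 2
        + W.b₂ * phiVal W x y m ^ 2 * (psiVal W x y m ^ 2) ^ 2
        + 2 * W.b₄ * phiVal W x y m * (psiVal W x y m ^ 2) ^ 3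
        + W.b₆ * (psiVal W x y m ^ 2) ^ 4 := by
  obtain ⟨f, rfl, rfl, rfl⟩ := exists_specialization h
  have := univField_duplication hm
  rw [← map_ofNat (algebraMap UnivRing UnivField) 2,
    ← map_ofNat (algebraMap UnivRing UnivField) 4] at this
  simp only [map_psiVal, map_phiVal, map_b₂, map_b₄, map_b₆, map_b₈, ← map_mul, ← map_pow,
    ← map_add, ← map_sub] at this
  rw [← map_ofNat f 2, ← map_ofNat f 4]
  simp only [map_psiVal, map_phiVal, map_b₂, map_b₄, map_b₆, map_b₈, ← map_mul, ← map_pow,
    ← map_add, ← map_sub]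
  exact ⟨congrArg f (IsFractionRing.injective UnivRing UnivField this.1),
    congrArg f (IsFractionRing.injective UnivRing UnivField this.2)⟩

end FLTAgent.ECTorsion
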