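import Fermat.Agent.ECTorsion.Formulas
import Mathlib.AlgebraicGeometry.EllipticCurve.DivisionPolynomial.Degree

/-!
# Values of division polynomials at a pair `(x, y)`

`psiVal` and `phiVal` are defined by the elliptic divisibility recursion. They commute with ring
maps and equal the evaluations of Mathlib's division polynomials on the curve (`psiVal_sq`,
`phiVal_eq_eval`).
-/

set_option autoImplicit false

open Polynomial WeierstrassCurve

namespace FLTAgent.ECTorsion

universe u v

variable {R : Type u} [CommRing R] (W : WeierstrassCurve R)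

/-- The value at `(x, y)` of the `n`-th division polynomial. -/
def psiVal (x y : R) (n : ℤ) : R := normEDS (psi2 W x y) (psi3 W x) (prePsi4 W x) n

/-- The value at `(x, y)` of `φₙ = xψₙ² - ψₙ₊₁ψₙ₋₁`. -/
def phiVal (x y : R) (n : ℤ) : R :=
  x * psiVal W x y n ^ 2 - psiVal W x y (n + 1) * psiVal W x y (n - 1)

variable {W} {x y : R}

@[simp] lemma psiVal_zero : psiVal W x y 0 = 0 := normEDS_zero ..
@[simp] lemma psiVal_one : psiVal W x y 1 = 1 := normEDS_one ..
@[simp] lemma psiVal_two : psiVal W x y 2 = psi2 W x y := normEDS_two ..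
@[simp] lemma psiVal_three : psiVal W x y 3 = psi3 W x := normEDS_three ..
@[simp] lemma psiVal_four : psiVal W x y 4 = prePsi4 W x * psi2 W x y := normEDS_four ..
@[simp] lemma psiVal_neg (n : ℤ) : psiVal W x y (-n) = -psiVal W x y n := normEDS_neg ..

lemma psiVal_even (m : ℤ) : psiVal W x y (2 * m) * psi2 W x y =
    psiVal W x y (m - 1) ^ 2 * psiVal W x y m * psiVal W x y (m + 2) -
      psiVal W x y (m - 2) * psiVal W x y m * psiVal W x y (m + 1) ^ 2 :=
  normEDS_even ..

lemma psiVal_odd (m : ℤ) : psiVal W x y (2 * m + 1) =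
    psiVal W x y (m + 2) * psiVal W x y m ^ 3 -
      psiVal W x y (m - 1) * psiVal W x y (m + 1) ^ 3 :=
  normEDS_odd ..

lemma psiVal_two_mul_dvd (m : ℤ) : psiVal W x y m ∣ psiVal W x y (2 * m) :=
  normEDS_dvd_normEDS_two_mul ..

lemma psiVal_two_mul_of_eq_zero (h : psi2 W x y = 0) (m : ℤ) : psiVal W x y (2 * m) = 0 := by
  simp [psiVal, normEDS, h]

section Map

variable {S : Type v} [CommRing S] (f : R →+* S)

lemma map_psi2 : psi2 (W.map f) (f x) (f y) = f (psi2 W x y) := by
  simp [psi2, map_ofNat]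

lemma map_halfDer : halfDer (W.map f) (f x) = f (halfDer W x) := by
  simp [halfDer, map_ofNat]

lemma map_psi3 : psi3 (W.map f) (f x) = f (psi3 W x) := by
  simp [psi3, map_ofNat]

lemma map_prePsi4 : prePsi4 (W.map f) (f x) = f (prePsi4 W x) := by
  simp [prePsi4, map_ofNat]

lemma map_psiVal (n : ℤ) : psiVal (W.map f) (f x) (f y) n = f (psiVal W x y n) := by
  simp [psiVal, map_psi2, map_psi3, map_prePsi4]

lemma map_phiVal (n : ℤ) : phiVal (W.map f) (f x) (f y) n = f (phiVal W x y n) := by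
  simp [phiVal, map_psiVal]

end Map

lemma eval_preΨ (h : W.toAffine.Equation x y) (n : ℤ) :
    (W.preΨ n).eval x = preNormEDS (psi2 W x y ^ 4) (psi3 W x) (prePsi4 W x) n := by
  rw [WeierstrassCurve.preΨ, ← coe_evalRingHom, map_preNormEDS, coe_evalRingHom, eval_pow,
    eval_Ψ₂Sq, eval_Ψ₃, eval_preΨ₄, ← psi2_sq h, ← pow_mul]

lemma psiVal_eq_eval (h : W.toAffine.Equation x y) (n : ℤ) :
    psiVal W x y n = (W.preΨ n).eval x * if Even n then psi2 W x y else 1 := by
  rw [psiVal, normEDS, eval_preΨ h]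

lemma psiVal_eq_eval_of_odd (h : W.toAffine.Equation x y) {n : ℤ} (hn : ¬ Even n) :
    psiVal W x y n = (W.preΨ n).eval x := by
  rw [psiVal_eq_eval h, if_neg hn, mul_one]

lemma psiVal_sq (h : W.toAffine.Equation x y) (n : ℤ) :
    psiVal W x y n ^ 2 = (W.ΨSq n).eval x := by
  rw [psiVal_eq_eval h, WeierstrassCurve.ΨSq]
  split_ifs
  · rw [mul_pow, psi2_sq h, eval_mul, eval_pow, eval_Ψ₂Sq]
  · simp

lemma phiVal_eq_eval (h : W.toAffine.Equation x y) (n : ℤ) :
    phiVal W x y n = (W.Φ n).eval x := by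
  rw [phiVal, psiVal_sq h, psiVal_eq_eval h (n + 1), psiVal_eq_eval h (n - 1), WeierstrassCurve.Φ]
  simp only [Int.even_add_one, Int.even_sub_one, eval_sub, eval_mul, eval_X, ite_not]
  split_ifs
  · simp
  · rw [eval_Ψ₂Sq, ← psi2_sq h]
    ring

end FLTAgent.ECTorsion
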