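import Fermat.Agent.ECTorsion.Divisor
import Mathlib.LinearAlgebra.Dual.Lemmas
import Mathlib.FieldTheory.Fixed
import Mathlib.FieldTheory.IntermediateField.Adjoin.Basic

/-!
# The Weil pairing `e(P, Q) = (σ_P g_Q) / g_Q`

`g_Q = weilFun` has divisor `[n]^*((Q) - (0))`. The pairing `weilPairing` is bilinear, alternating
(`weilPairing_self`) and non-degenerate (`weilPairing_nondegenerate`).
-/

set_option autoImplicit false

open Polynomial WeierstrassCurve.Affine
open scoped WeierstrassCurve.Affine

namespace FLTAgent.ECTorsion.Weil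

universe u

variable {k : Type u} [Field k] [IsAlgClosed k] [DecidableEq k] {W : WeierstrassCurve.Affine k}
  [W.IsElliptic] [DecidableEq W.FunctionField]

local notation "𝔸" => W.CoordinateRing
local notation "FF" => W.FunctionField
local notation "ι" => algebraMap W.CoordinateRing W.FunctionField

/-- A function without zeros or poles is constant. -/
lemma eq_const_of_ordAt_eq_zero {f : FF} (hf : f ≠ 0) (h : ∀ R : W.Point, ordAt R f = 0) :
    ∃ a : k, a ≠ 0 ∧ f = algebraMap k FF a :=
  exists_eq_const hf (fun R _ => (h R).ge) (by rw [← ordAt_zero (W := W), h 0]; norm_num)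

variable {n : ℕ}

/-- A function with divisor `[n]^*((Q) - (0))`. -/
lemma exists_weilFun (hn : (n : k) ≠ 0) {Q : W.Point} (hQ : n • Q = 0) :
    ∃ g : FF, g ≠ 0 ∧ ∀ R : W.Point, ordAt R g = δ (n • R) Q - δ (n • R) 0 := by
  classical
  have hn0 : n ≠ 0 := fun h => hn (by rw [h, Nat.cast_zero])
  have : Finite {P : W.Point // n • P = 0} :=
    Nat.finite_of_card_ne_zero (by rw [card_nsmul_eq_zero W hn]; exact pow_ne_zero 2 hn0)
  obtain ⟨T, hT⟩ := nsmul_surjective W hn0 Q
  simp only at hT
  have hfinite : {P : W.Point | n • P = 0}.Finite := Set.finite_coe_iff.mp this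
  let S₀ : Finset W.Point := hfinite.toFinset
  let S₁ : Finset W.Point := S₀.map ⟨(T + ·), add_right_injective T⟩
  have hmem₀ : ∀ R, R ∈ S₀ ↔ n • R = 0 := fun R => Set.Finite.mem_toFinset _
  have hmem₁ : ∀ R, R ∈ S₁ ↔ n • R = Q := fun R => by
    simp only [S₁, Finset.mem_map, Function.Embedding.coeFn_mk]
    constructor
    · rintro ⟨P, hP, rfl⟩
      rw [nsmul_add, (hmem₀ P).mp hP, add_zero, hT]
    · intro hR
      exact ⟨R - T, (hmem₀ _).mpr (by rw [nsmul_sub, hR, hT, sub_self]), add_sub_cancel T R⟩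
  have hcard : S₀.card = n ^ 2 := by
    rw [← card_nsmul_eq_zero W hn]
    exact (Nat.card_eq_card_finite_toFinset hfinite).symm
  have hcard₁ : S₁.card = S₀.card := Finset.card_map _
  have hsum : S₁.val.sum = S₀.val.sum := by
    rw [Finset.sum_val, Finset.sum_val, Finset.sum_map]
    simp only [Function.Embedding.coeFn_mk, id]
    have key : n ^ 2 • T = 0 := by rw [sq, mul_nsmul, hT, hQ]
    refine (Finset.sum_add_distrib (f := fun _ => T) (g := fun x => x)).trans ?_
    rw [Finset.sum_const, hcard, key, zero_add]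
  obtain ⟨f₀, hf₀, hd₀⟩ := exists_fun_of_multiset S₀.val
  obtain ⟨f₁, hf₁, hd₁⟩ := exists_fun_of_multiset S₁.val
  refine ⟨f₁ / f₀, div_ne_zero hf₁ hf₀, fun R => ?_⟩
  rw [ordAt_div R hf₁ hf₀, hd₀, hd₁, hsum, Finset.card_val, Finset.card_val, hcard₁,
    Multiset.count_eq_of_nodup S₀.nodup, Multiset.count_eq_of_nodup S₁.nodup]
  simp only [Finset.mem_val, hmem₀, hmem₁, δ]
  split_ifs <;> push_cast <;> ring

variable (W) in
open scoped Classical in
/-- A chosen function with divisor `[n]^*((Q) - (0))`. -/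
noncomputable def weilFun (hn : (n : k) ≠ 0) (Q : W.Point) : W.FunctionField :=
  if hQ : n • Q = 0 then (exists_weilFun hn hQ).choose else 1

lemma weilFun_spec (hn : (n : k) ≠ 0) {Q : W.Point} (hQ : n • Q = 0) :
    weilFun W hn Q ≠ 0 ∧
      ∀ R : W.Point, ordAt R (weilFun W hn Q) = δ (n • R) Q - δ (n • R) 0 := by
  rw [weilFun, dif_pos hQ]
  exact (exists_weilFun hn hQ).choose_spec

lemma exists_transl_eq_const_mul (_hn : (n : k) ≠ 0) {P : W.Point} (hP : n • P = 0) {Q : W.Point}
    {g : FF} (hg : g ≠ 0) (hd : ∀ R : W.Point, ordAt R g = δ (n • R) Q - δ (n • R) 0) :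
    ∃ a : k, a ≠ 0 ∧ transl W P g = algebraMap k FF a * g := by
  have hne : transl W P g ≠ 0 := (_root_.map_ne_zero _).mpr hg
  obtain ⟨a, ha, e⟩ := eq_const_of_ordAt_eq_zero (div_ne_zero hne hg) fun R => by
    rw [ordAt_div R hne hg, ordAt_transl, hd, hd, nsmul_add, hP, add_zero, sub_self]
  exact ⟨a, ha, by rw [← e, div_mul_cancel₀ _ hg]⟩

variable (W) in
open scoped Classical in
/-- The Weil pairing. -/
noncomputable def weilPairing (hn : (n : k) ≠ 0) (P Q : W.Point) : k :=
  if h : ∃ a : k, transl W P (weilFun W hn Q) = algebraMap k W.FunctionField a * weilFun W hn Q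
  then h.choose else 1

lemma transl_weilFun (hn : (n : k) ≠ 0) {P Q : W.Point} (hP : n • P = 0) (hQ : n • Q = 0) :
    transl W P (weilFun W hn Q) =
      algebraMap k FF (weilPairing W hn P Q) * weilFun W hn Q := by
  have h : ∃ a : k, transl W P (weilFun W hn Q) = algebraMap k FF a * weilFun W hn Q :=
    let ⟨a, _, ha⟩ := exists_transl_eq_const_mul hn hP (weilFun_spec hn hQ).1 (weilFun_spec hn hQ).2
    ⟨a, ha⟩
  rw [weilPairing, dif_pos h]
  exact h.choose_spec

/-- The pairing can be computed with any function with the right divisor. -/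
lemma weilPairing_eq (hn : (n : k) ≠ 0) {P Q : W.Point} (hP : n • P = 0) (hQ : n • Q = 0)
    {g : FF} (hg : g ≠ 0) (hd : ∀ R : W.Point, ordAt R g = δ (n • R) Q - δ (n • R) 0) {a : k}
    (ha : transl W P g = algebraMap k FF a * g) : weilPairing W hn P Q = a := by
  obtain ⟨hg0, hd0⟩ := weilFun_spec hn hQ
  obtain ⟨c, hc, e⟩ := eq_const_of_ordAt_eq_zero (div_ne_zero hg0 hg) fun R => by
    rw [ordAt_div R hg0 hg, hd, hd0, sub_self]
  rw [div_eq_iff hg] at e
  have h1 := transl_weilFun hn hP hQ
  rw [e, map_mul, AlgHom.commutes, ha] at h1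
  apply (algebraMap k FF).injective
  apply mul_right_cancel₀ (mul_ne_zero ((_root_.map_ne_zero (algebraMap k FF)).mpr hc) hg)
  linear_combination -h1

lemma weilPairing_add_left (hn : (n : k) ≠ 0) {P P' Q : W.Point} (hP : n • P = 0)
    (hP' : n • P' = 0) (hQ : n • Q = 0) :
    weilPairing W hn (P + P') Q = weilPairing W hn P Q * weilPairing W hn P' Q := by
  refine weilPairing_eq hn (by rw [nsmul_add, hP, hP', add_zero]) hQ (weilFun_spec hn hQ).1
    (weilFun_spec hn hQ).2 ?_
  rw [← transl_transl, transl_weilFun hn hP' hQ, map_mul, AlgHom.commutes,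
    transl_weilFun hn hP hQ, map_mul]
  ring

lemma weilPairing_zero_left (hn : (n : k) ≠ 0) {Q : W.Point} (hQ : n • Q = 0) :
    weilPairing W hn 0 Q = 1 :=
  weilPairing_eq hn (nsmul_zero n) hQ (weilFun_spec hn hQ).1 (weilFun_spec hn hQ).2
    (by rw [transl_zero, map_one, one_mul])

lemma weilPairing_nsmul_left (hn : (n : k) ≠ 0) {P Q : W.Point} (hP : n • P = 0) (hQ : n • Q = 0)
    (m : ℕ) : weilPairing W hn (m • P) Q = weilPairing W hn P Q ^ m := by
  induction m with
  | zero => rw [zero_nsmul, pow_zero, weilPairing_zero_left hn hQ]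
  | succ m ih =>
    rw [succ_nsmul, weilPairing_add_left hn (by rw [nsmul_left_comm, hP, nsmul_zero]) hP hQ, ih,
      pow_succ]

lemma weilPairing_pow (hn : (n : k) ≠ 0) {P Q : W.Point} (hP : n • P = 0) (hQ : n • Q = 0) :
    weilPairing W hn P Q ^ n = 1 := by
  rw [← weilPairing_nsmul_left hn hP hQ, hP, weilPairing_zero_left hn hQ]

lemma weilPairing_ne_zero (hn : (n : k) ≠ 0) {P Q : W.Point} (hP : n • P = 0) (hQ : n • Q = 0) :
    weilPairing W hn P Q ≠ 0 := fun h => by
  have := weilPairing_pow hn hP hQ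
  rw [h, zero_pow (fun h' => hn (by rw [h', Nat.cast_zero]))] at this
  exact zero_ne_one this

lemma weilPairing_add_right (hn : (n : k) ≠ 0) {P Q Q' : W.Point} (hP : n • P = 0)
    (hQ : n • Q = 0) (hQ' : n • Q' = 0) :
    weilPairing W hn P (Q + Q') = weilPairing W hn P Q * weilPairing W hn P Q' := by
  obtain ⟨hg, hd⟩ := weilFun_spec hn hQ
  obtain ⟨hg', hd'⟩ := weilFun_spec hn hQ'
  obtain ⟨r, hr, hdr⟩ := exists_miller Q Q'
  have hr' : mulHom W hn r ≠ 0 := (_root_.map_ne_zero _).mpr hr
  refine weilPairing_eq hn hP (by rw [nsmul_add, hQ, hQ', add_zero])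
    (g := weilFun W hn Q * weilFun W hn Q' / mulHom W hn r)
    (div_ne_zero (mul_ne_zero hg hg') hr') (fun R => ?_) ?_
  · rw [ordAt_div R (mul_ne_zero hg hg') hr', ordAt_mul R hg hg', hd, hd', ordAt_mulHom, hdr]
    ring
  · rw [map_div₀, map_mul, transl_weilFun hn hP hQ, transl_weilFun hn hP hQ', transl_mulHom, hP,
      transl_zero, map_mul]
    ring

lemma weilPairing_zero_right (hn : (n : k) ≠ 0) {P : W.Point} (hP : n • P = 0) :
    weilPairing W hn P 0 = 1 := by
  have h := weilPairing_add_right hn hP (nsmul_zero n) (nsmul_zero n)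
  rw [add_zero] at h
  exact mul_eq_left₀ (weilPairing_ne_zero hn hP (nsmul_zero n)) |>.mp h.symm

lemma weilPairing_nsmul_right (hn : (n : k) ≠ 0) {P Q : W.Point} (hP : n • P = 0)
    (hQ : n • Q = 0) (m : ℕ) : weilPairing W hn P (m • Q) = weilPairing W hn P Q ^ m := by
  induction m with
  | zero => rw [zero_nsmul, pow_zero, weilPairing_zero_right hn hP]
  | succ m ih =>
    rw [succ_nsmul, weilPairing_add_right hn hP (by rw [nsmul_left_comm, hQ, nsmul_zero]) hQ, ih,
      pow_succ]

/-- The pairing is alternating. -/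
theorem weilPairing_self (hn : (n : k) ≠ 0) {Q : W.Point} (hQ : n • Q = 0) :
    weilPairing W hn Q Q = 1 := by
  obtain ⟨hg, hd⟩ := weilFun_spec hn hQ
  obtain ⟨T, hT⟩ := nsmul_surjective W (n := n) (fun h => hn (by rw [h, Nat.cast_zero])) Q
  simp only at hT
  set g := weilFun W hn Q
  let H : FF := ∏ i ∈ Finset.range n, transl W (i • T) g
  have hne : ∀ i ∈ Finset.range n, transl W (i • T) g ≠ 0 := fun i _ =>
    (_root_.map_ne_zero _).mpr hg
  have hH : H ≠ 0 := Finset.prod_ne_zero_iff.mpr hne
  obtain ⟨a, -, ha⟩ := eq_const_of_ordAt_eq_zero hH fun R => by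
    rw [ordAt_prod R _ _ hne]
    simp only [ordAt_transl, hd, nsmul_add, smul_comm n, hT]
    have e : ∀ i : ℕ, δ (n • R + i • Q) Q - δ (n • R + i • Q) 0 =
        δ (n • R + i • Q - Q) 0 - δ (n • R + (i + 1) • Q - Q) 0 := fun i => by
      rw [succ_nsmul, ← add_assoc, add_sub_cancel_right]
      congr 1
      simp [δ, sub_eq_zero]
    simp only [e]
    rw [Finset.sum_range_sub' (fun i => δ (n • R + i • Q - Q) 0), zero_nsmul, hQ, sub_self]
  have hshift : transl W T H = H := by rw [ha, AlgHom.commutes]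
  refine weilPairing_eq hn hQ hQ hg hd (a := 1) ?_
  rw [map_one, one_mul]
  have h1 : transl W T H = ∏ i ∈ Finset.range n, transl W ((i + 1) • T) g := by
    rw [map_prod]
    exact Finset.prod_congr rfl fun i _ => by rw [transl_transl, succ_nsmul, add_comm]
  have h2 := Finset.prod_range_succ (fun i => transl W (i • T) g) n
  rw [Finset.prod_range_succ' (fun i => transl W (i • T) g) n, zero_nsmul, transl_zero, hT,
    ← h1, hshift] at h2
  exact mul_left_cancel₀ hH h2.symm

section Nondegenerate

open IntermediateField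

lemma exists_negHom : ∃ φ : FF →ₐ[k] FF, Point.map φ (gPt W) = -gPt W :=
  exists_pointHom fun h => gPt_notMem_range ((neg_mem_iff (x := gPt W)).mp h)

omit [IsAlgClosed k] [DecidableEq k] [DecidableEq W.FunctionField] in
lemma a_one_or_three_ne_zero (h2 : (2 : k) = 0) : W.a₁ ≠ 0 ∨ W.a₃ ≠ 0 := by
  by_contra h
  rw [not_or, not_not, not_not] at h
  refine (WeierstrassCurve.isUnit_Δ W).ne_zero ?_
  simp only [WeierstrassCurve.Δ, WeierstrassCurve.b₂, WeierstrassCurve.b₄, WeierstrassCurve.b₆,
    WeierstrassCurve.b₈, h.1, h.2]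
  linear_combination (-32 * W.a₂ ^ 3 * W.a₆ + 8 * W.a₂ ^ 2 * W.a₄ ^ 2 - 32 * W.a₄ ^ 3 -
    216 * W.a₆ ^ 2 + 144 * W.a₂ * W.a₄ * W.a₆) * h2

/-- The field of rational functions pulled back by `[n]` has degree at most `n²`. -/
lemma finrank_mulHom_le (hn : (n : k) ≠ 0) :
    FiniteDimensional (mulHom W hn).fieldRange FF ∧
      Module.finrank (mulHom W hn).fieldRange FF ≤ n ^ 2 := by
  set L := (mulHom W hn).fieldRange
  set a := mulHom W hn (xF W) with ha_def
  set b := mulHom W hn (yF W) with hb_def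
  have haL : a ∈ L := ⟨_, rfl⟩
  have hbL : b ∈ L := ⟨_, rfl⟩
  have hnat : n ≠ 0 := fun h => hn (by rw [h, Nat.cast_zero])
  -- `x` is a root of a monic polynomial of degree `n²` over `L`
  let P : L[X] := (WeierstrassCurve.Φ W (n : ℤ)).map (algebraMap k L) -
    C ⟨a, haL⟩ * (WeierstrassCurve.ΨSq W (n : ℤ)).map (algebraMap k L)
  have hPdeg : P.natDegree ≤ n ^ 2 ∧ P.coeff (n ^ 2) = 1 := by
    constructor
    · refine (natDegree_sub_le _ _).trans (max_le ?_ ?_)
      · rw [natDegree_map]
        exact (WeierstrassCurve.natDegree_Φ_le W _).trans (by simp)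
      · refine (natDegree_C_mul_le _ _).trans ?_
        rw [natDegree_map]
        exact (WeierstrassCurve.natDegree_ΨSq_le W _).trans (by simp)
    · have h1 := WeierstrassCurve.coeff_Φ W (n : ℤ)
      rw [Int.natAbs_natCast] at h1
      have h2 : (WeierstrassCurve.ΨSq W (n : ℤ)).coeff (n ^ 2) = 0 := by
        refine coeff_eq_zero_of_natDegree_lt ((WeierstrassCurve.natDegree_ΨSq_le W _).trans_lt ?_)
        rw [Int.natAbs_natCast]
        have := pow_pos (Nat.pos_of_ne_zero hnat) 2
        omega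
      rw [coeff_sub, coeff_C_mul, coeff_map, coeff_map, h1, h2, map_one, map_zero, mul_zero,
        sub_zero]
  have hProot : aeval (xF W) P = 0 := by
    have h := map_mulHom (W := W) hn
    rw [gPt, Point.map_some] at h
    have hx := nsmul_some_X (nonsingular_xF_yF (W := W)) n h.symm
    rw [eval_baseChange_ΨSq, eval_baseChange_Φ] at hx
    rw [map_sub, map_mul, aeval_C, aeval_map_algebraMap, aeval_map_algebraMap]
    change aeval (xF W) (WeierstrassCurve.Φ W (n : ℤ)) -
      a * aeval (xF W) (WeierstrassCurve.ΨSq W (n : ℤ)) = 0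
    rw [← hx, ← ha_def, sub_self]
  have hP0 : P ≠ 0 := fun h => by simp [h] at hPdeg
  have hint : IsIntegral L (xF W) := IsAlgebraic.isIntegral ⟨P, hP0, hProot⟩
  have hdeg : (minpoly L (xF W)).natDegree ≤ n ^ 2 :=
    (natDegree_le_natDegree (minpoly.min L (xF W)
      (monic_of_natDegree_le_of_coeff_eq_one _ hPdeg.1 hPdeg.2) hProot)).trans hPdeg.1
  -- `y` lies in `L(x)`
  set M : IntermediateField L FF := L⟮xF W⟯
  have hxM : xF W ∈ M := mem_adjoin_simple_self L _
  have hpM : ∀ p : k[X], aeval (xF W) p ∈ M := fun p => by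
    rw [show aeval (xF W) p = ((aeval (⟨xF W, hxM⟩ : M)) p : M) from
      (aeval_algHom_apply (M.val.restrictScalars k) ⟨xF W, hxM⟩ p)]
    exact Subtype.mem _
  have hyM : yF W ∈ M := by
    obtain ⟨φ, hφ⟩ := exists_negHom (W := W)
    have hφx : φ (xF W) = xF W ∧ φ (yF W) = (W⁄FF).negY (xF W) (yF W) := by
      rw [gPt, Point.map_some, Point.neg_some, Point.some.injEq] at hφ; exact hφ
    have hφn : φ a = a ∧ φ b = (W⁄FF).negY a b := by
      have h := congrArg (Point.map φ) (map_mulHom (W := W) hn)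
      rw [map_nsmul, hφ, neg_nsmul, ← map_mulHom hn, gPt, Point.map_some, Point.map_some,
        Point.neg_some, Point.some.injEq] at h
      exact h
    have hfix : ∀ p : k[X], φ (aeval (xF W) p) = aeval (xF W) p := fun p => by
      rw [← aeval_algHom_apply, hφx.1]
    obtain ⟨r, s, hr, hs, hrs⟩ := exists_eq_div
      (show b ≠ 0 from (_root_.map_ne_zero _).mpr (yF_ne_zero W))
    obtain ⟨p₁, q₁, hs'⟩ := CoordinateRing.exists_smul_basis_eq s
    have hnorm := CoordinateRing.coe_norm_smul_basis (W' := W) p₁ q₁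
    rw [hs', map_mul] at hnorm
    set s' := CoordinateRing.mk W
      (C p₁ + C q₁ * (-(X : k[X][X]) - C (C W.a₁ * X + C W.a₃))) with hs'_def
    set N := Algebra.norm k[X] s
    have hN0 : N ≠ 0 := norm_ne_zero hs
    have hsN : s * s' = CoordinateRing.mk W (C N) := by
      change CoordinateRing.mk W (C N) = _ at hnorm
      rw [hnorm]
      congr 1
      rw [← hs', CoordinateRing.smul, CoordinateRing.smul, mul_one, ← map_mul, ← map_add]
    obtain ⟨p, q, hpq⟩ := CoordinateRing.exists_smul_basis_eq (r * s')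
    have e : b * aeval (xF W) N = aeval (xF W) p + aeval (xF W) q * yF W := by
      rw [← algebraMap_mk_C, ← hsN, map_mul, hrs, ← mul_assoc,
        div_mul_cancel₀ _ (algebraMap_ne_zero hs), ← map_mul, ← hpq, CoordinateRing.smul,
        CoordinateRing.smul, mul_one, map_add, map_mul, algebraMap_mk_C, algebraMap_mk_C]
      rfl
    have hq : q ≠ 0 := by
      rintro rfl
      rw [map_zero, zero_mul, add_zero] at e
      have e' := congrArg φ e
      rw [map_mul, hfix, hfix, ← e, hφn.2] at e'
      have hb2 := mul_right_cancel₀ (ord_aeval_xF W hN0).2 e'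
      simp only [negY, baseChange, WeierstrassCurve.baseChange, WeierstrassCurve.map] at hb2
      have ho1 : ord a = -2 := ord_mulHom_xF hn
      have ho2 : ord b = -3 := by rw [hb_def, ord_mulHom hn, ord_yF]
      have ha0 : a ≠ 0 := (_root_.map_ne_zero _).mpr (xF_ne_zero W)
      have hb0 : b ≠ 0 := (_root_.map_ne_zero _).mpr (yF_ne_zero W)
      have e2 : (algebraMap k FF (2 : k)) * b =
          -(algebraMap k FF W.a₁ * a + algebraMap k FF W.a₃) := by
        rw [map_ofNat]; linear_combination -hb2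
      by_cases h2 : (2 : k) = 0
      · rw [h2, map_zero, zero_mul, eq_comm, neg_eq_zero] at e2
        by_cases h1 : W.a₁ = 0
        · rw [h1, map_zero, zero_mul, zero_add] at e2
          exact ((a_one_or_three_ne_zero h2).resolve_left (not_not.mpr h1))
            ((_root_.map_eq_zero _).mp e2)
        · have hna : ord (algebraMap k FF W.a₁ * a) = -2 := by
            rw [ord_mul ((_root_.map_ne_zero _).mpr h1) ha0, ord_const h1, ho1]; rfl
          exact (ord_add_eq_left (mul_ne_zero ((_root_.map_ne_zero _).mpr h1) ha0)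
            ((ordGE_const W.a₃).mono (by rw [hna]; norm_num))).1 e2
      · have h2' : OrdGE (-2) (algebraMap k FF (2 : k) * b) := by
          rw [e2]
          exact (((ordGE_const W.a₁).mul (Or.inr ho1.ge : OrdGE (-2) a)).add
            ((ordGE_const W.a₃).mono (by norm_num))).neg
        have := h2'.le (mul_ne_zero ((_root_.map_ne_zero _).mpr h2) hb0)
        rw [ord_mul ((_root_.map_ne_zero _).mpr h2) hb0, ord_const h2, ho2] at this
        omega
    have hy : yF W = (b * aeval (xF W) N - aeval (xF W) p) / aeval (xF W) q := by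
      rw [eq_div_iff (ord_aeval_xF W hq).2, e]; ring
    rw [hy]
    exact div_mem (sub_mem (mul_mem (M.algebraMap_mem ⟨b, hbL⟩) (hpM N)) (hpM p)) (hpM q)
  have hM : M = ⊤ := by
    refine eq_top_iff.mpr fun f _ => ?_
    obtain ⟨r, s, _, hs⟩ := IsFractionRing.div_surjective (A := 𝔸) f
    have hA : ∀ z : 𝔸, ι z ∈ M := fun z => by
      obtain ⟨p, q, rfl⟩ := CoordinateRing.exists_smul_basis_eq z
      rw [CoordinateRing.smul, CoordinateRing.smul, mul_one, map_add, map_mul, algebraMap_mk_C,
        algebraMap_mk_C]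
      exact add_mem (hpM p) (mul_mem (hpM q) hyM)
    exact hs ▸ div_mem (hA r) (hA s)
  have : FiniteDimensional L M := adjoin.finiteDimensional hint
  let eM : M ≃ₗ[L] FF := ((IntermediateField.equivOfEq hM).trans topEquiv).toLinearEquiv
  refine ⟨eM.finiteDimensional, ?_⟩
  rw [← eM.finrank_eq, adjoin.finrank hint]
  exact hdeg

/-- The pairing is non-degenerate. -/
theorem weilPairing_nondegenerate (hn : (n : k) ≠ 0) {Q : W.Point} (hQ : n • Q = 0) (hQ0 : Q ≠ 0) :
    ∃ P : W.Point, n • P = 0 ∧ weilPairing W hn P Q ≠ 1 := by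
  by_contra hcon
  simp only [not_exists, not_and, not_not] at hcon
  have hnat : n ≠ 0 := fun h => hn (by rw [h, Nat.cast_zero])
  obtain ⟨hg, hd⟩ := weilFun_spec hn hQ
  set g := weilFun W hn Q
  let Fix : IntermediateField k FF :=
    { carrier := {f | ∀ P : W.Point, n • P = 0 → transl W P f = f}
      mul_mem' := fun ha hb P hP => by rw [map_mul, ha P hP, hb P hP]
      one_mem' := fun P _ => map_one _
      add_mem' := fun ha hb P hP => by rw [map_add, ha P hP, hb P hP]
      zero_mem' := fun P _ => map_zero _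
      algebraMap_mem' := fun r P _ => AlgHom.commutes _ r
      inv_mem' := fun f hf P hP => by rw [map_inv₀, hf P hP] }
  set L := (mulHom W hn).fieldRange
  have hLFix : L ≤ Fix := by
    rintro _ ⟨f, rfl⟩ P hP
    change transl W P (mulHom W hn f) = mulHom W hn f
    rw [transl_mulHom, hP, transl_zero]
  have hgFix : g ∈ Fix := fun P hP => by
    rw [transl_weilFun hn hP hQ, hcon P hP, map_one, one_mul]
  obtain ⟨hfin, hle⟩ := finrank_mulHom_le (W := W) hn
  -- `n²` automorphisms fix `Fix`
  have : Finite {P : W.Point // n • P = 0} :=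
    Nat.finite_of_card_ne_zero (by rw [card_nsmul_eq_zero W hn]; exact pow_ne_zero 2 hnat)
  let F' : IntermediateField L FF := extendScalars hLFix
  let tr : {P : W.Point // n • P = 0} → (FF →ₐ[F'] FF) := fun P =>
    { (transl W P.1).toRingHom with commutes' := fun r => r.2 P.1 P.2 }
  have htr : Function.Injective tr := fun P P' h => by
    have h' : transl W P.1 = transl W P'.1 := AlgHom.ext fun f => congr($h f)
    have h'' := map_transl (W := W) P.1
    rw [h', map_transl, add_right_inj] at h''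
    exact Subtype.ext (cst_injective h''.symm)
  have : FiniteDimensional F' FF := FiniteDimensional.right L F' FF
  have h1 : n ^ 2 ≤ Module.finrank F' FF := by
    rw [← card_nsmul_eq_zero W hn]
    exact (Nat.card_le_card_of_injective tr htr).trans (by
      rw [Nat.card_eq_fintype_card]; exact AlgHom.card_le)
  have h2 := Module.finrank_mul_finrank L F' FF
  have hpos : 0 < Module.finrank F' FF := Module.finrank_pos
  have h3 : Module.finrank L F' = 1 := by
    have : FiniteDimensional L F' := FiniteDimensional.left L F' FF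
    have h4 : 0 < Module.finrank L F' := Module.finrank_pos
    nlinarith
  have hbot : F' = ⊥ := IntermediateField.finrank_eq_one_iff.mp h3
  have hgL : g ∈ L := by
    have : g ∈ F' := hgFix
    rw [hbot, IntermediateField.mem_bot] at this
    obtain ⟨l, hl⟩ := this
    exact hl ▸ l.2
  obtain ⟨f, hf⟩ := hgL
  change mulHom W hn f = g at hf
  have hf0 : f ≠ 0 := by rintro rfl; exact hg (by rw [← hf, map_zero])
  have hdf : ∀ S : W.Point, ordAt S f = δ S Q - δ S 0 := fun S => by
    obtain ⟨R, rfl⟩ := nsmul_surjective W hnat S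
    rw [← ordAt_mulHom hn, hf, hd]
  have h0 : ord f = -1 := by
    rw [← ordAt_zero (W := W), hdf, δ_self, δ_of_ne hQ0.symm]; rfl
  obtain ⟨a, ha, rfl⟩ := exists_eq_const hf0 (fun R hR => by
    rw [hdf, δ_of_ne hR, sub_zero, δ]; split_ifs <;> norm_num) h0.ge
  rw [ord_const ha] at h0
  omega

end Nondegenerate

end FLTAgent.ECTorsion.Weil
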